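/-
GE9-NUMCRIT (S59 pre-work, helper82): Wiles–Lenstra numerical criterion, common definitions.
Mathlib only.
* `etaIdeal π`     : the congruence ideal `η = π (Ann (ker π))` of an augmented `O`-algebra;
* `socle B`        : `Ann (𝔪_B)` for a local ring `B`;
* `SocPrincipal B` : the socle is a principal ideal (for artinian local `B`: `B` is Gorenstein).
-/
import Mathlib

set_option autoImplicit false

namespace Fermat.Agent.GE9.NumCrit

open IsLocalRing

/-- the congruence ideal `η = π (Ann (ker π))` of an augmented `O`-algebra `π : A → O`. -/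
def etaIdeal {O A : Type*} [CommRing O] [CommRing A] [Algebra O A] (π : A →ₐ[O] O) : Ideal O :=
  Ideal.map (π : A →+* O) (Submodule.annihilator (RingHom.ker (π : A →+* O)))

theorem mem_etaIdeal {O A : Type*} [CommRing O] [CommRing A] [Algebra O A] (π : A →ₐ[O] O)
    (c : O) : c ∈ etaIdeal π ↔ ∃ a : A, (∀ x : A, π x = 0 → a * x = 0) ∧ π a = c := by
  have hsurj : Function.Surjective (π : A →+* O) := fun c =>
    ⟨algebraMap O A c, by simp⟩
  rw [etaIdeal, Ideal.mem_map_iff_of_surjective _ hsurj]
  constructor
  · rintro ⟨a, ha, rfl⟩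
    refine ⟨a, fun x hx => ?_, rfl⟩
    have := Submodule.mem_annihilator.mp ha x (by simpa [RingHom.mem_ker] using hx)
    simpa [smul_eq_mul] using this
  · rintro ⟨a, ha, rfl⟩
    refine ⟨a, Submodule.mem_annihilator.mpr fun x hx => ?_, rfl⟩
    have hx' : π x = 0 := by simpa [RingHom.mem_ker] using hx
    simpa [smul_eq_mul] using ha x hx'

/-- the socle `Ann 𝔪` of a local ring. -/
def socle (B : Type*) [CommRing B] [IsLocalRing B] : Ideal B :=
  Submodule.annihilator (maximalIdeal B)

theorem mem_socle {B : Type*} [CommRing B] [IsLocalRing B] (z : B) :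
    z ∈ socle B ↔ ∀ t ∈ maximalIdeal B, t * z = 0 := by
  rw [socle, Submodule.mem_annihilator]
  refine forall₂_congr fun t _ => ?_
  rw [smul_eq_mul, mul_comm]

/-- the socle of the local ring `B` is a principal ideal. -/
def SocPrincipal (B : Type*) [CommRing B] [IsLocalRing B] : Prop :=
  ∃ s : B, socle B = Ideal.span {s}

end Fermat.Agent.GE9.NumCrit
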