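/-
GE9-NUMCRIT (S59 pre-work), leaf (L6) of helper82's split (board 6384) — helper45.  Mathlib only.

Power series in `m` variables over `O`: the linear part `lin`, the augmentation ideal
`ker constantCoeff = (X₁, …, X_m)`, and the regular sequence `X₁, …, X_m, ϖ`.

* `mem_span_X_iff` : `f ∈ (X_j : j ∈ s) ↔` every coefficient `f_α` with `α_j = 0 ∀ j ∈ s` vanishes;
* `lin`, `ker_constantCoeff_eq_span`, `lin_sum_mul_X`, `lin_mul`, `mem_sq_of_lin_eq_zero`,
  `isWeaklyRegular_X_C`  — the statements of (L6) VERBATIM.
-/
import Mathlib

set_option autoImplicit false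

namespace Fermat.Agent.GE9.NumCrit

open MvPowerSeries

variable {O : Type*} [CommRing O] {m : ℕ}

/-! ### The ideal generated by a set of variables -/

theorem coeff_mul_X_of_eq_zero {σ : Type*} (f : MvPowerSeries σ O) (j : σ) (α : σ →₀ ℕ)
    (hα : α j = 0) : coeff α (f * X j) = 0 := by
  classical
  rw [X_def, coeff_mul_monomial, if_neg]
  intro hle
  have := hle j
  rw [Finsupp.single_eq_same, hα] at this
  omega

theorem coeff_add_single_mul_X {σ : Type*} (f : MvPowerSeries σ O) (j : σ) (β : σ →₀ ℕ) :
    coeff (β + Finsupp.single j 1) (f * X j) = coeff β f := by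
  rw [X_def, coeff_add_mul_monomial, mul_one]

/-- `f ∈ (X_j : j ∈ s)` iff every coefficient `f_α` with `α_j = 0` for all `j ∈ s` vanishes. -/
theorem mem_span_X_iff {σ : Type*} (s : Finset σ) (f : MvPowerSeries σ O) :
    f ∈ Ideal.span ((fun j => (X j : MvPowerSeries σ O)) '' (s : Set σ)) ↔
      ∀ α : σ →₀ ℕ, (∀ j ∈ s, α j = 0) → coeff α f = 0 := by
  classical
  constructor
  · intro hf
    induction hf using Submodule.span_induction with
    | mem x hx =>
      obtain ⟨j, hj, rfl⟩ := hx
      intro α hα
      have := coeff_mul_X_of_eq_zero (1 : MvPowerSeries σ O) j α (hα j hj)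
      rwa [one_mul] at this
    | zero => intro α _; exact map_zero _
    | add x y _ _ hx hy =>
      intro α hα
      rw [map_add, hx α hα, hy α hα, add_zero]
    | smul u x _ hx =>
      intro α hα
      rw [smul_eq_mul, coeff_mul]
      apply Finset.sum_eq_zero
      rintro ⟨β, γ⟩ hβγ
      rw [Finset.HasAntidiagonal.mem_antidiagonal] at hβγ
      have hγ : ∀ j ∈ s, γ j = 0 := by
        intro j hj
        have h1 := hα j hj
        rw [← hβγ] at h1
        have h2 : β j + γ j = 0 := h1
        omega
      rw [hx γ hγ, mul_zero]
  · induction s using Finset.induction_on generalizing f with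
    | empty =>
      intro h
      have : f = 0 := by
        ext α
        rw [h α (fun j hj => absurd hj (Finset.notMem_empty j)), map_zero]
      rw [this]
      exact Submodule.zero_mem _
    | insert a s _ ih =>
      intro h
      -- `f = g * X a + f'`
      set g : MvPowerSeries σ O := fun β => coeff (β + Finsupp.single a 1) f with hg
      set f' : MvPowerSeries σ O := fun α => if α a = 0 then coeff α f else 0 with hf'
      have hdec : f = g * X a + f' := by
        ext α
        rw [map_add]
        by_cases ha : α a = 0
        · rw [coeff_mul_X_of_eq_zero g a α ha, zero_add]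
          show coeff α f = f' α
          rw [hf']
          simp only [ha, if_true]
        · have hα : α = (α - Finsupp.single a 1) + Finsupp.single a 1 := by
            ext t
            by_cases hta : a = t
            · subst hta
              simp only [Finsupp.add_apply, Finsupp.tsub_apply, Finsupp.single_eq_same]
              omega
            · simp [Finsupp.single_eq_of_ne (Ne.symm hta)]
          have h1 : coeff α (g * X a) = coeff α f := by
            conv_lhs => rw [hα]
            rw [coeff_add_single_mul_X]
            show coeff ((α - Finsupp.single a 1) + Finsupp.single a 1) f = coeff α f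
            rw [← hα]
          have h2 : coeff α f' = 0 := by
            show f' α = 0
            rw [hf']
            simp only [ha, if_false]
          rw [h1, h2, add_zero]
      have hf'mem : f' ∈ Ideal.span ((fun j => (X j : MvPowerSeries σ O)) '' (s : Set σ)) := by
        apply ih
        intro α hα
        show f' α = 0
        rw [hf']
        by_cases ha : α a = 0
        · simp only [ha, if_true]
          apply h α
          intro j hj
          rcases Finset.mem_insert.mp hj with rfl | hj
          · exact ha
          · exact hα j hj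
        · simp only [ha, if_false]
      rw [hdec]
      apply Submodule.add_mem
      · apply Ideal.mul_mem_left
        apply Ideal.subset_span
        exact ⟨a, Finset.mem_insert_self a s, rfl⟩
      · refine Ideal.span_mono ?_ hf'mem
        apply Set.image_mono
        intro j hj
        exact Finset.mem_insert_of_mem hj

/-! ### The linear part -/

/-- the linear part of a power series: the vector of the coefficients of `X₁, …, X_m`. -/
noncomputable def lin : MvPowerSeries (Fin m) O →ₗ[O] (Fin m → O) where
  toFun f i := coeff (Finsupp.single i 1) f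
  map_add' f g := by ext i; simp
  map_smul' c f := by ext i; simp

theorem lin_apply (f : MvPowerSeries (Fin m) O) (i : Fin m) :
    lin f i = coeff (Finsupp.single i 1) f := rfl

/-- the augmentation ideal is generated by the variables -/
theorem ker_constantCoeff_eq_span :
    RingHom.ker (constantCoeff (σ := Fin m) (R := O)) =
      Ideal.span (Set.range fun i : Fin m => (X i : MvPowerSeries (Fin m) O)) := by
  ext f
  have h1 : Set.range (fun i : Fin m => (X i : MvPowerSeries (Fin m) O)) =
      (fun j => (X j : MvPowerSeries (Fin m) O)) '' ((Finset.univ : Finset (Fin m)) : Set (Fin m)) := by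
    rw [Finset.coe_univ, Set.image_univ]
  rw [h1, mem_span_X_iff, RingHom.mem_ker, ← coeff_zero_eq_constantCoeff_apply]
  constructor
  · intro h α hα
    have : α = 0 := by
      ext j
      exact hα j (Finset.mem_univ j)
    rw [this, h]
  · intro h
    exact h 0 (fun j _ => rfl)

theorem lin_sum_mul_X (a : Fin m → MvPowerSeries (Fin m) O) :
    lin (∑ i, a i * X i) = fun i => constantCoeff (a i) := by
  classical
  ext i
  rw [lin_apply, map_sum, Finset.sum_eq_single i]
  · have := coeff_add_single_mul_X (a i) i 0
    rw [zero_add] at this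
    rw [this, coeff_zero_eq_constantCoeff_apply]
  · intro k _ hki
    apply coeff_mul_X_of_eq_zero
    rw [Finsupp.single_eq_of_ne hki]
  · intro h
    exact absurd (Finset.mem_univ i) h

theorem exists_eq_sum_mul_X (f : MvPowerSeries (Fin m) O) (hf : constantCoeff f = 0) :
    ∃ a : Fin m → MvPowerSeries (Fin m) O, f = ∑ i, a i * X i := by
  have h : f ∈ RingHom.ker (constantCoeff (σ := Fin m) (R := O)) := hf
  rw [ker_constantCoeff_eq_span, Ideal.mem_span_range_iff_exists_fun] at h
  obtain ⟨c, hc⟩ := h
  exact ⟨c, hc.symm⟩

theorem lin_mul (u f : MvPowerSeries (Fin m) O) (hf : constantCoeff f = 0) :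
    lin (u * f) = constantCoeff u • lin f := by
  obtain ⟨a, rfl⟩ := exists_eq_sum_mul_X f hf
  have h1 : u * ∑ i, a i * X i = ∑ i, (u * a i) * X i := by
    rw [Finset.mul_sum]
    exact Finset.sum_congr rfl fun i _ => (mul_assoc _ _ _).symm
  rw [h1, lin_sum_mul_X, lin_sum_mul_X]
  ext i
  rw [Pi.smul_apply, smul_eq_mul, map_mul]

theorem mem_sq_of_lin_eq_zero (f : MvPowerSeries (Fin m) O) (hf : constantCoeff f = 0)
    (hl : lin f = 0) : f ∈ RingHom.ker (constantCoeff (σ := Fin m) (R := O)) ^ 2 := by
  obtain ⟨a, rfl⟩ := exists_eq_sum_mul_X f hf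
  rw [lin_sum_mul_X] at hl
  apply Ideal.sum_mem
  intro i _
  rw [pow_two]
  apply Ideal.mul_mem_mul
  · exact congrFun hl i
  · exact constantCoeff_X i

/-! ### The regular sequence `X₁, …, X_m, ϖ` -/

theorem ofList_smul_top_eq {R : Type*} [CommRing R] (I : Ideal R) :
    (I • (⊤ : Submodule R R) : Submodule R R) = I := by
  rw [smul_eq_mul, Ideal.mul_top]

/-- the ideal generated by the first `i` variables -/
theorem mem_ofList_take_iff (i : ℕ) (_hi : i ≤ m) (f : MvPowerSeries (Fin m) O) :
    f ∈ Ideal.ofList ((List.ofFn fun j : Fin m => (X j : MvPowerSeries (Fin m) O)).take i) ↔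
      ∀ α : Fin m →₀ ℕ, (∀ j : Fin m, j.val < i → α j = 0) → coeff α f = 0 := by
  classical
  have h1 : {r | r ∈ (List.ofFn fun j : Fin m => (X j : MvPowerSeries (Fin m) O)).take i} =
      (fun j => (X j : MvPowerSeries (Fin m) O)) ''
        (((Finset.univ : Finset (Fin m)).filter fun j => j.val < i : Finset (Fin m)) :
          Set (Fin m)) := by
    ext r
    simp only [Set.mem_ofPred_eq, Set.mem_image, Finset.coe_filter, Finset.mem_univ, true_and]
    rw [List.mem_take_iff_getElem]
    constructor
    · rintro ⟨k, hk, rfl⟩
      rw [List.length_ofFn] at hk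
      have hkm : k < m := lt_of_lt_of_le hk (min_le_right _ _)
      have hki : k < i := lt_of_lt_of_le hk (min_le_left _ _)
      refine ⟨⟨k, hkm⟩, hki, ?_⟩
      rw [List.getElem_ofFn]
    · rintro ⟨j, hj, rfl⟩
      refine ⟨j.val, ?_, ?_⟩
      · rw [List.length_ofFn]
        exact lt_min hj j.isLt
      · rw [List.getElem_ofFn]
  rw [Ideal.ofList, h1, mem_span_X_iff]
  constructor
  · intro h α hα
    exact h α fun j hj => hα j (Finset.mem_filter.mp hj).2
  · intro h α hα
    exact h α fun j hj => hα j (Finset.mem_filter.mpr ⟨Finset.mem_univ j, hj⟩)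

theorem isWeaklyRegular_X_C (ϖ : O) (hϖ : ϖ ∈ nonZeroDivisors O) :
    RingTheory.Sequence.IsWeaklyRegular (MvPowerSeries (Fin m) O)
      (List.ofFn (fun i : Fin m => (X i : MvPowerSeries (Fin m) O)) ++ [C ϖ]) := by
  classical
  rw [RingTheory.Sequence.isWeaklyRegular_append_iff]
  constructor
  · -- the variables
    refine ⟨fun i hi => ?_⟩
    rw [List.length_ofFn] at hi
    rw [isSMulRegular_quotient_iff_mem_of_smul_mem]
    intro f hf
    rw [ofList_smul_top_eq] at hf ⊢
    rw [mem_ofList_take_iff i hi.le] at hf ⊢
    intro β hβ
    rw [List.getElem_ofFn, smul_eq_mul, mul_comm] at hf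
    have h1 := hf (β + Finsupp.single (⟨i, hi⟩ : Fin m) 1) (by
      intro j hj
      have hne : (⟨i, hi⟩ : Fin m) ≠ j := by
        intro h
        rw [← h] at hj
        exact lt_irrefl _ hj
      rw [Finsupp.add_apply, hβ j hj, Finsupp.single_eq_of_ne hne.symm, add_zero])
    rwa [coeff_add_single_mul_X] at h1
  · -- the constant `ϖ`
    rw [RingTheory.Sequence.isWeaklyRegular_singleton_iff,
      isSMulRegular_quotient_iff_mem_of_smul_mem]
    intro f hf
    rw [ofList_smul_top_eq] at hf ⊢
    have h2 : Ideal.ofList (List.ofFn fun j : Fin m => (X j : MvPowerSeries (Fin m) O)) =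
        RingHom.ker (constantCoeff (σ := Fin m) (R := O)) := by
      rw [ker_constantCoeff_eq_span, Ideal.ofList]
      congr 1
      ext r
      simp only [Set.mem_ofPred_eq, List.mem_ofFn, Set.mem_range]
    rw [h2, RingHom.mem_ker] at hf ⊢
    rw [smul_eq_mul, map_mul, constantCoeff_C] at hf
    exact (mul_left_mem_nonZeroDivisors_eq_zero_iff hϖ).mp hf

end Fermat.Agent.GE9.NumCrit
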