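/-
GE9-NUMCRIT (S59 pre-work, helper82): the Cohen–Macaulay exchange theorem, elementary form.
In a noetherian local ring `A`, relative to a base ideal `I₀`: if ONE sequence `x` of length `d`
in `𝔪` is regular on `A ⧸ I₀` and `I₀ + (x)` is `𝔪`-primary, then EVERY sequence `y` of length `d`
in `𝔪` with `I₀ + (y)` `𝔪`-primary is regular on `A ⧸ I₀`.
Mathlib only (prime avoidance, Krull's principal ideal theorem, permutation of regular sequences).
-/
import Mathlib

set_option autoImplicit false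

namespace Fermat.Agent.GE9.NumCrit

open IsLocalRing RingTheory.Sequence

variable {A : Type*} [CommRing A]

/-- `a` is a nonzerodivisor modulo `J`. -/
def RegMod (J : Ideal A) (a : A) : Prop := ∀ z, a * z ∈ J → z ∈ J

/-- `l` is a weakly regular sequence on `A ⧸ I₀`, in elementary terms. -/
def RegSeq : Ideal A → List A → Prop
  | _, [] => True
  | I₀, a :: l => RegMod I₀ a ∧ RegSeq (I₀ ⊔ Ideal.span {a}) l

@[simp] theorem regSeq_nil (I₀ : Ideal A) : RegSeq I₀ [] := trivial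

theorem regSeq_cons (I₀ : Ideal A) (a : A) (l : List A) :
    RegSeq I₀ (a :: l) ↔ RegMod I₀ a ∧ RegSeq (I₀ ⊔ Ideal.span {a}) l := Iff.rfl

theorem regSeq_append (I₀ : Ideal A) (l₁ l₂ : List A) :
    RegSeq I₀ (l₁ ++ l₂) ↔ RegSeq I₀ l₁ ∧ RegSeq (I₀ ⊔ Ideal.ofList l₁) l₂ := by
  induction l₁ generalizing I₀ with
  | nil => simp
  | cons a l ih =>
    rw [List.cons_append, regSeq_cons, regSeq_cons, ih, Ideal.ofList_cons, sup_assoc, and_assoc]

theorem regSeq_append_singleton (I₀ : Ideal A) (l : List A) (a : A) :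
    RegSeq I₀ (l ++ [a]) ↔ RegSeq I₀ l ∧ RegMod (I₀ ⊔ Ideal.ofList l) a := by
  rw [regSeq_append, regSeq_cons]
  simp

theorem regMod_iff_isSMulRegular (J : Ideal A) (a : A) :
    RegMod J a ↔ IsSMulRegular (A ⧸ J) a := by
  rw [isSMulRegular_quotient_iff_mem_of_smul_mem]
  rfl

/-- the `A`-linear equivalence `(A ⧸ I₀) ⧸ a (A ⧸ I₀) ≃ A ⧸ (I₀ + (a))`. -/
noncomputable def quotSMulTopQuotEquiv (I₀ : Ideal A) (a : A) :
    QuotSMulTop a (A ⧸ I₀) ≃ₗ[A] (A ⧸ (I₀ ⊔ Ideal.span {a})) :=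
  (Submodule.quotEquivOfEq _ _ (by
    rw [← Submodule.ideal_span_singleton_smul a (⊤ : Submodule A (A ⧸ I₀)),
      ← Submodule.range_mkQ I₀, ← Submodule.map_top, ← Submodule.map_smul'']
    congr 1
    rw [smul_eq_mul, Ideal.mul_top])).trans
    (Submodule.quotientQuotientEquivQuotientSup I₀ (Ideal.span {a}))

theorem regSeq_iff_isWeaklyRegular (I₀ : Ideal A) (l : List A) :
    RegSeq I₀ l ↔ IsWeaklyRegular (A ⧸ I₀) l := by
  induction l generalizing I₀ with
  | nil => simp [IsWeaklyRegular.nil]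
  | cons a l ih =>
    rw [regSeq_cons, isWeaklyRegular_cons_iff, regMod_iff_isSMulRegular, ih,
      (quotSMulTopQuotEquiv I₀ a).isWeaklyRegular_congr]


section Local

variable [IsLocalRing A]

/-- permutation of relative regular sequences in a noetherian local ring. -/
theorem RegSeq.perm [IsNoetherianRing A] {I₀ : Ideal A} {l l' : List A} (h : RegSeq I₀ l)
    (hp : l.Perm l') (h𝔪 : ∀ a ∈ l, a ∈ maximalIdeal A) : RegSeq I₀ l' := by
  rw [regSeq_iff_isWeaklyRegular] at h ⊢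
  exact IsLocalRing.isWeaklyRegular_of_perm_of_subset_maximalIdeal h hp h𝔪

/-- `I` contains a power of the maximal ideal. -/
def MPrimary (I : Ideal A) : Prop := ∃ n : ℕ, maximalIdeal A ^ n ≤ I

theorem MPrimary.mono {I J : Ideal A} (h : MPrimary I) (hIJ : I ≤ J) : MPrimary J :=
  let ⟨n, hn⟩ := h; ⟨n, hn.trans hIJ⟩

theorem MPrimary.eq_maximalIdeal {I : Ideal A} (h : MPrimary I) {P : Ideal A} (hP : P.IsPrime)
    (hIP : I ≤ P) : P = maximalIdeal A := by
  obtain ⟨n, hn⟩ := h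
  have h1 : maximalIdeal A ≤ P := hP.le_of_pow_le (hn.trans hIP)
  exact ((maximalIdeal.isMaximal A).eq_of_le hP.ne_top h1).symm

theorem mPrimary_of_forall_prime [IsNoetherianRing A] {I : Ideal A}
    (h : ∀ P : Ideal A, P.IsPrime → I ≤ P → P = maximalIdeal A) : MPrimary I := by
  refine Ideal.exists_pow_le_of_le_radical_of_fg ?_ (IsNoetherian.noetherian _)
  rw [Ideal.radical_eq_sInf]
  refine le_sInf ?_
  rintro P ⟨hIP, hP⟩
  exact (h P hP hIP).ge


/-- **Krull step**: if `J + (x₀)` is `𝔪`-primary and `h` avoids the non-maximal minimal primes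
of `J`, then `J + (h)` is `𝔪`-primary. -/
theorem mPrimary_sup_span_of_avoid [IsNoetherianRing A] {J : Ideal A} {x₀ h : A}
    (hx₀ : x₀ ∈ maximalIdeal A) (hx : MPrimary (J ⊔ Ideal.span {x₀}))
    (hh : ∀ P ∈ J.minimalPrimes, P ≠ maximalIdeal A → h ∉ P) :
    MPrimary (J ⊔ Ideal.span {h}) := by
  refine mPrimary_of_forall_prime fun P hP hJP => ?_
  have := hP
  have hJ : J ≤ P := le_sup_left.trans hJP
  have hhP : h ∈ P := hJP (Ideal.mem_sup_right (Ideal.mem_span_singleton_self h))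
  obtain ⟨P₀, hP₀, hP₀P⟩ := Ideal.exists_minimalPrimes_le hJ
  by_cases h0 : P₀ = maximalIdeal A
  · exact ((maximalIdeal.isMaximal A).eq_of_le hP.ne_top (h0 ▸ hP₀P)).symm
  by_contra hne
  have hPlt : P < maximalIdeal A := lt_of_le_of_ne (le_maximalIdeal hP.ne_top) hne
  have hP₀lt : P₀ < P := lt_of_le_of_ne hP₀P (fun e => hh P₀ hP₀ h0 (e ▸ hhP))
  have hP₀prime : P₀.IsPrime := hP₀.1.1
  have hmin : maximalIdeal A ∈ (P₀ ⊔ Ideal.span {x₀}).minimalPrimes := by
    refine ⟨⟨inferInstance, sup_le (le_maximalIdeal hP₀prime.ne_top) ?_⟩, ?_⟩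
    · rwa [Ideal.span_le, Set.singleton_subset_iff]
    · rintro Q ⟨hQ, hQle⟩ _
      exact (hx.eq_maximalIdeal hQ ((sup_le_sup_right hP₀.1.2 _).trans hQle)).ge
  have hht := Ideal.map_height_le_one_of_mem_minimalPrimes hmin
  set f := Ideal.Quotient.mk P₀ with hf
  have hfs : Function.Surjective f := Ideal.Quotient.mk_surjective
  have : (P.map f).IsPrime := Ideal.map_isPrime_of_surjective hfs (by rwa [Ideal.mk_ker])
  have : ((maximalIdeal A).map f).IsPrime :=
    Ideal.map_isPrime_of_surjective hfs (by rw [Ideal.mk_ker]; exact hP₀P.trans hPlt.le)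
  have h_lt : P.map f < (maximalIdeal A).map f :=
    (Ideal.map_mono hPlt.le).lt_of_not_ge fun e => hPlt.not_ge <| by
      simpa only [Ideal.comap_map_of_surjective f hfs, ← RingHom.ker_eq_comap_bot, f, Ideal.mk_ker,
        sup_eq_left.mpr hP₀P, sup_eq_left.mpr (hP₀P.trans hPlt.le)] using
          Ideal.comap_mono (f := f) e
  have h_ne : (P.map f).height ≠ 0 := by
    rw [Ne, Ideal.height_eq_zero_iff_eq_bot, Ideal.map_eq_bot_iff_le_ker, Ideal.mk_ker]
    exact hP₀lt.not_ge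
  have h2 := Ideal.height_add_one_le_of_lt_of_isPrime h_lt
  have h3 : (1 : ℕ∞) ≤ (P.map f).height := Order.one_le_iff_ne_zero.mpr h_ne
  have h4 : (1 : ℕ∞) + 1 ≤ 1 := (add_le_add_left h3 1).trans (h2.trans hht)
  exact absurd h4 (by decide)


omit [IsLocalRing A] in
theorem RegMod.pow {J : Ideal A} {h : A} (hh : RegMod J h) (n : ℕ) : RegMod J (h ^ n) := by
  induction n with
  | zero => intro z hz; simpa using hz
  | succ n ih =>
    intro z hz
    refine ih z (hh _ ?_)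
    rw [← mul_assoc, ← pow_succ']
    exact hz

/-- in a local ring, if `h ∈ 𝔪` is regular modulo `J` and `J + (y₀)` is `𝔪`-primary, then `y₀` is
regular modulo `J`. -/
theorem regMod_of_mPrimary {J : Ideal A} {h y₀ : A} (hh𝔪 : h ∈ maximalIdeal A)
    (hh : RegMod J h) (hy : MPrimary (J ⊔ Ideal.span {y₀})) : RegMod J y₀ := by
  obtain ⟨n, hn⟩ := hy
  have h1 : h ^ n ∈ J ⊔ Ideal.span {y₀} := hn (Ideal.pow_mem_pow hh𝔪 n)
  obtain ⟨j, hj, c, hc, hjc⟩ := Submodule.mem_sup.mp h1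
  obtain ⟨c', rfl⟩ := Ideal.mem_span_singleton'.mp hc
  intro z hz
  refine hh.pow n z ?_
  rw [← hjc, add_mul]
  refine J.add_mem (J.mul_mem_right _ hj) ?_
  rw [mul_assoc]
  exact J.mul_mem_left _ hz

/-- prime avoidance in a local ring: finitely many primes different from `𝔪` do not cover `𝔪`. -/
theorem exists_mem_maximalIdeal_notMem {S : Set (Ideal A)} (hS : S.Finite)
    (hprime : ∀ P ∈ S, P.IsPrime) (hne : ∀ P ∈ S, P ≠ maximalIdeal A) :
    ∃ h ∈ maximalIdeal A, ∀ P ∈ S, h ∉ P := by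
  by_contra hcon
  push Not at hcon
  have hsub : ((maximalIdeal A : Ideal A) : Set A) ⊆ ⋃ P ∈ S, ((id P : Ideal A) : Set A) := by
    intro h hh
    obtain ⟨P, hP, hhP⟩ := hcon h hh
    exact Set.mem_biUnion hP hhP
  obtain ⟨P, hP, hle⟩ := (Ideal.subset_union_prime_finite hS (f := id) (maximalIdeal A)
    (maximalIdeal A) (fun P hP _ _ => hprime P hP)).mp hsub
  exact hne P hP ((maximalIdeal.isMaximal A).eq_of_le (hprime P hP).ne_top hle).symm

/-- `𝔪` is not an associated prime of `A ⧸ J` if some element of `𝔪` is regular modulo `J`. -/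
theorem maximalIdeal_notMem_associatedPrimes {J : Ideal A} {x₀ : A} (hx₀ : x₀ ∈ maximalIdeal A)
    (hreg : RegMod J x₀) : maximalIdeal A ∉ associatedPrimes A (A ⧸ J) := by
  intro hass
  obtain ⟨-, z, hz⟩ := hass
  obtain ⟨z, rfl⟩ := Ideal.Quotient.mk_surjective z
  have h1 : x₀ ∈ ((⊥ : Submodule A (A ⧸ J)).colon {Ideal.Quotient.mk J z}).radical := hz ▸ hx₀
  obtain ⟨k, hk⟩ := Ideal.mem_radical_iff.mp h1
  rw [Submodule.mem_colon_singleton, Submodule.mem_bot] at hk
  have h2 : x₀ ^ k * z ∈ J := by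
    rw [← Ideal.Quotient.eq_zero_iff_mem, map_mul]
    simpa [Algebra.smul_def] using hk
  have h3 : Ideal.Quotient.mk J z = 0 := Ideal.Quotient.eq_zero_iff_mem.mpr (hreg.pow k z h2)
  have h4 : (1 : A) ∈ maximalIdeal A := by
    rw [hz]
    refine Ideal.le_radical ?_
    rw [Submodule.mem_colon_singleton, h3, smul_zero]
    exact Submodule.zero_mem _
  exact (maximalIdeal.isMaximal A).ne_top ((Ideal.eq_top_iff_one _).mpr h4)


/-- choice of the auxiliary parameter `h`: regular modulo `Jx`, and `Jx + (h)`, `Jy + (h)` are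
`𝔪`-primary. -/
theorem exists_aux_parameter [IsNoetherianRing A] {Jx Jy : Ideal A} {x₀ y₀ : A}
    (hx₀ : x₀ ∈ maximalIdeal A) (hy₀ : y₀ ∈ maximalIdeal A) (hreg : RegMod Jx x₀)
    (hxP : MPrimary (Jx ⊔ Ideal.span {x₀})) (hyP : MPrimary (Jy ⊔ Ideal.span {y₀})) :
    ∃ h ∈ maximalIdeal A, RegMod Jx h ∧ MPrimary (Jx ⊔ Ideal.span {h}) ∧
      MPrimary (Jy ⊔ Ideal.span {h}) := by
  let S : Set (Ideal A) :=
    {P | P ∈ Jx.minimalPrimes ∪ Jy.minimalPrimes ∪ associatedPrimes A (A ⧸ Jx) ∧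
      P ≠ maximalIdeal A}
  have hSfin : S.Finite :=
    (((Ideal.finite_minimalPrimes_of_isNoetherianRing A Jx).union
      (Ideal.finite_minimalPrimes_of_isNoetherianRing A Jy)).union
        (associatedPrimes.finite A (A ⧸ Jx))).subset fun P hP => hP.1
  have hSprime : ∀ P ∈ S, P.IsPrime := by
    rintro P ⟨(hP | hP) | hP, -⟩
    · exact hP.1.1
    · exact hP.1.1
    · exact hP.1
  obtain ⟨h, hh𝔪, hhS⟩ := exists_mem_maximalIdeal_notMem hSfin hSprime (fun P hP => hP.2)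
  refine ⟨h, hh𝔪, ?_, ?_, ?_⟩
  · rw [regMod_iff_isSMulRegular]
    by_contra hcon
    have h1 : h ∈ ({r : A | IsSMulRegular (A ⧸ Jx) r}ᶜ : Set A) := hcon
    rw [← biUnion_associatedPrimes_eq_compl_regular] at h1
    obtain ⟨P, hP, hhP⟩ := Set.mem_iUnion₂.mp h1
    refine hhS P ⟨Or.inr hP, ?_⟩ hhP
    rintro rfl
    exact maximalIdeal_notMem_associatedPrimes hx₀ hreg hP
  · exact mPrimary_sup_span_of_avoid hx₀ hxP fun P hP hne =>
      hhS P ⟨Or.inl (Or.inl hP), hne⟩
  · exact mPrimary_sup_span_of_avoid hy₀ hyP fun P hP hne =>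
      hhS P ⟨Or.inl (Or.inr hP), hne⟩

/-- **Cohen–Macaulay exchange**: relative to `I₀`, if one sequence of length `d` in `𝔪` is regular
with `𝔪`-primary ideal, then so is every sequence of length `d` in `𝔪` with `𝔪`-primary ideal. -/
theorem regSeq_exchange [IsNoetherianRing A] (d : ℕ) :
    ∀ (I₀ : Ideal A) (x y : List A), x.length = d → y.length = d →
      (∀ a ∈ x, a ∈ maximalIdeal A) → (∀ a ∈ y, a ∈ maximalIdeal A) → RegSeq I₀ x →
      MPrimary (I₀ ⊔ Ideal.ofList x) → MPrimary (I₀ ⊔ Ideal.ofList y) → RegSeq I₀ y := by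
  induction d with
  | zero =>
    intro I₀ x y _ hy _ _ _ _ _
    rw [List.length_eq_zero_iff.mp hy]
    trivial
  | succ d ih =>
    intro I₀ x y hxl hyl hx𝔪 hy𝔪 hx hxP hyP
    obtain ⟨x₀, x', rfl⟩ := List.exists_cons_of_length_eq_add_one hxl
    obtain ⟨y₀, y', rfl⟩ := List.exists_cons_of_length_eq_add_one hyl
    have hx₀ : x₀ ∈ maximalIdeal A := hx𝔪 x₀ List.mem_cons_self
    have hy₀ : y₀ ∈ maximalIdeal A := hy𝔪 y₀ List.mem_cons_self
    have hx'𝔪 : ∀ a ∈ x', a ∈ maximalIdeal A := fun a ha => hx𝔪 a (List.mem_cons_of_mem _ ha)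
    have hy'𝔪 : ∀ a ∈ y', a ∈ maximalIdeal A := fun a ha => hy𝔪 a (List.mem_cons_of_mem _ ha)
    -- move `x₀` to the end
    have hx1 : RegSeq I₀ (x' ++ [x₀]) :=
      hx.perm (List.perm_append_singleton x₀ x').symm hx𝔪
    rw [regSeq_append_singleton] at hx1
    have e1 : ∀ (l : List A) (a : A), I₀ ⊔ Ideal.ofList (a :: l) =
        (I₀ ⊔ Ideal.ofList l) ⊔ Ideal.span {a} := by
      intro l a
      rw [Ideal.ofList_cons, sup_assoc, sup_comm (Ideal.span {a})]
    have e2 : ∀ (l : List A) (a : A), (I₀ ⊔ Ideal.span {a}) ⊔ Ideal.ofList l =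
        (I₀ ⊔ Ideal.ofList l) ⊔ Ideal.span {a} := by
      intro l a
      rw [sup_assoc, sup_assoc, sup_comm (Ideal.span {a})]
    rw [e1] at hxP hyP
    obtain ⟨h, hh𝔪, hhreg, hhx, hhy⟩ := exists_aux_parameter hx₀ hy₀ hx1.2 hxP hyP
    -- `h :: x'` is regular
    have hx2 : RegSeq I₀ (h :: x') := by
      have : RegSeq I₀ (x' ++ [h]) := (regSeq_append_singleton _ _ _).mpr ⟨hx1.1, hhreg⟩
      refine this.perm (List.perm_append_singleton h x') ?_
      intro a ha
      rcases List.mem_append.mp ha with ha | ha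
      · exact hx'𝔪 a ha
      · rw [List.mem_singleton.mp ha]; exact hh𝔪
    rw [regSeq_cons] at hx2
    -- induction hypothesis modulo `h`
    have hy2 : RegSeq (I₀ ⊔ Ideal.span {h}) y' :=
      ih (I₀ ⊔ Ideal.span {h}) x' y' (by simpa using hxl) (by simpa using hyl) hx'𝔪 hy'𝔪 hx2.2
        (by rw [e2]; exact hhx) (by rw [e2]; exact hhy)
    -- move `h` to the end
    have hy3 : RegSeq I₀ (y' ++ [h]) := by
      have : RegSeq I₀ (h :: y') := (regSeq_cons _ _ _).mpr ⟨hx2.1, hy2⟩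
      refine this.perm (List.perm_append_singleton h y').symm ?_
      intro a ha
      rcases List.mem_cons.mp ha with ha | ha
      · rw [ha]; exact hh𝔪
      · exact hy'𝔪 a ha
    rw [regSeq_append_singleton] at hy3
    -- `y₀` is regular modulo `Jy`
    have hy4 : RegMod (I₀ ⊔ Ideal.ofList y') y₀ := regMod_of_mPrimary hh𝔪 hy3.2 hyP
    have hy5 : RegSeq I₀ (y' ++ [y₀]) := (regSeq_append_singleton _ _ _).mpr ⟨hy3.1, hy4⟩
    refine hy5.perm (List.perm_append_singleton y₀ y') ?_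
    intro a ha
    rcases List.mem_append.mp ha with ha | ha
    · exact hy'𝔪 a ha
    · rw [List.mem_singleton.mp ha]; exact hy₀

end Local

end Fermat.Agent.GE9.NumCrit
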