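/-
GE9-NUMCRIT (S59 pre-work), leaf (L5) FINLIFT (helper29).  Mathlib only.

`finite_quotient_of_pow_le_sup` : `O` a complete DVR with uniformiser `ϖ`, `U` a noetherian local
`O`-algebra whose residue field is the image of `O`, `J` an ideal of `U` with
`𝔪_U ^ n ≤ J + ϖ U`.  Then `U / J` is a finite `O`-module.

No completeness of `U` is needed: `U / (J + ϖ U)` is finite over `O` by the `𝔪_U`-adic filtration
(`exists_fg_approx`), generators lift by successive approximation, the coefficients
`∑ ϖ^t c_t` converge in `O`, and the error lies in `⋂ ϖ^T (U / J) = 0` (Krull)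
(`span_eq_top_of_approx`).
-/
import Mathlib

set_option autoImplicit false

namespace Fermat.Agent.GE9.NumCrit

open IsLocalRing

/-- **successive approximation**: if `O` is `ϖ`-adically precomplete, `M` is `ϖ`-adically separated
and `s` generates `M` modulo `ϖ`, then `s` generates `M`. -/
theorem span_eq_top_of_approx {O M : Type*} [CommRing O] [AddCommGroup M] [Module O M] (ϖ : O)
    [IsPrecomplete (Ideal.span {ϖ}) O]
    (hM : ∀ x : M, (∀ T : ℕ, ∃ y : M, x = ϖ ^ T • y) → x = 0)
    {r : ℕ} (s : Fin r → M)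
    (h : ∀ x : M, ∃ (c : Fin r → O) (y : M), x = ∑ k, c k • s k + ϖ • y) :
    Submodule.span O (Set.range s) = ⊤ := by
  classical
  rw [eq_top_iff]
  intro x _
  choose c y hxy using h
  set xs : ℕ → M := fun t => y^[t] x with hxs
  have hstep : ∀ t, xs t = ∑ k, c (xs t) k • s k + ϖ • xs (t + 1) := by
    intro t
    have h1 : xs (t + 1) = y (xs t) := by
      simp only [hxs, Function.iterate_succ_apply']
    rw [h1]
    exact hxy (xs t)
  set C : ℕ → Fin r → O := fun T k => ∑ t ∈ Finset.range T, ϖ ^ t * c (xs t) k with hC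
  have hCsucc : ∀ T k, C (T + 1) k = C T k + ϖ ^ T * c (xs T) k := by
    intro T k
    simp only [hC, Finset.sum_range_succ]
  have hsum : ∀ T, x = ∑ k, C T k • s k + ϖ ^ T • xs T := by
    intro T
    induction T with
    | zero => simp [hC, hxs]
    | succ T ih =>
      have h2 : ϖ ^ T • xs T =
          ∑ k, (ϖ ^ T * c (xs T) k) • s k + ϖ ^ (T + 1) • xs (T + 1) := by
        conv_lhs => rw [hstep T]
        rw [smul_add, Finset.smul_sum, smul_smul, pow_succ]
        simp only [mul_smul]
      calc x = ∑ k, C T k • s k + ϖ ^ T • xs T := ih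
        _ = ∑ k, C T k • s k +
              (∑ k, (ϖ ^ T * c (xs T) k) • s k + ϖ ^ (T + 1) • xs (T + 1)) := by rw [h2]
        _ = ∑ k, C (T + 1) k • s k + ϖ ^ (T + 1) • xs (T + 1) := by
          rw [← add_assoc, ← Finset.sum_add_distrib]
          congr 1
          refine Finset.sum_congr rfl fun k _ => ?_
          rw [hCsucc, add_smul]
  -- the coefficients are Cauchy
  have hpow : ∀ m : ℕ, ((Ideal.span {ϖ}) ^ m • ⊤ : Submodule O O) = Ideal.span {ϖ ^ m} := by
    intro m
    rw [smul_eq_mul, Ideal.mul_top, Ideal.span_singleton_pow]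
  have hcauchy : ∀ k, ∀ {m n : ℕ}, m ≤ n →
      C m k ≡ C n k [SMOD ((Ideal.span {ϖ}) ^ m • ⊤ : Submodule O O)] := by
    intro k m n hmn
    induction n, hmn using Nat.le_induction with
    | base => exact SModEq.refl _
    | succ n hmn ih =>
      refine ih.trans ?_
      rw [SModEq.sub_mem, hpow, hCsucc, Ideal.mem_span_singleton']
      refine ⟨-(ϖ ^ (n - m) * c (xs n) k), ?_⟩
      have : ϖ ^ n = ϖ ^ (n - m) * ϖ ^ m := by
        rw [← pow_add, Nat.sub_add_cancel hmn]
      rw [this]
      ring
  have hlim : ∀ k, ∃ L : O, ∀ n, C n k ≡ L [SMOD ((Ideal.span {ϖ}) ^ n • ⊤ : Submodule O O)] :=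
    fun k => IsPrecomplete.prec ‹_› (f := fun T => C T k) (hcauchy k)
  choose L hL using hlim
  -- `x = ∑ L k • s k`
  have hx : x - ∑ k, L k • s k = 0 := by
    apply hM
    intro T
    have hd : ∀ k, ∃ d : O, d * ϖ ^ T = C T k - L k := by
      intro k
      have := hL k T
      rw [SModEq.sub_mem, hpow, Ideal.mem_span_singleton'] at this
      exact this
    choose d hd using hd
    refine ⟨∑ k, d k • s k + xs T, ?_⟩
    rw [smul_add, Finset.smul_sum]
    conv_lhs => rw [hsum T]
    have : ∀ k, ϖ ^ T • d k • s k = C T k • s k - L k • s k := by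
      intro k
      rw [smul_smul, mul_comm, hd k, sub_smul]
    simp only [this, Finset.sum_sub_distrib]
    abel
  have hx' : x = ∑ k, L k • s k := sub_eq_zero.mp hx
  rw [hx']
  exact Submodule.sum_mem _ fun k _ =>
    Submodule.smul_mem _ _ (Submodule.subset_span ⟨k, rfl⟩)

section Local

variable {O U : Type*} [CommRing O] [CommRing U] [IsLocalRing U] [IsNoetherianRing U]
  [Algebra O U]

/-- **the `𝔪`-adic filtration**: if the residue field of the noetherian local `O`-algebra `U` is
the image of `O`, then `U` is generated over `O`, modulo `𝔪_U ^ i`, by finitely many elements. -/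
theorem exists_fg_approx
    (hres : Function.Surjective ((IsLocalRing.residue U).comp (algebraMap O U))) (i : ℕ) :
    ∃ N : Submodule O U, N.FG ∧ ∀ u : U, ∃ a ∈ N, u - a ∈ maximalIdeal U ^ i := by
  classical
  induction i with
  | zero =>
    exact ⟨⊥, Submodule.fg_bot, fun u => ⟨0, Submodule.zero_mem _, by simp⟩⟩
  | succ i ih =>
    obtain ⟨N, hN, hNu⟩ := ih
    obtain ⟨G, hG⟩ : (maximalIdeal U ^ i).FG := IsNoetherian.noetherian _
    refine ⟨N ⊔ Submodule.span O (G : Set U), hN.sup (Submodule.fg_span G.finite_toSet),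
      fun u => ?_⟩
    obtain ⟨a, haN, hua⟩ := hNu u
    rw [← hG] at hua
    obtain ⟨f, -, hf⟩ := Submodule.mem_span_finset.mp hua
    have ho : ∀ g : U, ∃ o : O, f g - algebraMap O U o ∈ maximalIdeal U := by
      intro g
      obtain ⟨o, ho⟩ := hres (IsLocalRing.residue U (f g))
      refine ⟨o, ?_⟩
      rw [← IsLocalRing.residue_eq_zero_iff, map_sub, ← ho]
      simp
    choose o ho using ho
    refine ⟨a + ∑ g ∈ G, o g • g, ?_, ?_⟩
    · refine Submodule.add_mem _ (Submodule.mem_sup_left haN) (Submodule.mem_sup_right ?_)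
      exact Submodule.sum_mem _ fun g hg =>
        Submodule.smul_mem _ _ (Submodule.subset_span hg)
    · have h1 : u - (a + ∑ g ∈ G, o g • g) = ∑ g ∈ G, (f g - algebraMap O U (o g)) * g := by
        have : u - a = ∑ g ∈ G, f g • g := hf.symm
        rw [sub_add_eq_sub_sub, this, ← Finset.sum_sub_distrib]
        refine Finset.sum_congr rfl fun g _ => ?_
        rw [smul_eq_mul, Algebra.smul_def, sub_mul]
      rw [h1, pow_succ']
      refine Ideal.sum_mem _ fun g hg => Ideal.mul_mem_mul (ho g) ?_
      rw [← hG]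
      exact Submodule.subset_span hg

variable [IsDomain O] [IsDiscreteValuationRing O]

omit [IsNoetherianRing U] in
/-- the uniformiser of `O` lies in the maximal ideal of `U` -/
theorem algebraMap_irreducible_mem_maximalIdeal
    (hres : Function.Surjective ((IsLocalRing.residue U).comp (algebraMap O U)))
    (ϖ : O) (hϖ : Irreducible ϖ) : algebraMap O U ϖ ∈ maximalIdeal U := by
  set φ : O →+* ResidueField U := (IsLocalRing.residue U).comp (algebraMap O U) with hφ
  have hmax : (RingHom.ker φ).IsMaximal := RingHom.ker_isMaximal_of_surjective φ hres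
  have hker : RingHom.ker φ = maximalIdeal O := IsLocalRing.eq_maximalIdeal hmax
  have hmem : ϖ ∈ RingHom.ker φ := by
    rw [hker, IsLocalRing.mem_maximalIdeal]
    exact hϖ.not_isUnit
  rw [RingHom.mem_ker] at hmem
  rw [← IsLocalRing.residue_eq_zero_iff]
  exact hmem

/-- **(L5) FINLIFT** -/
theorem finite_quotient_of_pow_le_sup {O U : Type*} [CommRing O] [IsDomain O]
    [IsDiscreteValuationRing O] [IsAdicComplete (IsLocalRing.maximalIdeal O) O] [CommRing U]
    [IsLocalRing U] [IsNoetherianRing U] [Algebra O U]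
    (hres : Function.Surjective ((IsLocalRing.residue U).comp (algebraMap O U))) (ϖ : O)
    (hϖ : Irreducible ϖ) (J : Ideal U) (n : ℕ)
    (hJ : IsLocalRing.maximalIdeal U ^ n ≤ J ⊔ Ideal.span {algebraMap O U ϖ}) :
    Module.Finite O (U ⧸ J) := by
  classical
  -- `O` is `ϖ`-adically precomplete
  have hmO : maximalIdeal O = Ideal.span {ϖ} := hϖ.maximalIdeal_eq
  have : IsPrecomplete (Ideal.span {ϖ}) O := by
    rw [← hmO]; infer_instance
  -- `U / J` is `ϖ`-adically separated
  have hϖU := algebraMap_irreducible_mem_maximalIdeal hres ϖ hϖ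
  have hne : Ideal.span {algebraMap O U ϖ} ≠ ⊤ := by
    intro htop
    have : (1 : U) ∈ maximalIdeal U := by
      have h1 : (1 : U) ∈ Ideal.span {algebraMap O U ϖ} := by rw [htop]; trivial
      exact (Ideal.span_le.mpr (Set.singleton_subset_iff.mpr hϖU)) h1
    exact (Ideal.ne_top_iff_one _).mp (IsLocalRing.maximalIdeal.isMaximal U).ne_top this
  have hkrull := Ideal.iInf_pow_smul_eq_bot_of_isLocalRing (R := U) (M := U ⧸ J)
    (Ideal.span {algebraMap O U ϖ}) hne
  have hM : ∀ x : U ⧸ J, (∀ T : ℕ, ∃ y : U ⧸ J, x = ϖ ^ T • y) → x = 0 := by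
    intro x hx
    have hmem : x ∈ (⨅ i : ℕ, (Ideal.span {algebraMap O U ϖ}) ^ i • ⊤ : Submodule U (U ⧸ J)) := by
      rw [Submodule.mem_iInf]
      intro T
      obtain ⟨y, rfl⟩ := hx T
      have : ϖ ^ T • y = (algebraMap O U ϖ) ^ T • y := by
        rw [← map_pow, algebraMap_smul]
      rw [this]
      exact Submodule.smul_mem_smul (Ideal.pow_mem_pow (Ideal.mem_span_singleton_self _) T)
        Submodule.mem_top
    rw [hkrull] at hmem
    exact (Submodule.mem_bot U).mp hmem
  -- generators modulo `ϖ`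
  obtain ⟨N, hN, hNu⟩ := exists_fg_approx (O := O) (U := U) hres n
  obtain ⟨r, s, hs⟩ := Submodule.fg_iff_exists_fin_generating_family.mp hN
  have happrox : ∀ x : U ⧸ J, ∃ (c : Fin r → O) (y : U ⧸ J),
      x = ∑ k, c k • (Ideal.Quotient.mk J (s k)) + ϖ • y := by
    intro x
    obtain ⟨u, rfl⟩ := Ideal.Quotient.mk_surjective x
    obtain ⟨a, haN, hua⟩ := hNu u
    rw [← hs] at haN
    obtain ⟨c, hc⟩ := (Submodule.mem_span_range_iff_exists_fun O).mp haN
    obtain ⟨j, hj, w, hw, hjw⟩ := Submodule.mem_sup.mp (hJ hua)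
    obtain ⟨v, hv⟩ := Ideal.mem_span_singleton'.mp hw
    refine ⟨c, Ideal.Quotient.mk J v, ?_⟩
    have hu : u = ∑ k, c k • s k + j + v * algebraMap O U ϖ := by
      rw [hc, hv, add_assoc, hjw]; ring
    have hjz : Ideal.Quotient.mk J j = 0 := Ideal.Quotient.eq_zero_iff_mem.mpr hj
    have hsm : ∀ (o : O) (t : U), Ideal.Quotient.mk J (o • t) = o • Ideal.Quotient.mk J t := by
      intro o t
      exact map_smul (Ideal.Quotient.mkₐ O J) o t
    have e1 : Ideal.Quotient.mk J (∑ k, c k • s k) =
        ∑ k, c k • Ideal.Quotient.mk J (s k) := by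
      rw [map_sum]
      exact Finset.sum_congr rfl fun k _ => hsm _ _
    have e2 : Ideal.Quotient.mk J (v * algebraMap O U ϖ) = ϖ • Ideal.Quotient.mk J v := by
      rw [mul_comm, ← Algebra.smul_def, hsm]
    rw [hu, map_add, map_add, hjz, add_zero, e1, e2]
  have htop := span_eq_top_of_approx ϖ hM (fun k => Ideal.Quotient.mk J (s k)) happrox
  exact Module.finite_def.mpr (htop ▸ Submodule.fg_span (Set.finite_range _))

end Local

end Fermat.Agent.GE9.NumCrit
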