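/-
GE9-NUMCRIT (S59 pre-work), leaf (L2) GLEMMA (helper57; statement of helper82, board 6384):
the Gorenstein lemma of the Wiles–Lenstra numerical criterion, pure linear algebra.
`ψ : A ↠ B` augmented finite free `O`-algebras over a DVR, `A` local and self-dual
(`ω` generates `A^∨` as an `A`-module), `η_A = η_B ≠ 0` ⟹ `ψ` is injective.
-/
import Mathlib
import Fermat.Agent.GE9.NumCrit.Defs

set_option autoImplicit false

namespace Fermat.Agent.GE9.NumCrit

open IsLocalRing

section Dual

variable {O A : Type*} [CommRing O] [CommRing A] [Algebra O A]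

/-- `a ↦ (x ↦ ω (a x))`. -/
noncomputable def dualMap (ω : A →ₗ[O] O) : A →ₗ[O] Module.Dual O A :=
  (LinearMap.mul O A).compr₂ ω

@[simp] theorem dualMap_apply (ω : A →ₗ[O] O) (a x : A) : dualMap ω a x = ω (a * x) := rfl

theorem dualMap_surjective (ω : A →ₗ[O] O)
    (hω : ∀ g : A →ₗ[O] O, ∃ a : A, ∀ x, g x = ω (a * x)) :
    Function.Surjective (dualMap ω) := by
  intro g
  obtain ⟨a, ha⟩ := hω g
  exact ⟨a, LinearMap.ext fun x => (ha x).symm⟩

/-- a generator of the dual of a finite free module is a FREE generator. -/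
theorem dualMap_injective [Module.Finite O A] [Module.Free O A] (ω : A →ₗ[O] O)
    (hω : ∀ g : A →ₗ[O] O, ∃ a : A, ∀ x, g x = ω (a * x)) :
    Function.Injective (dualMap ω) := by
  let b := Module.Free.chooseBasis O A
  exact OrzechProperty.injective_of_surjective_of_injective
    (b.toDualEquiv : A ≃ₗ[O] Module.Dual O A).toLinearMap (dualMap ω)
    b.toDualEquiv.injective (dualMap_surjective ω hω)

theorem eq_zero_of_dual [Module.Finite O A] [Module.Free O A] (ω : A →ₗ[O] O)
    (hω : ∀ g : A →ₗ[O] O, ∃ a : A, ∀ x, g x = ω (a * x)) {a : A}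
    (ha : ∀ x, ω (a * x) = 0) : a = 0 := by
  apply dualMap_injective ω hω
  rw [map_zero]
  exact LinearMap.ext fun x => ha x

end Dual

/-- an element of a finite free module over a local ring which is not in `𝔪 M` has a functional
with value `1`. -/
theorem exists_dual_eq_one {O B : Type*} [CommRing O] [IsLocalRing O] [AddCommGroup B]
    [Module O B] [Module.Finite O B] [Module.Free O B] (v : B)
    (hv : v ∉ (maximalIdeal O) • (⊤ : Submodule O B)) : ∃ g : B →ₗ[O] O, g v = 1 := by
  classical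
  let b := Module.Free.chooseBasis O B
  by_cases h : ∃ i, IsUnit (b.repr v i)
  · obtain ⟨i, hi⟩ := h
    obtain ⟨u, hu⟩ := hi
    refine ⟨(↑u⁻¹ : O) • b.coord i, ?_⟩
    rw [LinearMap.smul_apply, Module.Basis.coord_apply, ← hu, smul_eq_mul, Units.inv_mul]
  · exfalso
    apply hv
    push Not at h
    rw [← b.sum_repr v]
    refine Submodule.sum_mem _ fun i _ => ?_
    exact Submodule.smul_mem_smul ((mem_maximalIdeal _).mpr (h i)) Submodule.mem_top

/-- **(L2) the Gorenstein lemma.** -/
theorem injective_of_dual_generator {O A B : Type*} [CommRing O] [IsDomain O]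
    [IsDiscreteValuationRing O] [CommRing A] [IsLocalRing A] [Algebra O A] [Module.Finite O A]
    [Module.Free O A] [CommRing B] [Algebra O B] [Module.Finite O B] [Module.Free O B]
    (ψ : A →ₐ[O] B) (hψ : Function.Surjective ψ) (πA : A →ₐ[O] O) (πB : B →ₐ[O] O)
    (hπ : πB.comp ψ = πA) (ω : A →ₗ[O] O)
    (hω : ∀ g : A →ₗ[O] O, ∃ a : A, ∀ x, g x = ω (a * x))
    (hη : etaIdeal πA = etaIdeal πB) (hη0 : etaIdeal πB ≠ ⊥) : Function.Injective ψ := by
  classical
  have hπx : ∀ x, πB (ψ x) = πA x := fun x => by rw [← hπ]; rfl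
  -- `πA = δ · ω`
  obtain ⟨δ, hδ⟩ := hω πA.toLinearMap
  have hδ' : ∀ x, πA x = ω (δ * x) := hδ
  -- elements killing `ker πA` are multiples of `δ`
  have hann : ∀ a : A, (∀ x : A, πA x = 0 → a * x = 0) → a = ω a • δ := by
    intro a ha
    rw [← sub_eq_zero]
    apply eq_zero_of_dual ω hω
    intro x
    have hx : πA (x - algebraMap O A (πA x)) = 0 := by
      rw [map_sub, AlgHom.commutes, Algebra.algebraMap_self_apply, sub_self]
    have h1 : a * x = a * algebraMap O A (πA x) := by
      have := ha _ hx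
      rw [mul_sub, sub_eq_zero] at this
      exact this
    rw [sub_mul, map_sub, h1, smul_mul_assoc, map_smul, ← hδ' x, smul_eq_mul,
      ← Algebra.commutes, ← Algebra.smul_def, map_smul, smul_eq_mul, mul_comm, sub_self]
  -- `η_A ⊆ (πA δ)`
  have hηA : ∀ c ∈ etaIdeal πA, ∃ c' : O, c = c' * πA δ := by
    intro c hc
    obtain ⟨a, ha, rfl⟩ := (mem_etaIdeal πA c).mp hc
    refine ⟨ω a, ?_⟩
    conv_lhs => rw [hann a ha]
    rw [map_smul, smul_eq_mul]
  have hπδ : πA δ ≠ 0 := by
    intro h0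
    apply hη0
    rw [← hη, eq_bot_iff]
    intro c hc
    obtain ⟨c', rfl⟩ := hηA c hc
    rw [h0, mul_zero]
    exact Ideal.zero_mem _
  -- `ψ δ` is primitive
  obtain ⟨ϖ, hϖ⟩ := IsDiscreteValuationRing.exists_irreducible O
  have hmax : maximalIdeal O = Ideal.span {ϖ} := hϖ.maximalIdeal_eq
  have hϖ0 : ϖ ≠ 0 := hϖ.ne_zero
  have hprim : ψ δ ∉ (maximalIdeal O) • (⊤ : Submodule O B) := by
    intro hmem
    rw [hmax, Submodule.ideal_span_singleton_smul ϖ ⊤] at hmem
    obtain ⟨y, -, hy⟩ := hmem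
    have hy' : ϖ • y = ψ δ := hy
    -- `y` kills `ker πB`
    have hykill : ∀ z : B, πB z = 0 → y * z = 0 := by
      intro z hz
      obtain ⟨x, rfl⟩ := hψ z
      have hx : πA x = 0 := by rw [← hπx]; exact hz
      have hδx : δ * x = 0 := by
        apply eq_zero_of_dual ω hω
        intro t
        rw [mul_assoc, ← hδ', map_mul, hx, zero_mul]
      have h2 : ϖ • (y * ψ x) = 0 := by
        rw [← smul_mul_assoc, hy', ← map_mul, hδx, map_zero]
      exact (smul_eq_zero.mp h2).resolve_left hϖ0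
    have hmemB : πB y ∈ etaIdeal πB := (mem_etaIdeal πB _).mpr ⟨y, hykill, rfl⟩
    rw [← hη] at hmemB
    obtain ⟨c', hc'⟩ := hηA _ hmemB
    have h3 : πA δ = ϖ * (c' * πA δ) := by
      rw [← hc', ← smul_eq_mul, ← map_smul, hy', hπx]
    have h4 : (1 - ϖ * c') * πA δ = 0 := by
      rw [sub_mul, one_mul, mul_assoc, ← h3, sub_self]
    have hu : IsUnit (1 - ϖ * c') := by
      have hm : ϖ * c' ∈ maximalIdeal O := by
        rw [hmax]
        exact Ideal.mul_mem_right _ _ (Ideal.mem_span_singleton_self ϖ)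
      by_contra hnu
      have h5 : (1 - ϖ * c') ∈ maximalIdeal O := (mem_maximalIdeal _).mpr hnu
      have h6 : (1 : O) ∈ maximalIdeal O := by
        have := Ideal.add_mem _ h5 hm
        rwa [sub_add_cancel] at this
      exact (Ideal.ne_top_iff_one _).mp (maximalIdeal.isMaximal O).ne_top h6
    exact hπδ ((hu.mul_right_eq_zero).mp h4)
  obtain ⟨g, hg⟩ := exists_dual_eq_one (ψ δ) hprim
  -- `b · ω = g ∘ ψ`
  obtain ⟨b, hb⟩ := hω (g.comp ψ.toLinearMap)
  have hb' : ∀ x, g (ψ x) = ω (b * x) := hb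
  have hπb : πA b = 1 := by
    rw [hδ' b, mul_comm, ← hb', hg]
  have hbu : IsUnit b := by
    by_contra hnu
    have h1 : IsUnit (1 - b) := by
      by_contra hnu'
      have h5 : (1 - b) ∈ maximalIdeal A := (mem_maximalIdeal _).mpr hnu'
      have h6 : b ∈ maximalIdeal A := (mem_maximalIdeal _).mpr hnu
      have h7 : (1 : A) ∈ maximalIdeal A := by
        have := Ideal.add_mem _ h5 h6
        rwa [sub_add_cancel] at this
      exact (Ideal.ne_top_iff_one _).mp (maximalIdeal.isMaximal A).ne_top h7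
    have h2 : IsUnit (πA (1 - b)) := h1.map πA
    rw [map_sub, map_one, hπb, sub_self] at h2
    exact not_isUnit_zero h2
  -- injectivity
  rw [injective_iff_map_eq_zero]
  intro x hx
  have hbx : b * x = 0 := by
    apply eq_zero_of_dual ω hω
    intro t
    rw [mul_assoc, ← hb', map_mul, hx, zero_mul, map_zero]
  exact (hbu.mul_right_eq_zero).mp hbx

end Fermat.Agent.GE9.NumCrit
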