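/-
GE9-NUMCRIT (S59 pre-work), leaf (L3) GORART (helper57; statement of helper82, board 6384):
a finite free local algebra `A` over a DVR `O` whose reduction `A / ϖ A` has a principal socle
`(s̄)` is self-dual: `Hom_O(A, O)` is generated by one element as an `A`-module.
Mathlib + Defs + GorLemma only.
-/
import Mathlib
import Fermat.Agent.GE9.NumCrit.Defs
import Fermat.Agent.GE9.NumCrit.GorLemma

set_option autoImplicit false

namespace Fermat.Agent.GE9.NumCrit

open IsLocalRing

namespace GorArt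

/-- membership in the principal ideal `(ϖ)` of an `O`-algebra, in `smul` form. -/
theorem mem_span_algebraMap_iff {O A : Type*} [CommRing O] [CommRing A] [Algebra O A] (ϖ : O)
    (a : A) : a ∈ Ideal.span {algebraMap O A ϖ} ↔ ∃ y : A, ϖ • y = a := by
  rw [Ideal.mem_span_singleton']
  constructor
  · rintro ⟨y, hy⟩
    exact ⟨y, by rw [Algebra.smul_def, mul_comm]; exact hy⟩
  · rintro ⟨y, hy⟩
    exact ⟨y, by rw [mul_comm, ← Algebra.smul_def]; exact hy⟩

/-- membership in `𝔪_O • A`, in `smul` form. -/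
theorem mem_maximalIdeal_smul_top_iff {O A : Type*} [CommRing O] [IsDomain O]
    [IsDiscreteValuationRing O] [AddCommGroup A] [Module O A] (ϖ : O) (hϖ : Irreducible ϖ)
    (a : A) : a ∈ (maximalIdeal O) • (⊤ : Submodule O A) ↔ ∃ y : A, ϖ • y = a := by
  rw [hϖ.maximalIdeal_eq, Submodule.ideal_span_singleton_smul ϖ ⊤]
  constructor
  · rintro ⟨y, -, hy⟩
    exact ⟨y, hy⟩
  · rintro ⟨y, hy⟩
    exact ⟨y, Submodule.mem_top, hy⟩

section Local

variable {O A : Type*} [CommRing O] [IsDomain O] [IsDiscreteValuationRing O] [CommRing A]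
  [IsLocalRing A] [Algebra O A] [Module.Finite O A]

/-- a uniformizer of `O` lies in the maximal ideal of the finite local `O`-algebra `A`. -/
theorem algebraMap_mem_maximalIdeal (ϖ : O) (hϖ : Irreducible ϖ) :
    algebraMap O A ϖ ∈ maximalIdeal A := by
  have h1 : ((maximalIdeal A).comap (algebraMap O A)).IsMaximal :=
    Ideal.isMaximal_comap_of_isIntegral_of_isMaximal (R := O) (maximalIdeal A)
  have h2 : (maximalIdeal A).comap (algebraMap O A) = maximalIdeal O :=
    IsLocalRing.eq_maximalIdeal h1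
  have h3 : ϖ ∈ maximalIdeal O := by
    rw [hϖ.maximalIdeal_eq]
    exact Ideal.mem_span_singleton_self ϖ
  rw [← h2] at h3
  exact h3

/-- the maximal ideal of `A` is nilpotent modulo `ϖ`. -/
theorem exists_pow_maximalIdeal_le (ϖ : O) (hϖ : Irreducible ϖ) :
    ∃ n : ℕ, maximalIdeal A ^ n ≤ Ideal.span {algebraMap O A ϖ} := by
  have : IsNoetherianRing A := IsNoetherianRing.of_finite O A
  apply Ideal.exists_pow_le_of_le_radical_of_fg
  · rw [Ideal.radical_eq_sInf]
    apply le_sInf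
    rintro P ⟨hJP, hP⟩
    have hcomap : P.comap (algebraMap O A) = maximalIdeal O := by
      apply le_antisymm
      · exact IsLocalRing.le_maximalIdeal (Ideal.comap_ne_top _ hP.ne_top)
      · rw [hϖ.maximalIdeal_eq, Ideal.span_singleton_le_iff_mem, Ideal.mem_comap]
        exact hJP (Ideal.mem_span_singleton_self _)
    have hPmax : P.IsMaximal :=
      Ideal.isMaximal_of_isIntegral_of_isMaximal_comap (R := O) P
        (by rw [hcomap]; exact maximalIdeal.isMaximal O)
    rw [IsLocalRing.eq_maximalIdeal hPmax]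
  · exact IsNoetherian.noetherian _

end Local

/-- if `𝔪 ^ n ≤ J` and `a ∉ J` then some multiple of `a` is a nonzero socle element mod `J`. -/
theorem exists_mul_notMem_of_notMem {A : Type*} [CommRing A] [IsLocalRing A] (J : Ideal A)
    (n : ℕ) (hn : maximalIdeal A ^ n ≤ J) (a : A) (ha : a ∉ J) :
    ∃ t : A, t * a ∉ J ∧ ∀ u ∈ maximalIdeal A, u * (t * a) ∈ J := by
  classical
  have hex : ∃ k : ℕ, ∀ t ∈ maximalIdeal A ^ k, t * a ∈ J :=
    ⟨n, fun t ht => J.mul_mem_right a (hn ht)⟩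
  have hspec := Nat.find_spec hex
  have hk0 : Nat.find hex ≠ 0 := by
    intro h0
    rw [h0, pow_zero] at hspec
    apply ha
    have := hspec 1 (by rw [Ideal.one_eq_top]; exact Submodule.mem_top)
    rwa [one_mul] at this
  obtain ⟨k', hk'⟩ := Nat.exists_eq_succ_of_ne_zero hk0
  have hnot : ¬ ∀ t ∈ maximalIdeal A ^ k', t * a ∈ J :=
    Nat.find_min hex (by rw [hk']; exact Nat.lt_succ_self k')
  push Not at hnot
  obtain ⟨t, ht, hta⟩ := hnot
  refine ⟨t, hta, fun u hu => ?_⟩
  have hut : u * t ∈ maximalIdeal A ^ Nat.find hex := by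
    rw [hk', pow_succ, mul_comm u t]
    exact Ideal.mul_mem_mul ht hu
  have := hspec (u * t) hut
  rwa [mul_assoc] at this

end GorArt

open GorArt in
/-- **(L3) principal socle mod `ϖ` ⟹ the dual is generated by one element.** -/
theorem exists_dual_generator {O A : Type*} [CommRing O] [IsDomain O]
    [IsDiscreteValuationRing O] [CommRing A] [IsLocalRing A] [Algebra O A] [Module.Finite O A]
    [Module.Free O A] (ϖ : O) (hϖ : Irreducible ϖ) (s : A)
    (hs : ∀ z : A, (∀ t ∈ IsLocalRing.maximalIdeal A, t * z ∈ Ideal.span {algebraMap O A ϖ}) ↔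
      z ∈ Ideal.span {algebraMap O A ϖ} ⊔ Ideal.span {s}) :
    ∃ ω : A →ₗ[O] O, ∀ g : A →ₗ[O] O, ∃ a : A, ∀ x, g x = ω (a * x) := by
  classical
  set J : Ideal A := Ideal.span {algebraMap O A ϖ} with hJ
  have hϖm : algebraMap O A ϖ ∈ maximalIdeal A := algebraMap_mem_maximalIdeal ϖ hϖ
  have hJm : J ≤ maximalIdeal A := by
    rw [hJ, Ideal.span_singleton_le_iff_mem]
    exact hϖm
  obtain ⟨n, hn⟩ := exists_pow_maximalIdeal_le (A := A) ϖ hϖ
  have h1J : (1 : A) ∉ J := fun h =>
    (Ideal.ne_top_iff_one _).mp (maximalIdeal.isMaximal A).ne_top (hJm h)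
  -- `𝔪 s ⊆ J`
  have hsm : ∀ t ∈ maximalIdeal A, t * s ∈ J :=
    (hs s).mpr (Ideal.mem_sup_right (Ideal.mem_span_singleton_self s))
  -- (a) `s ∉ J`
  have hsJ : s ∉ J := by
    intro hsJ
    obtain ⟨t, ht, htm⟩ := exists_mul_notMem_of_notMem J n hn 1 h1J
    apply ht
    have hz := (hs (t * 1)).mp htm
    have hle : J ⊔ Ideal.span {s} ≤ J := by
      apply sup_le le_rfl
      rw [Ideal.span_singleton_le_iff_mem]
      exact hsJ
    exact hle hz
  -- (b) a functional with `ω s = 1`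
  have hsN : s ∉ (maximalIdeal O) • (⊤ : Submodule O A) := by
    intro h
    apply hsJ
    rw [hJ, mem_span_algebraMap_iff]
    exact (mem_maximalIdeal_smul_top_iff ϖ hϖ s).mp h
  obtain ⟨ω, hω⟩ := exists_dual_eq_one s hsN
  refine ⟨ω, ?_⟩
  have hϖnu : ¬ IsUnit ϖ := hϖ.not_isUnit
  -- (c) `a ω ≡ 0 mod ϖ` implies `a ≡ 0 mod ϖ`
  have hc : ∀ a : A, (∀ x, ∃ c : O, ω (a * x) = ϖ * c) → a ∈ J := by
    intro a ha
    by_contra haJ
    obtain ⟨t, hta, htm⟩ := exists_mul_notMem_of_notMem J n hn a haJ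
    have hz := (hs (t * a)).mp htm
    obtain ⟨j, hj, w, hw, hjw⟩ := Submodule.mem_sup.mp hz
    obtain ⟨c, rfl⟩ := Ideal.mem_span_singleton'.mp hw
    have hcu : IsUnit c := by
      by_contra hnu
      have hcm : c ∈ maximalIdeal A := (mem_maximalIdeal _).mpr hnu
      apply hta
      rw [← hjw]
      exact J.add_mem hj (hsm c hcm)
    obtain ⟨u, rfl⟩ := hcu
    -- `s = u⁻¹ (t a - j)`
    have hs_eq : s = a * (↑u⁻¹ * t) - ↑u⁻¹ * j := by
      have : (↑u : A) * s = t * a - j := by rw [← hjw]; ring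
      calc s = ↑u⁻¹ * (↑u * s) := by rw [← mul_assoc, Units.inv_mul, one_mul]
        _ = ↑u⁻¹ * (t * a - j) := by rw [this]
        _ = a * (↑u⁻¹ * t) - ↑u⁻¹ * j := by ring
    obtain ⟨y, hy⟩ := (mem_span_algebraMap_iff ϖ j).mp hj
    obtain ⟨c1, hc1⟩ := ha (↑u⁻¹ * t)
    have h1 : (1 : O) = ϖ * (c1 - ω (↑u⁻¹ * y)) := by
      rw [← hω, hs_eq, map_sub, hc1, ← hy, mul_smul_comm, map_smul, smul_eq_mul, mul_sub]
    exact hϖnu (IsUnit.of_mul_eq_one _ h1.symm)
  -- (d) `a ↦ a ω` is surjective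
  let b := Module.Free.chooseBasis O A
  let e : A ≃ₗ[O] Module.Dual O A := b.toDualEquiv
  let Ψ : A →ₗ[O] A := e.symm.toLinearMap ∘ₗ dualMap ω
  let N : Submodule O A := (maximalIdeal O) • (⊤ : Submodule O A)
  have hΨN : N ≤ N.comap Ψ := Submodule.smul_top_le_comap_smul_top (maximalIdeal O) Ψ
  let Ψq : (A ⧸ N) →ₗ[O] (A ⧸ N) := N.mapQ N Ψ hΨN
  have hΨq_inj : Function.Injective Ψq := by
    rw [injective_iff_map_eq_zero]
    intro q hq
    obtain ⟨a, rfl⟩ := Submodule.Quotient.mk_surjective N q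
    rw [Submodule.mapQ_apply, Submodule.Quotient.mk_eq_zero] at hq
    obtain ⟨y, hy⟩ := (mem_maximalIdeal_smul_top_iff ϖ hϖ _).mp hq
    rw [Submodule.Quotient.mk_eq_zero]
    have haJ : a ∈ J := by
      apply hc
      intro x
      refine ⟨e y x, ?_⟩
      have h1 : dualMap ω a = ϖ • e y := by
        have : e.symm (dualMap ω a) = ϖ • y := hy.symm
        rw [LinearEquiv.symm_apply_eq, map_smul] at this
        exact this
      have h2 := LinearMap.congr_fun h1 x
      rw [dualMap_apply, LinearMap.smul_apply, smul_eq_mul] at h2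
      exact h2
    exact (mem_maximalIdeal_smul_top_iff ϖ hϖ a).mpr ((mem_span_algebraMap_iff ϖ a).mp haJ)
  -- the quotient is artinian
  have hfin : Module.Finite (O ⧸ maximalIdeal O) (A ⧸ N) :=
    Module.Finite.of_restrictScalars_finite O (O ⧸ maximalIdeal O) (A ⧸ N)
  have hartk : IsArtinianRing (O ⧸ maximalIdeal O) :=
    (inferInstance : IsArtinianRing (ResidueField O))
  have hart1 : IsArtinian (O ⧸ maximalIdeal O) (A ⧸ N) := isArtinian_of_fg_of_artinian'
  have hart : IsArtinian O (A ⧸ N) :=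
    isArtinian_of_surjective_algebraMap (R := O ⧸ maximalIdeal O) Ideal.Quotient.mk_surjective
  have hΨq_surj : Function.Surjective Ψq :=
    IsArtinian.surjective_of_injective_endomorphism Ψq hΨq_inj
  have hΨ_surj : Function.Surjective Ψ := by
    rw [← LinearMap.range_eq_top, eq_top_iff]
    apply Submodule.le_of_le_smul_of_le_jacobson_bot (I := maximalIdeal O) Module.Finite.fg_top
      (IsLocalRing.maximalIdeal_le_jacobson ⊥)
    intro y _
    obtain ⟨q, hq⟩ := hΨq_surj (Submodule.Quotient.mk y)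
    obtain ⟨a, rfl⟩ := Submodule.Quotient.mk_surjective N q
    rw [Submodule.mapQ_apply, Submodule.Quotient.eq] at hq
    have : y = Ψ a - (Ψ a - y) := by abel
    rw [this]
    exact Submodule.sub_mem _ (Submodule.mem_sup_left (LinearMap.mem_range_self Ψ a))
      (Submodule.mem_sup_right hq)
  intro g
  obtain ⟨a, ha⟩ := hΨ_surj (e.symm g)
  refine ⟨a, fun x => ?_⟩
  have h1 : dualMap ω a = g := e.symm.injective ha
  rw [← h1, dualMap_apply]

end Fermat.Agent.GE9.NumCrit
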