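/-
GE9-NUMCRIT (S59 pre-work, helper82): the local ring `U = O⟦X₁..X_m⟧` over a DVR `O`:
maximal ideal, residue field, `lin` on `𝔭²`, the augmentation of a quotient.  Mathlib + PS.lean.
-/
import Mathlib
import Fermat.Agent.GE9.NumCrit.PS

set_option autoImplicit false

namespace Fermat.Agent.GE9.NumCrit

open IsLocalRing MvPowerSeries

section CommRing

variable {O : Type*} [CommRing O] {m : ℕ}

/-- the augmentation ideal `𝔭 = ker ε` of `O⟦X₁..X_m⟧`. -/
noncomputable abbrev augIdeal (O : Type*) [CommRing O] (m : ℕ) : Ideal (MvPowerSeries (Fin m) O) :=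
  RingHom.ker (constantCoeff (σ := Fin m) (R := O))

theorem mem_augIdeal {f : MvPowerSeries (Fin m) O} : f ∈ augIdeal O m ↔ constantCoeff f = 0 :=
  RingHom.mem_ker

/-- the constant coefficient as an `O`-algebra homomorphism. -/
noncomputable def εₐ (O : Type*) [CommRing O] (m : ℕ) : MvPowerSeries (Fin m) O →ₐ[O] O :=
  { constantCoeff (σ := Fin m) (R := O) with
    commutes' := fun c => by
      change constantCoeff (algebraMap O (MvPowerSeries (Fin m) O) c) = c
      rw [MvPowerSeries.algebraMap_apply, Algebra.algebraMap_self, RingHom.id_apply,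
        constantCoeff_C] }

@[simp] theorem εₐ_apply (f : MvPowerSeries (Fin m) O) : εₐ O m f = constantCoeff f := rfl

theorem algebraMap_eq_C (c : O) : algebraMap O (MvPowerSeries (Fin m) O) c = C c := by
  rw [MvPowerSeries.algebraMap_apply, Algebra.algebraMap_self, RingHom.id_apply]

theorem X_mem_augIdeal (i : Fin m) : (X i : MvPowerSeries (Fin m) O) ∈ augIdeal O m :=
  mem_augIdeal.mpr (constantCoeff_X i)

/-- `lin` kills `𝔭²`. -/
theorem lin_eq_zero_of_mem_sq {f : MvPowerSeries (Fin m) O} (hf : f ∈ augIdeal O m ^ 2) :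
    lin f = 0 := by
  rw [pow_two] at hf
  refine Submodule.mul_induction_on hf ?_ ?_
  · intro u hu v hv
    rw [lin_mul u v (mem_augIdeal.mp hv), mem_augIdeal.mp hu, zero_smul]
  · intro x y hx hy
    rw [map_add, hx, hy, add_zero]

theorem lin_C_mul (c : O) (f : MvPowerSeries (Fin m) O) : lin (C c * f) = c • lin f := by
  have : C c * f = c • f := by
    rw [Algebra.smul_def, algebraMap_eq_C]
  rw [this, map_smul]

/-- the image of an ideal under `lin`, an `O`-submodule of `O^m`. -/
noncomputable def linImage (I : Ideal (MvPowerSeries (Fin m) O)) : Submodule O (Fin m → O) :=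
  (I.restrictScalars O).map lin

theorem mem_linImage {I : Ideal (MvPowerSeries (Fin m) O)} {v : Fin m → O} :
    v ∈ linImage I ↔ ∃ f ∈ I, lin f = v := by
  rw [linImage, Submodule.mem_map]
  rfl

theorem linImage_mono {I J : Ideal (MvPowerSeries (Fin m) O)} (h : I ≤ J) :
    linImage I ≤ linImage J := fun _ hv =>
  let ⟨f, hf, hfv⟩ := mem_linImage.mp hv
  mem_linImage.mpr ⟨f, h hf, hfv⟩

/-- the augmentation of the quotient by an ideal contained in `𝔭`. -/
noncomputable def augQuot (I : Ideal (MvPowerSeries (Fin m) O)) (hI : I ≤ augIdeal O m) :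
    (MvPowerSeries (Fin m) O ⧸ I) →ₐ[O] O :=
  Ideal.Quotient.liftₐ I (εₐ O m) fun _ ha => mem_augIdeal.mp (hI ha)

@[simp] theorem augQuot_mk (I : Ideal (MvPowerSeries (Fin m) O)) (hI : I ≤ augIdeal O m)
    (f : MvPowerSeries (Fin m) O) : augQuot I hI (Ideal.Quotient.mk I f) = constantCoeff f := rfl

end CommRing

section Local

variable {O : Type*} [CommRing O] [IsLocalRing O] {m : ℕ}

theorem mem_maximalIdeal_iff (f : MvPowerSeries (Fin m) O) :
    f ∈ maximalIdeal (MvPowerSeries (Fin m) O) ↔ constantCoeff f ∈ maximalIdeal O := by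
  rw [mem_maximalIdeal, mem_maximalIdeal, mem_nonunits_iff, mem_nonunits_iff,
    MvPowerSeries.isUnit_iff_constantCoeff]

theorem augIdeal_le_maximalIdeal : augIdeal O m ≤ maximalIdeal (MvPowerSeries (Fin m) O) := by
  intro f hf
  rw [mem_maximalIdeal_iff, mem_augIdeal.mp hf]
  exact Ideal.zero_mem _

theorem residue_comp_algebraMap_surjective :
    Function.Surjective ((IsLocalRing.residue (MvPowerSeries (Fin m) O)).comp
      (algebraMap O (MvPowerSeries (Fin m) O))) := by
  intro y
  obtain ⟨f, rfl⟩ := IsLocalRing.residue_surjective y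
  refine ⟨constantCoeff f, ?_⟩
  rw [RingHom.comp_apply, algebraMap_eq_C, eq_comm, ← sub_eq_zero, ← map_sub,
    IsLocalRing.residue_eq_zero_iff]
  refine augIdeal_le_maximalIdeal (mem_augIdeal.mpr ?_)
  rw [map_sub, constantCoeff_C, sub_self]

end Local

section DVR

variable {O : Type*} [CommRing O] [IsDomain O] [IsDiscreteValuationRing O] {m : ℕ}

theorem maximalIdeal_eq_sup {ϖ : O} (hϖ : Irreducible ϖ) :
    maximalIdeal (MvPowerSeries (Fin m) O) = augIdeal O m ⊔ Ideal.span {C ϖ} := by
  refine le_antisymm (fun f hf => ?_) (sup_le augIdeal_le_maximalIdeal ?_)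
  · rw [mem_maximalIdeal_iff, hϖ.maximalIdeal_eq, Ideal.mem_span_singleton'] at hf
    obtain ⟨c, hc⟩ := hf
    have h1 : f - C c * C ϖ ∈ augIdeal O m := by
      rw [mem_augIdeal, map_sub, map_mul, constantCoeff_C, constantCoeff_C, hc, sub_self]
    have : f = (f - C c * C ϖ) + C c * C ϖ := by ring
    rw [this]
    exact Ideal.add_mem _ (Ideal.mem_sup_left h1)
      (Ideal.mem_sup_right (Ideal.mem_span_singleton'.mpr ⟨C c, rfl⟩))
  · rw [Ideal.span_le, Set.singleton_subset_iff, SetLike.mem_coe, mem_maximalIdeal_iff,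
      constantCoeff_C, hϖ.maximalIdeal_eq]
    exact Ideal.mem_span_singleton_self ϖ

end DVR

end Fermat.Agent.GE9.NumCrit
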