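/-
GE9-NUMCRIT (S59 pre-work, helper82): socle exchange = "complete intersections are Gorenstein",
elementary form.  In a noetherian local ring `A`, relative to a base ideal `I₀`: if `x`, `y` are
sequences of length `d` in `𝔪` with `I₀ + (x)`, `I₀ + (y)` `𝔪`-primary, `x` regular on `A ⧸ I₀`, and
the socle `(I₀ + (x) : 𝔪) / (I₀ + (x))` is cyclic, then so is `(I₀ + (y) : 𝔪) / (I₀ + (y))`.
Mathlib + `CM.lean`.
-/
import Mathlib
import Fermat.Agent.GE9.NumCrit.CM

set_option autoImplicit false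

namespace Fermat.Agent.GE9.NumCrit

open IsLocalRing

variable {A : Type*} [CommRing A] [IsLocalRing A]

/-- the colon ideal `(I : 𝔪)`. -/
def colonM (I : Ideal A) : Ideal A := Submodule.colon I ((maximalIdeal A : Ideal A) : Set A)

theorem mem_colonM {I : Ideal A} {z : A} : z ∈ colonM I ↔ ∀ t ∈ maximalIdeal A, t * z ∈ I := by
  rw [colonM, Submodule.mem_colon]
  refine forall₂_congr fun t _ => ?_
  rw [smul_eq_mul, mul_comm]

theorem le_colonM (I : Ideal A) : I ≤ colonM I := fun _ hz =>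
  mem_colonM.mpr fun _ _ => I.mul_mem_left _ hz

/-- the socle of `A ⧸ I` is cyclic: `(I : 𝔪) = I + (s)`. -/
def ColonPrincipal (I : Ideal A) : Prop := ∃ s : A, colonM I = I ⊔ Ideal.span {s}

omit [IsLocalRing A] in
theorem mem_sup_span_singleton {J : Ideal A} {c z : A} :
    z ∈ J ⊔ Ideal.span {c} ↔ ∃ u : A, z - u * c ∈ J := by
  rw [Submodule.mem_sup]
  constructor
  · rintro ⟨j, hj, w, hw, rfl⟩
    obtain ⟨u, rfl⟩ := Ideal.mem_span_singleton'.mp hw
    exact ⟨u, by simpa using hj⟩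
  · rintro ⟨u, hu⟩
    exact ⟨z - u * c, hu, u * c, Ideal.mem_span_singleton'.mpr ⟨u, rfl⟩, by ring⟩

/-- (F-a): `z ∈ (J + (ab) : 𝔪)` is `≡ b w` modulo `J` with `w ∈ (J + (a) : 𝔪)`. -/
theorem exists_of_mem_colonM_mul {J : Ideal A} {a b : A} (ha𝔪 : a ∈ maximalIdeal A)
    (ha : RegMod J a) (hb : RegMod J b) {z : A} (hz : z ∈ colonM (J ⊔ Ideal.span {a * b})) :
    ∃ w, z - b * w ∈ J ∧ w ∈ colonM (J ⊔ Ideal.span {a}) := by
  rw [mem_colonM] at hz
  obtain ⟨u, hu⟩ := mem_sup_span_singleton.mp (hz a ha𝔪)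
  have h1 : z - b * u ∈ J := ha _ (by convert hu using 1; ring)
  refine ⟨u, h1, mem_colonM.mpr fun t ht => ?_⟩
  obtain ⟨v, hv⟩ := mem_sup_span_singleton.mp (hz t ht)
  refine mem_sup_span_singleton.mpr ⟨v, hb _ ?_⟩
  have : b * (t * u - v * a) = (t * z - v * (a * b)) - t * (z - b * u) := by ring
  rw [this]
  exact J.sub_mem hv (J.mul_mem_left _ h1)

/-- (F-b). -/
theorem mul_mem_colonM_mul {J : Ideal A} {a b w : A} (hw : w ∈ colonM (J ⊔ Ideal.span {a})) :
    b * w ∈ colonM (J ⊔ Ideal.span {a * b}) := by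
  rw [mem_colonM] at hw ⊢
  intro t ht
  obtain ⟨v, hv⟩ := mem_sup_span_singleton.mp (hw t ht)
  refine mem_sup_span_singleton.mpr ⟨v, ?_⟩
  have : t * (b * w) - v * (a * b) = b * (t * w - v * a) := by ring
  rw [this]
  exact J.mul_mem_left _ hv

theorem colonPrincipal_mul_of {J : Ideal A} {a b : A} (ha𝔪 : a ∈ maximalIdeal A)
    (ha : RegMod J a) (hb : RegMod J b) (h : ColonPrincipal (J ⊔ Ideal.span {a})) :
    ColonPrincipal (J ⊔ Ideal.span {a * b}) := by
  obtain ⟨s, hs⟩ := h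
  refine ⟨b * s, le_antisymm (fun z hz => ?_) ?_⟩
  · obtain ⟨w, hw1, hw2⟩ := exists_of_mem_colonM_mul ha𝔪 ha hb hz
    rw [hs] at hw2
    obtain ⟨v, hv⟩ := mem_sup_span_singleton.mp hw2
    obtain ⟨u, hu⟩ := mem_sup_span_singleton.mp hv
    -- `w = j + u a + v s`, `z = j' + b w`
    have : z = (z - b * w) + b * (w - v * s - u * a) + u * (a * b) + v * (b * s) := by ring
    rw [this]
    have h1 : (z - b * w) + b * (w - v * s - u * a) ∈ J := J.add_mem hw1 (J.mul_mem_left _ hu)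
    have h2 : (z - b * w) + b * (w - v * s - u * a) + u * (a * b) ∈ J ⊔ Ideal.span {a * b} :=
      Ideal.add_mem _ (Ideal.mem_sup_left h1)
        (Ideal.mem_sup_right (Ideal.mem_span_singleton'.mpr ⟨u, rfl⟩))
    exact Ideal.add_mem _ (Ideal.mem_sup_left h2)
      (Ideal.mem_sup_right (Ideal.mem_span_singleton'.mpr ⟨v, rfl⟩))
  · refine sup_le (le_colonM _) ?_
    rw [Ideal.span_le, Set.singleton_subset_iff]
    refine mul_mem_colonM_mul ?_
    rw [hs]
    exact Ideal.mem_sup_right (Ideal.mem_span_singleton_self s)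

theorem colonPrincipal_of_mul {J : Ideal A} {a b : A} (ha𝔪 : a ∈ maximalIdeal A)
    (ha : RegMod J a) (hb : RegMod J b) (h : ColonPrincipal (J ⊔ Ideal.span {a * b})) :
    ColonPrincipal (J ⊔ Ideal.span {a}) := by
  obtain ⟨s', hs'⟩ := h
  have hs'mem : s' ∈ colonM (J ⊔ Ideal.span {a * b}) := by
    rw [hs']; exact Ideal.mem_sup_right (Ideal.mem_span_singleton_self s')
  obtain ⟨s, hs1, hs2⟩ := exists_of_mem_colonM_mul ha𝔪 ha hb hs'mem
  refine ⟨s, le_antisymm (fun w hw => ?_) ?_⟩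
  · have hbw : b * w ∈ colonM (J ⊔ Ideal.span {a * b}) := mul_mem_colonM_mul hw
    rw [hs'] at hbw
    obtain ⟨v, hv⟩ := mem_sup_span_singleton.mp hbw
    obtain ⟨u, hu⟩ := mem_sup_span_singleton.mp hv
    -- `b w - v s' - u a b ∈ J`, `s' - b s ∈ J`
    have h1 : w - v * s - u * a ∈ J := by
      refine hb _ ?_
      have : b * (w - v * s - u * a) = (b * w - v * s' - u * (a * b)) + v * (s' - b * s) := by ring
      rw [this]
      exact J.add_mem hu (J.mul_mem_left _ hs1)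
    have : w = (w - v * s - u * a) + u * a + v * s := by ring
    rw [this]
    refine Ideal.add_mem _ (Ideal.mem_sup_left ?_)
      (Ideal.mem_sup_right (Ideal.mem_span_singleton'.mpr ⟨v, rfl⟩))
    exact Ideal.add_mem _ (Ideal.mem_sup_left h1)
      (Ideal.mem_sup_right (Ideal.mem_span_singleton'.mpr ⟨u, rfl⟩))
  · refine sup_le (le_colonM _) ?_
    rw [Ideal.span_le, Set.singleton_subset_iff]
    exact hs2

/-- one-variable exchange of the socle. -/
theorem colonPrincipal_exchange_one {J : Ideal A} {a b : A} (ha𝔪 : a ∈ maximalIdeal A)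
    (hb𝔪 : b ∈ maximalIdeal A) (ha : RegMod J a) (hb : RegMod J b)
    (h : ColonPrincipal (J ⊔ Ideal.span {a})) : ColonPrincipal (J ⊔ Ideal.span {b}) := by
  have h1 := colonPrincipal_mul_of ha𝔪 ha hb h
  rw [mul_comm] at h1
  exact colonPrincipal_of_mul hb𝔪 hb ha h1


/-- move the head of a relative regular sequence to the end. -/
theorem RegSeq.head_to_end [IsNoetherianRing A] {I₀ : Ideal A} {a : A} {l : List A}
    (h : RegSeq I₀ (a :: l)) (h𝔪 : ∀ c ∈ a :: l, c ∈ maximalIdeal A) :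
    RegSeq I₀ l ∧ RegMod (I₀ ⊔ Ideal.ofList l) a := by
  have h1 : RegSeq I₀ (l ++ [a]) := h.perm (List.perm_append_singleton a l).symm h𝔪
  exact (regSeq_append_singleton _ _ _).mp h1

/-- move the last element of a relative regular sequence to the head. -/
theorem RegSeq.end_to_head [IsNoetherianRing A] {I₀ : Ideal A} {a : A} {l : List A}
    (h1 : RegSeq I₀ l) (h2 : RegMod (I₀ ⊔ Ideal.ofList l) a)
    (h𝔪 : ∀ c ∈ a :: l, c ∈ maximalIdeal A) :
    RegMod I₀ a ∧ RegSeq (I₀ ⊔ Ideal.span {a}) l := by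
  have h3 : RegSeq I₀ (l ++ [a]) := (regSeq_append_singleton _ _ _).mpr ⟨h1, h2⟩
  have h4 : RegSeq I₀ (a :: l) := by
    refine h3.perm (List.perm_append_singleton a l) ?_
    intro c hc
    exact h𝔪 c ((List.perm_append_singleton a l).mem_iff.mp hc)
  exact (regSeq_cons _ _ _).mp h4

/-- **Socle exchange**: relative to `I₀`, for two sequences of length `d` in `𝔪` with `𝔪`-primary
ideals, the first one regular: if the socle of `A ⧸ (I₀ + (x))` is cyclic then so is the socle of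
`A ⧸ (I₀ + (y))`. -/
theorem colonPrincipal_exchange [IsNoetherianRing A] (d : ℕ) :
    ∀ (I₀ : Ideal A) (x y : List A), x.length = d → y.length = d →
      (∀ a ∈ x, a ∈ maximalIdeal A) → (∀ a ∈ y, a ∈ maximalIdeal A) → RegSeq I₀ x →
      MPrimary (I₀ ⊔ Ideal.ofList x) → MPrimary (I₀ ⊔ Ideal.ofList y) →
      ColonPrincipal (I₀ ⊔ Ideal.ofList x) → ColonPrincipal (I₀ ⊔ Ideal.ofList y) := by
  induction d with
  | zero =>
    intro I₀ x y hx hy _ _ _ _ _ h
    rw [List.length_eq_zero_iff.mp hx] at h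
    rw [List.length_eq_zero_iff.mp hy]
    exact h
  | succ d ih =>
    intro I₀ x y hxl hyl hx𝔪 hy𝔪 hx hxP hyP hsoc
    have hy : RegSeq I₀ y := regSeq_exchange (d + 1) I₀ x y hxl hyl hx𝔪 hy𝔪 hx hxP hyP
    obtain ⟨x₀, x', rfl⟩ := List.exists_cons_of_length_eq_add_one hxl
    obtain ⟨y₀, y', rfl⟩ := List.exists_cons_of_length_eq_add_one hyl
    have hx₀ : x₀ ∈ maximalIdeal A := hx𝔪 x₀ List.mem_cons_self
    have hy₀ : y₀ ∈ maximalIdeal A := hy𝔪 y₀ List.mem_cons_self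
    have hx'𝔪 : ∀ a ∈ x', a ∈ maximalIdeal A := fun a ha => hx𝔪 a (List.mem_cons_of_mem _ ha)
    have hy'𝔪 : ∀ a ∈ y', a ∈ maximalIdeal A := fun a ha => hy𝔪 a (List.mem_cons_of_mem _ ha)
    have hx1 := hx.head_to_end hx𝔪
    have hy1 := hy.head_to_end hy𝔪
    have e1 : ∀ (l : List A) (a : A), I₀ ⊔ Ideal.ofList (a :: l) =
        (I₀ ⊔ Ideal.ofList l) ⊔ Ideal.span {a} := by
      intro l a
      rw [Ideal.ofList_cons, sup_assoc, sup_comm (Ideal.span {a})]
    have e2 : ∀ (l : List A) (a : A), (I₀ ⊔ Ideal.span {a}) ⊔ Ideal.ofList l =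
        (I₀ ⊔ Ideal.ofList l) ⊔ Ideal.span {a} := by
      intro l a
      rw [sup_assoc, sup_assoc, sup_comm (Ideal.span {a})]
    rw [e1] at hxP hyP hsoc ⊢
    obtain ⟨h, hh𝔪, hhreg, hhx, hhy⟩ := exists_aux_parameter hx₀ hy₀ hx1.2 hxP hyP
    have hhx'𝔪 : ∀ c ∈ h :: x', c ∈ maximalIdeal A := by
      intro c hc
      rcases List.mem_cons.mp hc with hc | hc
      · rw [hc]; exact hh𝔪
      · exact hx'𝔪 c hc
    have hhy'𝔪 : ∀ c ∈ h :: y', c ∈ maximalIdeal A := by
      intro c hc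
      rcases List.mem_cons.mp hc with hc | hc
      · rw [hc]; exact hh𝔪
      · exact hy'𝔪 c hc
    -- `h :: x'` is regular, `h :: y'` has `𝔪`-primary ideal hence is regular
    have hx2 := RegSeq.end_to_head hx1.1 hhreg hhx'𝔪
    have hxh : RegSeq I₀ (h :: x') := (regSeq_cons _ _ _).mpr hx2
    have hyh : RegSeq I₀ (h :: y') :=
      regSeq_exchange (d + 1) I₀ (h :: x') (h :: y') (by simpa using hxl) (by simpa using hyl)
        hhx'𝔪 hhy'𝔪 hxh (by rw [e1]; exact hhx) (by rw [e1]; exact hhy)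
    have hy2 := hyh.head_to_end hhy'𝔪
    -- exchange `x₀ ↔ h` modulo `Jx`
    have s1 : ColonPrincipal ((I₀ ⊔ Ideal.ofList x') ⊔ Ideal.span {h}) :=
      colonPrincipal_exchange_one hx₀ hh𝔪 hx1.2 hhreg hsoc
    -- induction hypothesis modulo `h`
    have s2 : ColonPrincipal ((I₀ ⊔ Ideal.span {h}) ⊔ Ideal.ofList y') :=
      ih (I₀ ⊔ Ideal.span {h}) x' y' (by simpa using hxl) (by simpa using hyl) hx'𝔪 hy'𝔪 hx2.2
        (by rw [e2]; exact hhx) (by rw [e2]; exact hhy) (by rw [e2]; exact s1)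
    rw [e2] at s2
    -- exchange `h ↔ y₀` modulo `Jy`
    exact colonPrincipal_exchange_one hh𝔪 hy₀ hy2.2 hy1.2 s2

end Fermat.Agent.GE9.NumCrit
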