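/-
GE9-NUMCRIT (S59 pre-work, helper82): the complete intersection `T̃ = O⟦X₁..X_m⟧ ⧸ (f₁..f_m)` with
`(f, ϖ)` `𝔪`-primary over a complete DVR `O`: `ϖ` is regular on `T̃`, `T̃` is finite free over `O`,
local, and `Hom_O (T̃, O)` is free of rank one over `T̃` (Gorenstein).
-/
import Mathlib
import Fermat.Agent.GE9.NumCrit.Defs
import Fermat.Agent.GE9.NumCrit.CM
import Fermat.Agent.GE9.NumCrit.Soc
import Fermat.Agent.GE9.NumCrit.PSLocal
import Fermat.Agent.GE9.NumCrit.Gen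
import Fermat.Agent.GE9.NumCrit.GorArt
import Fermat.Agent.GE9.NumCrit.FinLift

set_option autoImplicit false

namespace Fermat.Agent.GE9.NumCrit

open IsLocalRing MvPowerSeries RingTheory.Sequence

theorem ofList_ofFn {R : Type*} [CommRing R] {m : ℕ} (g : Fin m → R) :
    Ideal.ofList (List.ofFn g) = Ideal.span (Set.range g) := by
  unfold Ideal.ofList
  congr 1
  ext r
  simp [List.mem_ofFn]

section DVR

variable {O : Type*} [CommRing O] [IsDomain O] [IsDiscreteValuationRing O] {m : ℕ}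

/-- the regular system of parameters `X₁, …, X_m, ϖ`. -/
noncomputable def sopX (O : Type*) [CommRing O] (m : ℕ) (ϖ : O) :
    List (MvPowerSeries (Fin m) O) :=
  List.ofFn (fun i : Fin m => (X i : MvPowerSeries (Fin m) O)) ++ [C ϖ]

theorem ofList_sopX {ϖ : O} (hϖ : Irreducible ϖ) :
    Ideal.ofList (sopX O m ϖ) = maximalIdeal (MvPowerSeries (Fin m) O) := by
  rw [sopX, Ideal.ofList_append, ofList_ofFn, Ideal.ofList_singleton, maximalIdeal_eq_sup hϖ,
    augIdeal, ker_constantCoeff_eq_span]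

omit [IsDiscreteValuationRing O] in
theorem regSeq_sopX {ϖ : O} (hϖ : Irreducible ϖ) :
    RegSeq (⊥ : Ideal (MvPowerSeries (Fin m) O)) (sopX O m ϖ) := by
  rw [regSeq_iff_isWeaklyRegular]
  refine (LinearEquiv.isWeaklyRegular_congr (Submodule.quotEquivOfEqBot
    (⊥ : Ideal (MvPowerSeries (Fin m) O)) rfl) _).mpr ?_
  exact isWeaklyRegular_X_C ϖ (mem_nonZeroDivisors_of_ne_zero hϖ.ne_zero)

theorem C_mem_maximalIdeal {ϖ : O} (hϖ : Irreducible ϖ) :
    (C ϖ : MvPowerSeries (Fin m) O) ∈ maximalIdeal (MvPowerSeries (Fin m) O) := by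
  rw [mem_maximalIdeal_iff, constantCoeff_C, hϖ.maximalIdeal_eq]
  exact Ideal.mem_span_singleton_self ϖ

theorem sopX_mem {ϖ : O} (hϖ : Irreducible ϖ) :
    ∀ a ∈ sopX O m ϖ, a ∈ maximalIdeal (MvPowerSeries (Fin m) O) := by
  intro a ha
  rw [← ofList_sopX hϖ]
  exact Ideal.subset_span ha

/-- **the c.i. facts**, ideal form. -/
theorem ci_regMod_and_colonPrincipal {ϖ : O} (hϖ : Irreducible ϖ)
    (f : Fin m → MvPowerSeries (Fin m) O) (hf : ∀ i, f i ∈ augIdeal O m) (n : ℕ)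
    (hn : maximalIdeal (MvPowerSeries (Fin m) O) ^ n ≤
      Ideal.span (Set.range f) ⊔ Ideal.span {(C ϖ : MvPowerSeries (Fin m) O)}) :
    RegMod (Ideal.span (Set.range f)) (C ϖ : MvPowerSeries (Fin m) O) ∧
      ColonPrincipal (Ideal.span (Set.range f) ⊔ Ideal.span {(C ϖ : MvPowerSeries (Fin m) O)}) := by
  set y : List (MvPowerSeries (Fin m) O) := List.ofFn f ++ [C ϖ] with hy
  have hylist : Ideal.ofList y =
      Ideal.span (Set.range f) ⊔ Ideal.span {(C ϖ : MvPowerSeries (Fin m) O)} := by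
    rw [hy, Ideal.ofList_append, ofList_ofFn, Ideal.ofList_singleton]
  have hxl : (sopX O m ϖ).length = m + 1 := by simp [sopX]
  have hyl : y.length = m + 1 := by simp [hy]
  have hy𝔪 : ∀ a ∈ y, a ∈ maximalIdeal (MvPowerSeries (Fin m) O) := by
    intro a ha
    rcases List.mem_append.mp ha with ha | ha
    · obtain ⟨i, rfl⟩ := (List.mem_ofFn' _ _).mp ha
      exact augIdeal_le_maximalIdeal (hf i)
    · rw [List.mem_singleton.mp ha]; exact C_mem_maximalIdeal hϖ
  have hxP : MPrimary (⊥ ⊔ Ideal.ofList (sopX O m ϖ)) :=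
    ⟨1, by rw [pow_one, bot_sup_eq, ofList_sopX hϖ]⟩
  have hyP : MPrimary (⊥ ⊔ Ideal.ofList y) := ⟨n, by rw [bot_sup_eq, hylist]; exact hn⟩
  constructor
  · have h1 := regSeq_exchange (m + 1) ⊥ (sopX O m ϖ) y hxl hyl (sopX_mem hϖ) hy𝔪
      (regSeq_sopX hϖ) hxP hyP
    rw [hy, regSeq_append_singleton, bot_sup_eq, ofList_ofFn] at h1
    exact h1.2
  · have h0 : ColonPrincipal (⊥ ⊔ Ideal.ofList (sopX O m ϖ)) := by
      refine ⟨1, ?_⟩
      rw [bot_sup_eq, ofList_sopX hϖ, Ideal.span_singleton_one, sup_top_eq, eq_top_iff]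
      intro z _
      exact mem_colonM.mpr fun t ht => Ideal.mul_mem_right _ _ ht
    have h1 := colonPrincipal_exchange (m + 1) ⊥ (sopX O m ϖ) y hxl hyl (sopX_mem hϖ) hy𝔪
      (regSeq_sopX hϖ) hxP hyP h0
    rwa [bot_sup_eq, hylist] at h1


/-- **the c.i. facts**, quotient form: `T̃ = U ⧸ (f)` is finite free over `O`, local, and its
`O`-dual is generated by one element as a `T̃`-module. -/
theorem ci_quotient_facts [IsAdicComplete (maximalIdeal O) O] {ϖ : O} (hϖ : Irreducible ϖ)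
    (f : Fin m → MvPowerSeries (Fin m) O) (hf : ∀ i, f i ∈ augIdeal O m) (n : ℕ)
    (hn : maximalIdeal (MvPowerSeries (Fin m) O) ^ n ≤
      Ideal.span (Set.range f) ⊔ Ideal.span {(C ϖ : MvPowerSeries (Fin m) O)}) :
    Module.Finite O (MvPowerSeries (Fin m) O ⧸ Ideal.span (Set.range f)) ∧
    Module.Free O (MvPowerSeries (Fin m) O ⧸ Ideal.span (Set.range f)) ∧
    IsLocalRing (MvPowerSeries (Fin m) O ⧸ Ideal.span (Set.range f)) ∧
    ∃ ω : (MvPowerSeries (Fin m) O ⧸ Ideal.span (Set.range f)) →ₗ[O] O,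
      ∀ g : (MvPowerSeries (Fin m) O ⧸ Ideal.span (Set.range f)) →ₗ[O] O,
        ∃ a, ∀ x, g x = ω (a * x) := by
  set F : Ideal (MvPowerSeries (Fin m) O) := Ideal.span (Set.range f) with hF
  obtain ⟨hreg, s, hs⟩ := ci_regMod_and_colonPrincipal hϖ f hf n hn
  rw [← hF] at hreg hs
  have hF𝔭 : F ≤ augIdeal O m := Ideal.span_le.mpr (by rintro _ ⟨i, rfl⟩; exact hf i)
  have hF𝔪 : F ≤ maximalIdeal (MvPowerSeries (Fin m) O) := hF𝔭.trans augIdeal_le_maximalIdeal
  have hfin : Module.Finite O (MvPowerSeries (Fin m) O ⧸ F) :=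
    finite_quotient_of_pow_le_sup residue_comp_algebraMap_surjective ϖ hϖ F n
      (by rwa [algebraMap_eq_C])
  have hloc : IsLocalRing (MvPowerSeries (Fin m) O ⧸ F) := isLocalRing_quotient F hF𝔪
  -- `ϖ` is regular on the quotient
  have hϖreg : IsSMulRegular (MvPowerSeries (Fin m) O ⧸ F) ϖ := by
    rw [isSMulRegular_iff_right_eq_zero_of_smul]
    intro z hz
    obtain ⟨z, rfl⟩ := Ideal.Quotient.mk_surjective z
    have h1 : ϖ • Ideal.Quotient.mk F z = Ideal.Quotient.mk F (C ϖ * z) := by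
      rw [← algebraMap_eq_C, ← Algebra.smul_def]
      rfl
    rw [h1, Ideal.Quotient.eq_zero_iff_mem] at hz
    exact Ideal.Quotient.eq_zero_iff_mem.mpr (hreg z hz)
  have htf : Module.IsTorsionFree O (MvPowerSeries (Fin m) O ⧸ F) := by
    refine ⟨fun r hr => ?_⟩
    obtain ⟨k, u, rfl⟩ := IsDiscreteValuationRing.eq_unit_mul_pow_irreducible hr.ne_zero hϖ
    exact IsSMulRegular.mul (u.isUnit.isSMulRegular _) (hϖreg.pow k)
  have hfree : Module.Free O (MvPowerSeries (Fin m) O ⧸ F) :=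
    Module.free_of_finite_type_torsion_free'
  refine ⟨hfin, hfree, hloc, ?_⟩
  -- the socle condition in the quotient
  set q := Ideal.Quotient.mk F with hq
  have hqs : Function.Surjective q := Ideal.Quotient.mk_surjective
  have hspanϖ : Ideal.span {algebraMap O (MvPowerSeries (Fin m) O ⧸ F) ϖ} =
      (Ideal.span {(C ϖ : MvPowerSeries (Fin m) O)}).map q := by
    rw [Ideal.map_span, Set.image_singleton, ← Ideal.Quotient.mk_algebraMap, algebraMap_eq_C]
  have hspans : Ideal.span {q s} = (Ideal.span {s}).map q := by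
    rw [Ideal.map_span, Set.image_singleton]
  refine exists_dual_generator ϖ hϖ (q s) fun z => ?_
  obtain ⟨z, rfl⟩ := hqs z
  rw [hspanϖ, hspans, ← Ideal.map_sup, Ideal.mem_quotient_iff_mem_sup]
  have h1 : Ideal.span {(C ϖ : MvPowerSeries (Fin m) O)} ⊔ Ideal.span {s} ⊔ F =
      F ⊔ Ideal.span {(C ϖ : MvPowerSeries (Fin m) O)} ⊔ Ideal.span {s} := by
    rw [sup_comm, sup_assoc]
  rw [h1, ← hs, mem_colonM]
  constructor
  · intro h t ht
    have := h (q t) ((mk_mem_maximalIdeal_iff F hF𝔪 t).mpr ht)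
    rw [← map_mul, Ideal.mem_quotient_iff_mem_sup, sup_comm] at this
    exact this
  · intro h t ht
    obtain ⟨t, rfl⟩ := hqs t
    rw [← map_mul, Ideal.mem_quotient_iff_mem_sup, sup_comm]
    exact h t ((mk_mem_maximalIdeal_iff F hF𝔪 t).mp ht)

end DVR

end Fermat.Agent.GE9.NumCrit
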