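/-
GE9-NUMCRIT (S59 pre-work) / leaf (L4), file 1 (helper86): **coset prime avoidance**.
Mathlib only.

`exists_add_notMem_of_not_le` : `I` an ideal, `x` an element, `s` a finite set of prime ideals none
of which contains `I`; then some element of the coset `x + I` avoids every prime of `s`.
(Induction on `s`, removing a MINIMAL prime `P` of `s`: correct by an element of
`I * ∏_{Q ≠ P} Q` outside `P`.)
-/
import Mathlib

set_option autoImplicit false

namespace Fermat.Agent.GE9.NumCrit

/-- **coset prime avoidance.** -/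
theorem exists_add_notMem_of_not_le {R : Type*} [CommRing R] (I : Ideal R) (x : R)
    (s : Finset (Ideal R)) (hs : ∀ P ∈ s, P.IsPrime) (hI : ∀ P ∈ s, ¬ I ≤ P) :
    ∃ y ∈ I, ∀ P ∈ s, x + y ∉ P := by
  classical
  induction hn : s.card generalizing s with
  | zero =>
    have : s = ∅ := Finset.card_eq_zero.mp hn
    subst this
    exact ⟨0, I.zero_mem, fun P hP => absurd hP (Finset.notMem_empty P)⟩
  | succ n ih =>
    have hne : s.Nonempty := Finset.card_pos.mp (by omega)
    -- a minimal element of `s`
    obtain ⟨P, hPs, hPmin⟩ := s.exists_minimal hne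
    have hcard : (s.erase P).card = n := by rw [Finset.card_erase_of_mem hPs, hn]; rfl
    obtain ⟨y', hy'I, hy'⟩ := ih (s.erase P) (fun Q hQ => hs Q (Finset.mem_of_mem_erase hQ))
      (fun Q hQ => hI Q (Finset.mem_of_mem_erase hQ)) hcard
    by_cases hxP : x + y' ∈ P
    · -- correct by `z ∈ I * ∏ Q`, `z ∉ P`
      have hPprime : P.IsPrime := hs P hPs
      have hnot : ¬ I * ∏ Q ∈ s.erase P, Q ≤ P := by
        intro hle
        rcases (Ideal.IsPrime.mul_le (hs P hPs)).mp hle with h1 | h1
        · exact hI P hPs h1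
        · obtain ⟨Q, hQ, hQP⟩ := (Ideal.IsPrime.prod_le (hs P hPs)).mp h1
          have hQs : Q ∈ s := Finset.mem_of_mem_erase hQ
          have hQne : Q ≠ P := Finset.ne_of_mem_erase hQ
          have hPQ : P ≤ Q := hPmin hQs hQP
          exact hQne (le_antisymm hQP hPQ)
      obtain ⟨z, hz, hzP⟩ := SetLike.not_le_iff_exists.mp hnot
      have hzI : z ∈ I := Ideal.mul_le_left hz
      have hzQ : ∀ Q ∈ s.erase P, z ∈ Q := fun Q hQ => by
        have h1 : ∏ Q' ∈ s.erase P, Q' ≤ Q :=
          Ideal.le_of_dvd (Finset.dvd_prod_of_mem (fun Q' : Ideal R => Q') hQ)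
        exact h1 (Ideal.mul_le_right hz)
      refine ⟨y' + z, I.add_mem hy'I hzI, fun Q hQs => ?_⟩
      by_cases hQP : Q = P
      · subst hQP
        intro hmem
        apply hzP
        have : z = (x + (y' + z)) - (x + y') := by ring
        rw [this]
        exact Q.sub_mem hmem hxP
      · have hQe : Q ∈ s.erase P := Finset.mem_erase.mpr ⟨hQP, hQs⟩
        intro hmem
        apply hy' Q hQe
        have : x + y' = (x + (y' + z)) - z := by ring
        rw [this]
        exact Q.sub_mem hmem (hzQ Q hQe)
    · refine ⟨y', hy'I, fun Q hQs => ?_⟩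
      by_cases hQP : Q = P
      · subst hQP; exact hxP
      · exact hy' Q (Finset.mem_erase.mpr ⟨hQP, hQs⟩)

end Fermat.Agent.GE9.NumCrit
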