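/-
GE9-NUMCRIT (S59 pre-work) / leaf (L4), file 2 (helper86): **existence of perturbed systems of
parameters**.  Mathlib + `Avoid.lean`.

`A` a noetherian local ring whose maximal ideal is generated by `m` elements (so `dim A ≤ m`).
For ANY `g : Fin m → A` and any `N` there are `h i ∈ 𝔪 ^ N` such that `(g i + h i)_i` generates an
ideal containing a power of `𝔪` (an `𝔪`-primary ideal, or the unit ideal).

Proof: choose the `h i` one at a time by coset prime avoidance, so that `g i + h i` avoids the
non-maximal minimal primes of the ideal generated by the previous ones; then every non-maximal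
prime containing the first `k` elements has height `≥ k` (`exists_perturb_height`), and
`ht 𝔪 ≤ m` (Krull) leaves only `𝔪` after `m` steps.
-/
import Mathlib
import Fermat.Agent.GE9.NumCrit.Avoid

set_option autoImplicit false

namespace Fermat.Agent.GE9.NumCrit

open IsLocalRing

variable {A : Type*} [CommRing A] [IsLocalRing A] [IsNoetherianRing A]

omit [IsNoetherianRing A] in
/-- a prime containing a power of the maximal ideal is the maximal ideal -/
theorem eq_maximalIdeal_of_pow_le {P : Ideal A} (hP : P.IsPrime) {N : ℕ}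
    (h : maximalIdeal A ^ N ≤ P) : P = maximalIdeal A :=
  le_antisymm (le_maximalIdeal hP.ne_top) (hP.le_of_pow_le h)

/-- **the inductive step, all steps at once**: perturb `g 0, …, g (k-1)` by elements of `𝔪 ^ N` so
that every NON-MAXIMAL prime containing the perturbed elements has height at least `k`. -/
theorem exists_perturb_height (N : ℕ) : ∀ (k : ℕ) (g : Fin k → A),
    ∃ h : Fin k → A, (∀ i, h i ∈ maximalIdeal A ^ N) ∧
      ∀ Q : Ideal A, Q.IsPrime → Ideal.span (Set.range fun i => g i + h i) ≤ Q →
        Q ≠ maximalIdeal A → (k : ℕ∞) ≤ Q.height := by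
  classical
  intro k
  induction k with
  | zero =>
    intro g
    exact ⟨fun i => i.elim0, fun i => i.elim0, fun Q _ _ _ => by simp⟩
  | succ k ih =>
    intro g
    obtain ⟨h', hh', hQ'⟩ := ih (Fin.tail g)
    set J : Ideal A := Ideal.span (Set.range fun i => Fin.tail g i + h' i) with hJ
    have hfin : J.minimalPrimes.Finite := Ideal.finite_minimalPrimes_of_isNoetherianRing A J
    set S : Finset (Ideal A) := hfin.toFinset.filter (fun P => P ≠ maximalIdeal A) with hS
    have hSmem : ∀ P, P ∈ S ↔ P ∈ J.minimalPrimes ∧ P ≠ maximalIdeal A := by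
      intro P
      rw [hS, Finset.mem_filter, Set.Finite.mem_toFinset]
    obtain ⟨y, hy, hyS⟩ := exists_add_notMem_of_not_le (maximalIdeal A ^ N) (g 0) S
      (fun P hP => ((hSmem P).mp hP).1.1.1)
      (fun P hP hle => ((hSmem P).mp hP).2
        (eq_maximalIdeal_of_pow_le ((hSmem P).mp hP).1.1.1 hle))
    refine ⟨Fin.cons y h', fun i => ?_, fun Q hQ hle hne => ?_⟩
    · refine Fin.cases ?_ (fun j => ?_) i
      · simpa using hy
      · simpa using hh' j
    · have hfun : (fun i : Fin (k + 1) => g i + (Fin.cons y h' : Fin (k + 1) → A) i) =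
          Fin.cons (g 0 + y) (fun i => Fin.tail g i + h' i) := by
        funext i
        refine Fin.cases ?_ (fun j => ?_) i
        · simp
        · simp [Fin.tail]
      rw [hfun, Fin.range_cons, Ideal.span_insert, sup_le_iff] at hle
      obtain ⟨h0, hJQ⟩ := hle
      have h0' : g 0 + y ∈ Q := h0 (Ideal.mem_span_singleton_self _)
      obtain ⟨P, hPmin, hPQ⟩ := Ideal.exists_minimalPrimes_le hJQ
      have hPprime : P.IsPrime := hPmin.1.1
      have hPne : P ≠ maximalIdeal A := by
        rintro rfl
        exact hne (le_antisymm (le_maximalIdeal hQ.ne_top) hPQ)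
      have hPS : P ∈ S := (hSmem P).mpr ⟨hPmin, hPne⟩
      have hlt : P < Q := by
        refine lt_of_le_of_ne hPQ ?_
        rintro rfl
        exact hyS P hPS h0'
      have h1 : (k : ℕ∞) ≤ P.height := hQ' P hPprime hPmin.1.2 hPne
      have h2 : P.height + 1 ≤ Q.height := Ideal.height_add_one_le_of_lt_of_isPrime hlt
      calc ((k + 1 : ℕ) : ℕ∞) = (k : ℕ∞) + 1 := by push_cast; rfl
        _ ≤ P.height + 1 := by gcongr
        _ ≤ Q.height := h2

/-- `ht 𝔪 ≤ m` if `𝔪` is generated by `m` elements (Krull's height theorem) -/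
theorem height_maximalIdeal_le {m : ℕ} (x : Fin m → A)
    (hx : maximalIdeal A = Ideal.span (Set.range x)) : (maximalIdeal A).height ≤ m := by
  classical
  have hmin : maximalIdeal A ∈ (Ideal.span ((Finset.univ.image x : Finset A) : Set A)).minimalPrimes := by
    have : ((Finset.univ.image x : Finset A) : Set A) = Set.range x := by
      ext a; simp
    rw [this, ← hx, Ideal.minimalPrimes_eq_subsingleton_self]
    exact Set.mem_singleton _
  refine (Ideal.height_le_card_of_mem_minimalPrimes_span_finset hmin).trans ?_
  have : (Finset.univ.image x).card ≤ m := by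
    simpa using Finset.card_image_le (s := (Finset.univ : Finset (Fin m))) (f := x)
  exact_mod_cast this

/-- **existence of perturbed systems of parameters.** -/
theorem exists_add_mem_pow_primary {A : Type*} [CommRing A] [IsLocalRing A] [IsNoetherianRing A]
    {m : ℕ} (x : Fin m → A) (hx : IsLocalRing.maximalIdeal A = Ideal.span (Set.range x)) (N : ℕ)
    (g : Fin m → A) :
    ∃ h : Fin m → A, (∀ i, h i ∈ IsLocalRing.maximalIdeal A ^ N) ∧
      ∃ n : ℕ, IsLocalRing.maximalIdeal A ^ n ≤ Ideal.span (Set.range fun i => g i + h i) := by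
  obtain ⟨h, hh, hQ⟩ := exists_perturb_height (A := A) N m g
  refine ⟨h, hh, ?_⟩
  set J : Ideal A := Ideal.span (Set.range fun i => g i + h i) with hJ
  by_cases htop : J = ⊤
  · exact ⟨0, by rw [htop]; exact le_top⟩
  -- every prime containing `J` is the maximal ideal
  have hprime : ∀ Q : Ideal A, Q.IsPrime → J ≤ Q → Q = maximalIdeal A := by
    intro Q hQprime hJQ
    by_contra hne
    have h1 : (m : ℕ∞) ≤ Q.height := hQ Q hQprime hJQ hne
    have hlt : Q < maximalIdeal A := lt_of_le_of_ne (le_maximalIdeal hQprime.ne_top) hne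
    have h2 : Q.height < (maximalIdeal A).height :=
      Ideal.height_strict_mono_of_isPrime_of_isPrime hlt
    have h3 := height_maximalIdeal_le x hx
    exact absurd (h1.trans_lt (h2.trans_le h3)) (lt_irrefl _)
  have hrad : J.radical = maximalIdeal A := by
    apply le_antisymm
    · rw [Ideal.IsPrime.radical_le_iff (Ideal.IsMaximal.isPrime' _)]
      exact le_maximalIdeal htop
    · rw [Ideal.radical_eq_sInf]
      refine le_sInf fun Q hQ => ?_
      rw [hprime Q hQ.2 hQ.1]
  obtain ⟨n, hn⟩ := Ideal.exists_radical_pow_le_of_fg J (IsNoetherian.noetherian _)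
  exact ⟨n, by rwa [hrad] at hn⟩

end Fermat.Agent.GE9.NumCrit
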