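/-
GE9-NUMCRIT (S59 pre-work, helper82): in `U = O⟦X₁..X_m⟧` over a DVR `O`:
* `det_lin_mem_etaIdeal` (Cramer): for `f₁..f_m ∈ I ≤ 𝔭`, `det (lin f_i) ∈ η(U ⧸ I)`;
* `exists_lift_mod` (lifting trick): for `T = U ⧸ I` finite over `O` with `lin I` of full rank,
  every element of `𝔭^N` is congruent modulo `ϖ` to an element of `I ∩ 𝔭²`;
* `exists_cover`: relations `f_i ∈ I` with prescribed linear parts and `(f, ϖ)` `𝔪`-primary.
-/
import Mathlib
import Fermat.Agent.GE9.NumCrit.Defs
import Fermat.Agent.GE9.NumCrit.Gen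
import Fermat.Agent.GE9.NumCrit.PSLocal
import Fermat.Agent.GE9.NumCrit.SopExist

set_option autoImplicit false

namespace Fermat.Agent.GE9.NumCrit

open IsLocalRing MvPowerSeries

section Cramer

variable {O : Type*} [CommRing O] {m : ℕ}

/-- **Cramer**: for `f₁, …, f_m ∈ I ≤ 𝔭` the determinant of the linear parts lies in the congruence
ideal of `U ⧸ I`. -/
theorem det_lin_mem_etaIdeal (I : Ideal (MvPowerSeries (Fin m) O)) (hI : I ≤ augIdeal O m)
    (f : Fin m → MvPowerSeries (Fin m) O) (hf : ∀ i, f i ∈ I) :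
    (Matrix.of fun i => lin (f i)).det ∈ etaIdeal (augQuot I hI) := by
  classical
  have h1 : ∀ i, ∃ a : Fin m → MvPowerSeries (Fin m) O, f i = ∑ j, a j * X j := fun i =>
    exists_eq_sum_mul_X (f i) (mem_augIdeal.mp (hI (hf i)))
  choose a ha using h1
  let M : Matrix (Fin m) (Fin m) (MvPowerSeries (Fin m) O) := Matrix.of a
  let x : Fin m → MvPowerSeries (Fin m) O := fun j => X j
  have hMx : M.mulVec x = f := by
    ext i
    rw [ha i]
    rfl
  have hdet : ∀ k, M.det * X k ∈ I := by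
    intro k
    have := det_mul_mem_span_range M x k
    rw [hMx] at this
    exact (Ideal.span_le.mpr (by rintro _ ⟨i, rfl⟩; exact hf i)) this
  rw [mem_etaIdeal]
  refine ⟨Ideal.Quotient.mk I M.det, ?_, ?_⟩
  · intro y hy
    obtain ⟨y, rfl⟩ := Ideal.Quotient.mk_surjective y
    rw [augQuot_mk] at hy
    obtain ⟨c, rfl⟩ := exists_eq_sum_mul_X y hy
    rw [← map_mul, Ideal.Quotient.eq_zero_iff_mem, Finset.mul_sum]
    refine Ideal.sum_mem _ fun k _ => ?_
    have : M.det * (c k * X k) = c k * (M.det * X k) := by ring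
    rw [this]
    exact Ideal.mul_mem_left _ _ (hdet k)
  · rw [augQuot_mk, RingHom.map_det]
    congr 1
    ext i j
    have := congrFun (lin_sum_mul_X (a i)) j
    rw [← ha i] at this
    simp only [Matrix.of_apply, this, RingHom.mapMatrix_apply, Matrix.map_apply, M]

end Cramer

section DVR

variable {O : Type*} [CommRing O] [IsDomain O] [IsDiscreteValuationRing O] {m : ℕ}

theorem finite_quotient_span [Finite (ResidueField O)] {c : O} (hc : c ≠ 0) :
    Finite (O ⧸ Ideal.span {c}) := by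
  obtain ⟨ϖ, hϖ⟩ := IsDiscreteValuationRing.exists_irreducible O
  obtain ⟨n, hn⟩ := IsDiscreteValuationRing.ideal_eq_span_pow_irreducible
    (s := Ideal.span {c}) (by simpa using hc) hϖ
  rw [hn, ← Ideal.span_singleton_pow, ← hϖ.maximalIdeal_eq]
  have : Finite (O ⧸ maximalIdeal O) := ‹Finite (ResidueField O)›
  exact Ideal.finite_quotient_pow (IsNoetherian.noetherian _) n

omit [IsDomain O] [IsDiscreteValuationRing O] in
/-- `det b • O^m ⊆ rowspan b`. -/
theorem det_smul_mem_span_rows (b : Matrix (Fin m) (Fin m) O) (v : Fin m → O) :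
    b.det • v ∈ Submodule.span O (Set.range fun i => b i) := by
  classical
  have h1 : Matrix.vecMul v (b.adjugate * b) = b.det • v := by
    rw [Matrix.adjugate_mul, Matrix.vecMul_smul, Matrix.vecMul_one]
  rw [← h1, ← Matrix.vecMul_vecMul]
  have h2 : ∀ w : Fin m → O, Matrix.vecMul w b = ∑ i, w i • b i := by
    intro w
    ext j
    simp [Matrix.vecMul, dotProduct, Finset.sum_apply]
  rw [h2]
  exact Submodule.sum_mem _ fun i _ => Submodule.smul_mem _ _ (Submodule.subset_span ⟨i, rfl⟩)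

/-- **lifting trick**. -/
theorem exists_lift_mod [Finite (ResidueField O)] {ϖ : O} (hϖ : Irreducible ϖ)
    (I : Ideal (MvPowerSeries (Fin m) O)) (hI : I ≤ augIdeal O m)
    [Module.Finite O (MvPowerSeries (Fin m) O ⧸ I)]
    (b : Matrix (Fin m) (Fin m) O) (hb : b.det ≠ 0)
    (hspan : Submodule.span O (Set.range fun i => b i) = linImage I) :
    ∃ N : ℕ, ∀ z ∈ augIdeal O m ^ N, ∃ t ∈ I, t ∈ augIdeal O m ^ 2 ∧
      z - t ∈ Ideal.span {(C ϖ : MvPowerSeries (Fin m) O)} := by
  set c : O := ϖ * b.det with hc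
  have hc0 : c ≠ 0 := mul_ne_zero hϖ.ne_zero hb
  have := finite_quotient_span hc0
  -- the artinian quotient `R₀ = U ⧸ (I + (c))`
  set J : Ideal (MvPowerSeries (Fin m) O) :=
    I ⊔ Ideal.span {algebraMap O (MvPowerSeries (Fin m) O) c} with hJ
  have : Module.Finite O (MvPowerSeries (Fin m) O ⧸ J) :=
    Module.Finite.of_surjective (Ideal.Quotient.factorₐ O (le_sup_left : I ≤ J)).toLinearMap
      (Ideal.Quotient.factor_surjective le_sup_left)
  have : Finite (MvPowerSeries (Fin m) O ⧸ J) := by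
    refine finite_of_smul_eq_zero c fun y => ?_
    obtain ⟨y, rfl⟩ := Ideal.Quotient.mk_surjective y
    rw [Algebra.smul_def, ← Ideal.Quotient.mk_algebraMap, ← map_mul, Ideal.Quotient.eq_zero_iff_mem]
    exact Ideal.mul_mem_right _ _ (Ideal.mem_sup_right (Ideal.mem_span_singleton_self _))
  obtain ⟨N, hN⟩ := exists_pow_maximalIdeal_le_ker (Ideal.Quotient.mk J)
    Ideal.Quotient.mk_surjective
  rw [Ideal.mk_ker] at hN
  refine ⟨max N 2, fun z hz => ?_⟩
  have hz2 : z ∈ augIdeal O m ^ 2 := Ideal.pow_le_pow_right (le_max_right N 2) hz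
  have hzJ : z ∈ J :=
    hN (Ideal.pow_right_mono augIdeal_le_maximalIdeal N (Ideal.pow_le_pow_right (le_max_left N 2) hz))
  obtain ⟨t, ht, w, hw, rfl⟩ := Submodule.mem_sup.mp hzJ
  obtain ⟨u, rfl⟩ := Ideal.mem_span_singleton'.mp hw
  rw [algebraMap_eq_C] at hz2 hz ⊢
  -- `lin t = - c • lin u ∈ ϖ • L`
  have h1 : lin t = -(c • lin u) := by
    have := lin_eq_zero_of_mem_sq hz2
    rw [map_add, mul_comm, lin_C_mul] at this
    exact eq_neg_of_add_eq_zero_left this
  have h2 : b.det • (-lin u) ∈ linImage I := hspan ▸ det_smul_mem_span_rows b _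
  obtain ⟨t', ht', ht'lin⟩ := mem_linImage.mp h2
  refine ⟨t - C ϖ * t', I.sub_mem ht (I.mul_mem_left _ ht'), ?_, ?_⟩
  · refine mem_sq_of_lin_eq_zero _ ?_ ?_
    · rw [map_sub, map_mul, mem_augIdeal.mp (hI ht), mem_augIdeal.mp (hI ht'), mul_zero, sub_zero]
    · rw [map_sub, lin_C_mul, ht'lin, h1, hc, smul_neg, smul_neg, mul_smul, sub_self]
  · have : t + u * C c - (t - C ϖ * t') = (u * C b.det + t') * C ϖ := by
      rw [hc, map_mul]; ring
    rw [this]
    exact Ideal.mem_span_singleton'.mpr ⟨_, rfl⟩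


/-- relations in `I` with prescribed linear parts such that `(f, ϖ)` is `𝔪`-primary. -/
theorem exists_cover [Finite (ResidueField O)] {ϖ : O} (hϖ : Irreducible ϖ)
    (I : Ideal (MvPowerSeries (Fin m) O)) (hI : I ≤ augIdeal O m)
    [Module.Finite O (MvPowerSeries (Fin m) O ⧸ I)]
    (b : Matrix (Fin m) (Fin m) O) (hb : b.det ≠ 0)
    (hspan : Submodule.span O (Set.range fun i => b i) = linImage I)
    (h : Fin m → MvPowerSeries (Fin m) O) (hh : ∀ i, h i ∈ I) :
    ∃ f : Fin m → MvPowerSeries (Fin m) O, (∀ i, f i ∈ I) ∧ (∀ i, lin (f i) = lin (h i)) ∧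
      ∃ n : ℕ, maximalIdeal (MvPowerSeries (Fin m) O) ^ n ≤
        Ideal.span (Set.range f) ⊔ Ideal.span {(C ϖ : MvPowerSeries (Fin m) O)} := by
  obtain ⟨N, hN⟩ := exists_lift_mod hϖ I hI b hb hspan
  set P : Ideal (MvPowerSeries (Fin m) O) := Ideal.span {(C ϖ : MvPowerSeries (Fin m) O)} with hP
  have hP𝔪 : P ≤ maximalIdeal (MvPowerSeries (Fin m) O) := by
    rw [maximalIdeal_eq_sup hϖ]; exact le_sup_right
  set q := Ideal.Quotient.mk P with hq
  have hqs : Function.Surjective q := Ideal.Quotient.mk_surjective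
  have : IsLocalRing (MvPowerSeries (Fin m) O ⧸ P) := isLocalRing_quotient P hP𝔪
  -- the maximal ideal of the quotient
  have hmax : (maximalIdeal (MvPowerSeries (Fin m) O)).map q =
      maximalIdeal (MvPowerSeries (Fin m) O ⧸ P) := map_mk_maximalIdeal P hP𝔪
  have hx : maximalIdeal (MvPowerSeries (Fin m) O ⧸ P) =
      Ideal.span (Set.range fun i : Fin m => q (X i)) := by
    rw [← hmax, maximalIdeal_eq_sup hϖ, Ideal.map_sup, augIdeal, ker_constantCoeff_eq_span,
      Ideal.map_span, ← Set.range_comp]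
    have : Ideal.map q P = ⊥ := by
      rw [Ideal.map_eq_bot_iff_le_ker, Ideal.mk_ker]
    rw [← hP, this, sup_bot_eq]
    rfl
  obtain ⟨h', hh', n, hn⟩ := exists_add_mem_pow_primary (fun i : Fin m => q (X i)) hx N
    (fun i => q (h i))
  -- lift `h' i` to an element of `I ∩ 𝔭²`
  have h3 : ∀ i, ∃ t ∈ I, t ∈ augIdeal O m ^ 2 ∧ q t = h' i := by
    intro i
    have h4 := hh' i
    rw [← hmax, ← Ideal.map_pow] at h4
    obtain ⟨z', hz', hz'q⟩ := (Ideal.mem_map_iff_of_surjective q hqs).mp h4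
    rw [maximalIdeal_eq_sup hϖ] at hz'
    obtain ⟨z, hz, w, hw, rfl⟩ := Submodule.mem_sup.mp (sup_pow_le_pow_sup _ _ N hz')
    obtain ⟨t, htI, ht2, htz⟩ := hN z hz
    refine ⟨t, htI, ht2, ?_⟩
    rw [← hz'q, map_add, (Ideal.Quotient.eq_zero_iff_mem.mpr hw : q w = 0), add_zero, eq_comm]
    exact Ideal.Quotient.eq.mpr htz
  choose t htI ht2 htq using h3
  refine ⟨fun i => h i + t i, fun i => I.add_mem (hh i) (htI i), fun i => ?_, n, ?_⟩
  · rw [map_add, lin_eq_zero_of_mem_sq (ht2 i), add_zero]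
  · have h5 : (maximalIdeal (MvPowerSeries (Fin m) O) ^ n).map q ≤
        (Ideal.span (Set.range fun i => h i + t i)).map q := by
      rw [Ideal.map_pow, hmax, Ideal.map_span, ← Set.range_comp]
      refine hn.trans (le_of_eq ?_)
      congr 2
      ext i
      simp only [Function.comp_apply, map_add, htq]
    have h6 := Ideal.comap_mono (f := q) h5
    rw [Ideal.comap_map_of_surjective q hqs, Ideal.comap_map_of_surjective q hqs,
      ← RingHom.ker_eq_comap_bot, Ideal.mk_ker] at h6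
    exact le_sup_left.trans h6

end DVR

end Fermat.Agent.GE9.NumCrit
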