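/-
GE9-NUMCRIT (S59 pre-work, helper82): general lemmas for the assembly of the numerical criterion.
Mathlib only.
-/
import Mathlib

set_option autoImplicit false

namespace Fermat.Agent.GE9.NumCrit

open IsLocalRing

/-- two nested submodules of the same finite index are equal. -/
theorem eq_of_le_of_card_quotient_le {R M : Type*} [Ring R] [AddCommGroup M] [Module R M]
    {L L' : Submodule R M} (h : L ≤ L') [Finite (M ⧸ L)]
    (hc : Nat.card (M ⧸ L) ≤ Nat.card (M ⧸ L')) : L = L' := by
  refine le_antisymm h fun x hx => ?_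
  let f : (M ⧸ L) →ₗ[R] (M ⧸ L') := Submodule.mapQ L L' LinearMap.id (by simpa using h)
  have hf : Function.Surjective f := by
    intro y
    obtain ⟨y, rfl⟩ := Submodule.Quotient.mk_surjective _ y
    exact ⟨Submodule.Quotient.mk y, rfl⟩
  have hbij := hf.bijective_of_nat_card_le hc
  have h0 : f (Submodule.Quotient.mk x) = f 0 := by
    rw [map_zero]
    change Submodule.Quotient.mk (LinearMap.id x) = 0
    rw [Submodule.Quotient.mk_eq_zero]
    exact hx
  have := hbij.1 h0
  rwa [Submodule.Quotient.mk_eq_zero] at this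

/-- the cardinality of a quotient by a bigger submodule is smaller. -/
theorem card_quotient_le_of_le {R M : Type*} [Ring R] [AddCommGroup M] [Module R M]
    {L L' : Submodule R M} (h : L ≤ L') [Finite (M ⧸ L)] :
    Finite (M ⧸ L') ∧ Nat.card (M ⧸ L') ≤ Nat.card (M ⧸ L) := by
  let f : (M ⧸ L) →ₗ[R] (M ⧸ L') := Submodule.mapQ L L' LinearMap.id (by simpa using h)
  have hf : Function.Surjective f := by
    intro y
    obtain ⟨y, rfl⟩ := Submodule.Quotient.mk_surjective _ y
    exact ⟨Submodule.Quotient.mk y, rfl⟩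
  exact ⟨Finite.of_surjective f hf, Nat.card_le_card_of_surjective f hf⟩

/-- **Cramer**: if `h = a x` then `det a • x` has coordinates in the ideal generated by `h`. -/
theorem det_mul_mem_span_range {R : Type*} [CommRing R] {n : Type*} [Fintype n] [DecidableEq n]
    (a : Matrix n n R) (x : n → R) (k : n) :
    a.det * x k ∈ Ideal.span (Set.range (a.mulVec x)) := by
  have h1 : a.adjugate.mulVec (a.mulVec x) = a.det • x := by
    rw [Matrix.mulVec_mulVec, Matrix.adjugate_mul, Matrix.smul_mulVec, Matrix.one_mulVec]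
  have h2 : a.det * x k = ∑ i, a.adjugate k i * a.mulVec x i := by
    have := congrFun h1 k
    rw [Pi.smul_apply, smul_eq_mul] at this
    rw [← this, Matrix.mulVec, dotProduct]
  rw [h2]
  exact Ideal.sum_mem _ fun i _ => Ideal.mul_mem_left _ _ (Ideal.subset_span ⟨i, rfl⟩)

theorem sup_pow_le_pow_sup {R : Type*} [CommRing R] (I J : Ideal R) (n : ℕ) :
    (I ⊔ J) ^ n ≤ I ^ n ⊔ J := by
  induction n with
  | zero => simp
  | succ n ih =>
    rw [pow_succ]
    refine (Ideal.mul_mono_left ih).trans ?_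
    rw [Ideal.mul_le]
    intro r hr s hs
    obtain ⟨r₁, hr₁, r₂, hr₂, rfl⟩ := Submodule.mem_sup.mp hr
    obtain ⟨s₁, hs₁, s₂, hs₂, rfl⟩ := Submodule.mem_sup.mp hs
    have : (r₁ + r₂) * (s₁ + s₂) = r₁ * s₁ + (r₁ * s₂ + r₂ * (s₁ + s₂)) := by ring
    rw [this]
    refine Ideal.add_mem _ (Ideal.mem_sup_left ?_) (Ideal.mem_sup_right ?_)
    · rw [pow_succ]; exact Ideal.mul_mem_mul hr₁ hs₁
    · exact Ideal.add_mem _ (Ideal.mul_mem_left _ _ hs₂) (Ideal.mul_mem_right _ _ hr₂)

/-- in a local ring, a power of the maximal ideal dies in every artinian quotient. -/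
theorem exists_pow_maximalIdeal_le_ker {U R₀ : Type*} [CommRing U] [IsLocalRing U] [CommRing R₀]
    [IsArtinianRing R₀] (f : U →+* R₀) (hf : Function.Surjective f) :
    ∃ N : ℕ, maximalIdeal U ^ N ≤ RingHom.ker f := by
  obtain ⟨N, hN⟩ := IsArtinianRing.isNilpotent_jacobson_bot (R := R₀)
  refine ⟨N, ?_⟩
  have h1 : (maximalIdeal U).map f ≤ Ideal.jacobson (⊥ : Ideal R₀) := by
    rw [Ideal.map_le_iff_le_comap]
    intro x hx
    rw [Ideal.mem_comap, Ideal.mem_jacobson_bot]
    intro y
    obtain ⟨y, rfl⟩ := hf y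
    have h2 : IsUnit (x * y + 1) := by
      by_contra hcon
      have h3 : x * y + 1 ∈ maximalIdeal U := hcon
      have h4 : x * y ∈ maximalIdeal U := Ideal.mul_mem_right _ _ hx
      have h5 : (1 : U) ∈ maximalIdeal U := by
        have := Ideal.sub_mem _ h3 h4
        simpa using this
      exact (maximalIdeal.isMaximal U).ne_top ((Ideal.eq_top_iff_one _).mpr h5)
    have := h2.map f
    simpa using this
  rw [RingHom.ker_eq_comap_bot, ← Ideal.map_le_iff_le_comap, Ideal.map_pow]
  refine (Ideal.pow_right_mono h1 N).trans ?_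
  rw [hN]
  exact le_of_eq rfl


/-- the quotient of a local ring by a proper ideal is local. -/
theorem isLocalRing_quotient {U : Type*} [CommRing U] [IsLocalRing U] (P : Ideal U)
    (hP : P ≤ maximalIdeal U) : IsLocalRing (U ⧸ P) := by
  have hPtop : P ≠ ⊤ := fun e => (maximalIdeal.isMaximal U).ne_top (top_le_iff.mp (e ▸ hP))
  have : Nontrivial (U ⧸ P) := Ideal.Quotient.nontrivial_iff.mpr hPtop
  exact IsLocalRing.of_surjective' (Ideal.Quotient.mk P) Ideal.Quotient.mk_surjective

theorem map_mk_maximalIdeal {U : Type*} [CommRing U] [IsLocalRing U] (P : Ideal U)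
    (hP : P ≤ maximalIdeal U) [IsLocalRing (U ⧸ P)] :
    (maximalIdeal U).map (Ideal.Quotient.mk P) = maximalIdeal (U ⧸ P) := by
  have hqs : Function.Surjective (Ideal.Quotient.mk P) := Ideal.Quotient.mk_surjective
  rcases Ideal.map_eq_top_or_isMaximal_of_surjective (Ideal.Quotient.mk P) hqs
    (maximalIdeal.isMaximal U) with h1 | h1
  · exfalso
    have h2 := congrArg (Ideal.comap (Ideal.Quotient.mk P)) h1
    rw [Ideal.comap_map_of_surjective _ hqs, ← RingHom.ker_eq_comap_bot, Ideal.mk_ker,
      Ideal.comap_top, sup_eq_left.mpr hP] at h2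
    exact (maximalIdeal.isMaximal U).ne_top h2
  · exact IsLocalRing.eq_maximalIdeal h1

theorem mk_mem_maximalIdeal_iff {U : Type*} [CommRing U] [IsLocalRing U] (P : Ideal U)
    (hP : P ≤ maximalIdeal U) [IsLocalRing (U ⧸ P)] (t : U) :
    Ideal.Quotient.mk P t ∈ maximalIdeal (U ⧸ P) ↔ t ∈ maximalIdeal U := by
  rw [← map_mk_maximalIdeal P hP, Ideal.mem_quotient_iff_mem_sup, sup_eq_left.mpr hP]

/-- a finitely generated module over `O` killed by `c` with `O ⧸ (c)` finite is finite. -/
theorem finite_of_smul_eq_zero {O M : Type*} [CommRing O] [AddCommGroup M] [Module O M]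
    [Module.Finite O M] (c : O) [Finite (O ⧸ Ideal.span {c})] (hc : ∀ y : M, c • y = 0) :
    Finite M := by
  obtain ⟨n, g, hg⟩ := Module.Finite.exists_fin' O M
  let F : (Fin n → O ⧸ Ideal.span {c}) → M := fun q => g fun i => (q i).out
  refine Finite.of_surjective F fun y => ?_
  obtain ⟨v, rfl⟩ := hg y
  refine ⟨fun i => Ideal.Quotient.mk _ (v i), ?_⟩
  have h1 : ∀ i, ∃ w : O, v i - (Ideal.Quotient.mk (Ideal.span {c}) (v i)).out = w * c := by
    intro i
    have : v i - (Ideal.Quotient.mk (Ideal.span {c}) (v i)).out ∈ Ideal.span {c} := by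
      rw [← Ideal.Quotient.eq]
      exact (Quotient.out_eq _).symm
    exact (Ideal.mem_span_singleton'.mp this).imp fun w hw => hw.symm
  choose w hw using h1
  have h2 : v = (fun i => (Ideal.Quotient.mk (Ideal.span {c}) (v i)).out) + c • w := by
    ext i
    have := hw i
    simp only [Pi.add_apply, Pi.smul_apply, smul_eq_mul]
    linear_combination this
  change g (fun i => (Ideal.Quotient.mk (Ideal.span {c}) (v i)).out) = g v
  conv_rhs => rw [h2]
  rw [map_add, map_smul, hc, add_zero]

end Fermat.Agent.GE9.NumCrit
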