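/-
S59 PRE-WORK / GE9-NUMCRIT, leaf (L1) LAT (helper26; helper82's split, board 6384): lattices in
`O ^ m` over a discrete valuation ring `O`.

* `card_quotient_span_rows` : for `b : Matrix (Fin m) (Fin m) O` with `det b ≠ 0`,
  `#(O ^ m ⧸ rowspan b) = #(O ⧸ (det b))`;
* `exists_matrix_of_finite_quotient` : a submodule `L ≤ O ^ m` with finite quotient is the row
  span of a matrix with nonzero determinant.

Route: Smith normal form of a full-rank submodule of a finite free module over a PID
(`Submodule.quotientEquivPiSpan`), the determinant of a basis change is associated with the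
product of the Smith coefficients (Mathlib's proof of `Submodule.natAbs_det_equiv`, with
`Associated` instead of `Int.natAbs`), and `#(O ⧸ (x y)) = #(O ⧸ (x)) #(O ⧸ (y))` in a DVR
(`cardQuot_pow_of_prime`).  Mathlib only.
-/
import Mathlib

set_option autoImplicit false

namespace Fermat.Agent.GE9.NumCrit

open Module Submodule

/-! ### cardinalities of quotients of a DVR by principal ideals -/

section DVRCard

variable {O : Type*} [CommRing O] [IsDomain O] [IsDiscreteValuationRing O]

/-- every nonzero principal ideal of a DVR is a power of the maximal ideal -/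
theorem exists_span_singleton_eq_pow {x : O} (hx : x ≠ 0) :
    ∃ n : ℕ, Ideal.span {x} = IsLocalRing.maximalIdeal O ^ n := by
  obtain ⟨ϖ, hϖ⟩ := IsDiscreteValuationRing.exists_irreducible O
  have h0 : Ideal.span {x} ≠ ⊥ := by
    rw [Ne, Ideal.span_singleton_eq_bot]
    exact hx
  obtain ⟨n, hn⟩ := IsDiscreteValuationRing.ideal_eq_span_pow_irreducible h0 hϖ
  refine ⟨n, ?_⟩
  rw [hn, hϖ.maximalIdeal_eq, Ideal.span_singleton_pow]

theorem card_quotient_maximalIdeal_pow (n : ℕ) :
    Nat.card (O ⧸ IsLocalRing.maximalIdeal O ^ n) =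
      Nat.card (O ⧸ IsLocalRing.maximalIdeal O) ^ n := by
  have hP : IsLocalRing.maximalIdeal O ≠ ⊥ := IsDiscreteValuationRing.not_a_field O
  have h := cardQuot_pow_of_prime (P := IsLocalRing.maximalIdeal O) hP (i := n)
  rwa [Submodule.cardQuot_apply, Submodule.cardQuot_apply] at h

/-- `#(O ⧸ (x y)) = #(O ⧸ (x)) · #(O ⧸ (y))` -/
theorem card_quotient_span_mul {x y : O} (hx : x ≠ 0) (hy : y ≠ 0) :
    Nat.card (O ⧸ Ideal.span {x * y}) =
      Nat.card (O ⧸ Ideal.span {x}) * Nat.card (O ⧸ Ideal.span {y}) := by
  obtain ⟨a, ha⟩ := exists_span_singleton_eq_pow hx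
  obtain ⟨b, hb⟩ := exists_span_singleton_eq_pow hy
  have hxy : Ideal.span {x * y} = IsLocalRing.maximalIdeal O ^ (a + b) := by
    rw [← Ideal.span_singleton_mul_span_singleton, ha, hb, pow_add]
  rw [hxy, ha, hb, card_quotient_maximalIdeal_pow, card_quotient_maximalIdeal_pow,
    card_quotient_maximalIdeal_pow, pow_add]

/-- `#(O ⧸ (∏ a_i)) = ∏ #(O ⧸ (a_i))` -/
theorem card_quotient_span_prod {ι : Type*} (s : Finset ι) (a : ι → O) (ha : ∀ i ∈ s, a i ≠ 0) :
    Nat.card (O ⧸ Ideal.span {∏ i ∈ s, a i}) = ∏ i ∈ s, Nat.card (O ⧸ Ideal.span {a i}) := by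
  classical
  induction s using Finset.induction_on with
  | empty =>
    rw [Finset.prod_empty, Finset.prod_empty, Ideal.span_singleton_one]
    exact Nat.card_unique
  | insert j s hj ih =>
    rw [Finset.prod_insert hj, Finset.prod_insert hj,
      card_quotient_span_mul (ha j (Finset.mem_insert_self j s))
        (Finset.prod_ne_zero_iff.mpr fun i hi => ha i (Finset.mem_insert_of_mem hi)),
      ih fun i hi => ha i (Finset.mem_insert_of_mem hi)]

theorem card_quotient_span_of_associated {x y : O} (h : Associated x y) :
    Nat.card (O ⧸ Ideal.span {x}) = Nat.card (O ⧸ Ideal.span {y}) := by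
  rw [Ideal.span_singleton_eq_span_singleton.mpr h]

end DVRCard

/-! ### the determinant of a basis of a full-rank submodule, over a PID -/

section PID

variable {R M ι : Type*} [CommRing R] [IsDomain R] [IsPrincipalIdealRing R] [AddCommGroup M]
  [Module R M] [Fintype ι] [DecidableEq ι]

/-- the determinant of a basis `bN` of a submodule `N` with respect to a basis `b` of `M` is
associated with the product of the Smith coefficients of `N` (Mathlib's
`Submodule.natAbs_det_equiv` over a general PID). -/
theorem associated_det_prod_smithCoeffs (b : Basis ι R M) (N : Submodule R M)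
    (bN : Basis ι R N) (h : Module.finrank R N = Module.finrank R M) :
    Associated (b.det ((↑) ∘ bN)) (∏ i, smithNormalFormCoeffs b h i) := by
  let a := smithNormalFormCoeffs b h
  let b' := smithNormalFormTopBasis b h
  let ab := smithNormalFormBotBasis b h
  have ab_eq := smithNormalFormBotBasis_def b h
  let e : M ≃ₗ[R] N := b.equiv bN (Equiv.refl _)
  let e' : M ≃ₗ[R] N := b'.equiv ab (Equiv.refl _)
  let f : M →ₗ[R] M := N.subtype.comp (e' : M →ₗ[R] N)
  have ha : ∀ i, f (b' i) = a i • b' i := by
    intro i
    show ((b'.equiv ab (Equiv.refl _) (b' i) : N) : M) = a i • b' i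
    rw [b'.equiv_apply, Equiv.refl_apply]
    exact ab_eq i
  have h1 : b.det ((↑) ∘ bN) = LinearMap.det (N.subtype ∘ₗ (e : M →ₗ[R] N)) := by
    have := Basis.det_comp_basis bN b N.subtype
    rw [← this]
    rfl
  have h2 : Associated (LinearMap.det (N.subtype ∘ₗ (e : M →ₗ[R] N)))
      (LinearMap.det (N.subtype ∘ₗ (e' : M →ₗ[R] N))) :=
    LinearMap.associated_det_comp_equiv _ _ _
  have h3 : LinearMap.det f = ∏ i, a i := by
    rw [← LinearMap.det_toMatrix b']
    have : LinearMap.toMatrix b' b' f = Matrix.diagonal a := by
      ext i j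
      rw [LinearMap.toMatrix_apply, ha, map_smul, Basis.repr_self, Finsupp.smul_single,
        smul_eq_mul, mul_one]
      by_cases hij : i = j
      · rw [hij, Matrix.diagonal_apply_eq, Finsupp.single_eq_same]
      · rw [Matrix.diagonal_apply_ne _ hij, Finsupp.single_eq_of_ne hij]
    rw [this, Matrix.det_diagonal]
  rw [h1]
  exact h2.trans (by rw [← h3])

end PID

/-! ### (L1) -/

section Main

variable {O : Type*} [CommRing O] [IsDomain O] [IsDiscreteValuationRing O]

/-- the determinant of the rows with respect to the standard basis -/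
theorem basisFun_det_rows {m : ℕ} (b : Matrix (Fin m) (Fin m) O) :
    (Pi.basisFun O (Fin m)).det (fun i => b i) = b.det := by
  rw [Basis.det_apply, ← Matrix.det_transpose]
  congr 1

/-- **(L1), first half.** -/
theorem card_quotient_span_rows [Finite (IsLocalRing.ResidueField O)] {m : ℕ}
    (b : Matrix (Fin m) (Fin m) O) (hb : b.det ≠ 0) :
    Nat.card ((Fin m → O) ⧸ Submodule.span O (Set.range fun i => b i)) =
      Nat.card (O ⧸ Ideal.span {b.det}) := by
  classical
  set N : Submodule O (Fin m → O) := Submodule.span O (Set.range fun i => b i) with hN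
  have hli : LinearIndependent O (fun i => b i) := Matrix.linearIndependent_rows_of_det_ne_zero hb
  let bN : Basis (Fin m) O N := Basis.span hli
  have hbN : ∀ i, ((bN i : N) : Fin m → O) = b i := fun i => congrArg Subtype.val (Basis.span_apply hli i)
  let e := Pi.basisFun O (Fin m)
  have h : Module.finrank O N = Module.finrank O (Fin m → O) := by
    rw [Module.finrank_eq_card_basis bN, Module.finrank_eq_card_basis e]
  have hdet : e.det ((↑) ∘ bN) = b.det := by
    rw [← basisFun_det_rows b]
    congr 1
    ext i : 1
    exact hbN i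
  have hass := associated_det_prod_smithCoeffs e N bN h
  rw [hdet] at hass
  rw [card_quotient_span_of_associated hass,
    card_quotient_span_prod Finset.univ _ fun i _ => smithNormalFormCoeffs_ne_zero e h i,
    Nat.card_congr (N.quotientEquivPiSpan e h).toEquiv, Nat.card_pi]

/-- a DVR is infinite -/
theorem infinite_of_dvr : Infinite O := by
  by_contra hfin
  rw [not_infinite_iff_finite] at hfin
  exact IsDiscreteValuationRing.not_isField O (Finite.isField_of_domain O)

/-- a submodule of `O ^ m` with finite quotient has full rank -/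
theorem finrank_eq_of_finite_quotient {m : ℕ} (L : Submodule O (Fin m → O))
    [Finite ((Fin m → O) ⧸ L)] : Module.finrank O L = Module.finrank O (Fin m → O) := by
  have hinf : Infinite O := infinite_of_dvr
  have htors : Module.IsTorsion O ((Fin m → O) ⧸ L) := by
    intro x
    -- `r ↦ r • x` is not injective on the infinite ring `O`
    obtain ⟨r, s, hrs, hx⟩ := Finite.exists_ne_map_eq_of_infinite (fun r : O => r • x)
    refine ⟨⟨r - s, mem_nonZeroDivisors_of_ne_zero (sub_ne_zero.mpr hrs)⟩, ?_⟩
    show (r - s) • x = 0
    rw [sub_smul, hx, sub_self]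
  have h0 : Module.finrank O ((Fin m → O) ⧸ L) = 0 := htors.finrank_eq_zero
  have := Submodule.finrank_quotient_add_finrank L
  omega

/-- **(L1), second half.** -/
theorem exists_matrix_of_finite_quotient {m : ℕ} (L : Submodule O (Fin m → O))
    [Finite ((Fin m → O) ⧸ L)] :
    ∃ b : Matrix (Fin m) (Fin m) O, b.det ≠ 0 ∧
      Submodule.span O (Set.range fun i => b i) = L := by
  classical
  have h := finrank_eq_of_finite_quotient L
  let e := Pi.basisFun O (Fin m)
  let bL : Basis (Fin m) O L := smithNormalFormBotBasis e h
  refine ⟨Matrix.of fun i => ((bL i : L) : Fin m → O), ?_, ?_⟩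
  · -- the rows are linearly independent
    intro hdet
    obtain ⟨v, hv, hv0⟩ := Matrix.exists_vecMul_eq_zero_iff.mpr hdet
    apply hv
    have hli : LinearIndependent O (fun i => ((bL i : L) : Fin m → O)) :=
      bL.linearIndependent.map' L.subtype (Submodule.ker_subtype L)
    have hsum : ∑ i, v i • ((bL i : L) : Fin m → O) = 0 := by
      rw [← hv0]
      ext j
      simp [Matrix.vecMul, dotProduct, Finset.sum_apply]
    funext i
    exact Fintype.linearIndependent_iff.mp hli v hsum i
  · have hrange : (Set.range fun i => (Matrix.of fun i => ((bL i : L) : Fin m → O)) i) =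
        L.subtype '' Set.range bL := by
      ext x
      constructor
      · rintro ⟨i, rfl⟩
        exact ⟨bL i, ⟨i, rfl⟩, rfl⟩
      · rintro ⟨_, ⟨i, rfl⟩, rfl⟩
        exact ⟨i, rfl⟩
    rw [hrange, Submodule.span_image, bL.span_eq, Submodule.map_top, Submodule.range_subtype]

end Main

end Fermat.Agent.GE9.NumCrit
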