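/-
GE9-NUMCRIT (S59 pre-work, helper82): **the Wiles–Lenstra numerical criterion**, power series form.
`O` a complete DVR with finite residue field, `U = O⟦X₁..X_m⟧`, `ε : U → O` the constant coefficient,
`𝔭 = ker ε`, ideals `I_R ≤ I_T ≤ 𝔭` (`R = U ⧸ I_R ↠ T = U ⧸ I_T`), `T` finite free over `O`,
`η_T = ε(Ann_T (𝔭 T)) ≠ 0`, `Φ_R = 𝔭 / (𝔭² + I_R) = O^m ⧸ lin I_R` finite with
`#Φ_R ≤ #(O ⧸ η_T)`.  Then `I_R = I_T` (i.e. `R → T` is bijective) and `I_T` is generated by `m`
elements (`T` is a complete intersection).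
-/
import Mathlib
import Fermat.Agent.GE9.NumCrit.Defs
import Fermat.Agent.GE9.NumCrit.Gen
import Fermat.Agent.GE9.NumCrit.PSLocal
import Fermat.Agent.GE9.NumCrit.Cover
import Fermat.Agent.GE9.NumCrit.CI
import Fermat.Agent.GE9.NumCrit.Lat
import Fermat.Agent.GE9.NumCrit.GorLemma

set_option autoImplicit false

namespace Fermat.Agent.GE9.NumCrit

open IsLocalRing MvPowerSeries

/-- `M * b = 0` with `det b ≠ 0` over a domain forces `M = 0`. -/
theorem matrix_eq_zero_of_mul_eq_zero {R : Type*} [CommRing R] [IsDomain R] {n : Type*} [Fintype n]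
    [DecidableEq n] {M b : Matrix n n R} (hb : b.det ≠ 0) (h : M * b = 0) : M = 0 := by
  have h1 : b.det • M = 0 := by
    have := congrArg (· * b.adjugate) h
    simp only [Matrix.mul_assoc, Matrix.mul_adjugate, Matrix.zero_mul, Matrix.mul_smul,
      Matrix.mul_one] at this
    exact this
  ext i j
  have := congrFun (congrFun h1 i) j
  simp only [Matrix.smul_apply, smul_eq_mul, Matrix.zero_apply, mul_eq_zero] at this
  exact this.resolve_left hb

section DVR

variable {O : Type*} [CommRing O] [IsDomain O] [IsDiscreteValuationRing O]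
  [IsAdicComplete (maximalIdeal O) O] [Finite (ResidueField O)] {m : ℕ}

omit [IsDiscreteValuationRing O] [IsAdicComplete (maximalIdeal O) O] [Finite (ResidueField O)] in
/-- (F3) if `I_R ≤ (f₁..f_m) ≤ 𝔭`, the linear parts of the `f_i` are independent and contained in
`lin I_R`, then `I_R = (f)`. -/
theorem span_le_of_linImage {I_R : Ideal (MvPowerSeries (Fin m) O)}
    (f : Fin m → MvPowerSeries (Fin m) O) (hf : ∀ i, f i ∈ augIdeal O m)
    (hRF : I_R ≤ Ideal.span (Set.range f)) (b : Matrix (Fin m) (Fin m) O) (hb : b.det ≠ 0)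
    (hflin : ∀ i, lin (f i) = b i) (hbR : ∀ i, b i ∈ linImage I_R) :
    Ideal.span (Set.range f) ≤ I_R := by
  classical
  have h1 : ∀ j, ∃ r ∈ I_R, lin r = b j := fun j => mem_linImage.mp (hbR j)
  choose r hrI hrlin using h1
  have h2 : ∀ j, ∃ c : Fin m → MvPowerSeries (Fin m) O, ∑ i, c i * f i = r j := fun j =>
    Ideal.mem_span_range_iff_exists_fun.mp (hRF (hrI j))
  choose c hc using h2
  let Cm : Matrix (Fin m) (Fin m) (MvPowerSeries (Fin m) O) := Matrix.of c
  let E : Matrix (Fin m) (Fin m) O := Cm.map (constantCoeff (σ := Fin m) (R := O))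
  have hEb : E * b = b := by
    ext j k
    have h3 : lin (r j) = ∑ i, constantCoeff (c j i) • lin (f i) := by
      rw [← hc j, map_sum]
      exact Finset.sum_congr rfl fun i _ => lin_mul _ _ (mem_augIdeal.mp (hf i))
    have h4 := congrFun h3 k
    rw [hrlin j, Finset.sum_apply] at h4
    rw [Matrix.mul_apply, h4]
    refine Finset.sum_congr rfl fun i _ => ?_
    rw [Pi.smul_apply, smul_eq_mul, hflin i]
    rfl
  have hE1 : E = 1 := by
    have : (E - 1) * b = 0 := by rw [Matrix.sub_mul, hEb, Matrix.one_mul, sub_self]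
    exact sub_eq_zero.mp (matrix_eq_zero_of_mul_eq_zero hb this)
  have hdet : IsUnit Cm.det := by
    rw [MvPowerSeries.isUnit_iff_constantCoeff, RingHom.map_det]
    have : (constantCoeff (σ := Fin m) (R := O)).mapMatrix Cm = E := rfl
    rw [this, hE1, Matrix.det_one]
    exact isUnit_one
  have hCf : Cm.mulVec f = r := by
    ext j
    rw [← hc j]
    rfl
  have hfr : f = Cm⁻¹.mulVec r := by
    rw [← hCf, Matrix.mulVec_mulVec, Matrix.nonsing_inv_mul _ hdet, Matrix.one_mulVec]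
  rw [Ideal.span_le]
  rintro _ ⟨i, rfl⟩
  rw [hfr]
  change (Cm⁻¹.mulVec r i) ∈ I_R
  rw [Matrix.mulVec, dotProduct]
  exact Ideal.sum_mem _ fun j _ => Ideal.mul_mem_left _ _ (hrI j)

/-- **Wiles–Lenstra numerical criterion**, power series form. -/
theorem numcrit_powerSeries (I_R I_T : Ideal (MvPowerSeries (Fin m) O)) (hRT : I_R ≤ I_T)
    (hT : I_T ≤ augIdeal O m) [Module.Finite O (MvPowerSeries (Fin m) O ⧸ I_T)]
    [Module.Free O (MvPowerSeries (Fin m) O ⧸ I_T)] [Finite ((Fin m → O) ⧸ linImage I_R)]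
    (hη : etaIdeal (augQuot I_T hT) ≠ ⊥)
    (hcard : Nat.card ((Fin m → O) ⧸ linImage I_R) ≤ Nat.card (O ⧸ etaIdeal (augQuot I_T hT))) :
    I_R = I_T ∧ ∃ f : Fin m → MvPowerSeries (Fin m) O, I_T = Ideal.span (Set.range f) := by
  classical
  obtain ⟨ϖ, hϖ⟩ := IsDiscreteValuationRing.exists_irreducible O
  have hL : linImage I_R ≤ linImage I_T := linImage_mono hRT
  obtain ⟨hfinT, hcardT⟩ := card_quotient_le_of_le hL
  obtain ⟨b, hb, hspan⟩ := exists_matrix_of_finite_quotient (linImage I_T)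
  have h1 : ∀ i, ∃ h ∈ I_T, lin h = b i := fun i =>
    mem_linImage.mp (hspan ▸ Submodule.subset_span ⟨i, rfl⟩)
  choose h hhI hhlin using h1
  have hofb : ∀ g : Fin m → MvPowerSeries (Fin m) O, (∀ i, lin (g i) = b i) →
      (Matrix.of fun i => lin (g i)) = b := by
    intro g hg
    ext i j
    rw [Matrix.of_apply, hg i]
  -- `D = det b ∈ η_T`
  have hD : b.det ∈ etaIdeal (augQuot I_T hT) := by
    have := det_lin_mem_etaIdeal I_T hT h hhI
    rwa [hofb h hhlin] at this
  have hle : Ideal.span {b.det} ≤ etaIdeal (augQuot I_T hT) := by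
    rwa [Ideal.span_le, Set.singleton_subset_iff]
  have hcardb := card_quotient_span_rows b hb
  rw [hspan] at hcardb
  have : Finite (O ⧸ Ideal.span {b.det}) := finite_quotient_span hb
  obtain ⟨-, hcη⟩ := card_quotient_le_of_le hle
  -- the chain of inequalities
  have e1 : Nat.card ((Fin m → O) ⧸ linImage I_R) ≤ Nat.card ((Fin m → O) ⧸ linImage I_T) :=
    hcard.trans (hcη.trans hcardb.ge)
  have hLeq : linImage I_R = linImage I_T := eq_of_le_of_card_quotient_le hL e1
  have e2 : Nat.card (O ⧸ Ideal.span {b.det}) ≤ Nat.card (O ⧸ etaIdeal (augQuot I_T hT)) :=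
    hcardb.symm.le.trans (hcardT.trans hcard)
  have hηeq : Ideal.span {b.det} = etaIdeal (augQuot I_T hT) :=
    eq_of_le_of_card_quotient_le hle e2
  -- the complete intersection cover
  obtain ⟨f, hfI, hflin, n, hn⟩ := exists_cover hϖ I_T hT b hb hspan h hhI
  have hflin' : ∀ i, lin (f i) = b i := fun i => (hflin i).trans (hhlin i)
  have hf𝔭 : ∀ i, f i ∈ augIdeal O m := fun i => hT (hfI i)
  obtain ⟨hfin, hfree, hloc, ω, hω⟩ := ci_quotient_facts hϖ f hf𝔭 n hn
  have hFT : Ideal.span (Set.range f) ≤ I_T :=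
    Ideal.span_le.mpr (by rintro _ ⟨i, rfl⟩; exact hfI i)
  have hF𝔭 : Ideal.span (Set.range f) ≤ augIdeal O m := hFT.trans hT
  let ψ : (MvPowerSeries (Fin m) O ⧸ Ideal.span (Set.range f)) →ₐ[O]
      (MvPowerSeries (Fin m) O ⧸ I_T) := Ideal.Quotient.factorₐ O hFT
  have hψ : Function.Surjective ψ := Ideal.Quotient.factor_surjective hFT
  have hπ : (augQuot I_T hT).comp ψ = augQuot (Ideal.span (Set.range f)) hF𝔭 := by
    refine AlgHom.ext fun x => ?_
    obtain ⟨x, rfl⟩ := Ideal.Quotient.mk_surjective x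
    rfl
  -- `η_T̃ = η_T`
  have hDA : b.det ∈ etaIdeal (augQuot (Ideal.span (Set.range f)) hF𝔭) := by
    have := det_lin_mem_etaIdeal (Ideal.span (Set.range f)) hF𝔭 f
      (fun i => Ideal.subset_span ⟨i, rfl⟩)
    rwa [hofb f hflin'] at this
  have hAB : etaIdeal (augQuot (Ideal.span (Set.range f)) hF𝔭) ≤ etaIdeal (augQuot I_T hT) := by
    intro c hc
    rw [mem_etaIdeal] at hc ⊢
    obtain ⟨a, ha, hac⟩ := hc
    refine ⟨ψ a, fun y hy => ?_, ?_⟩
    · obtain ⟨x, rfl⟩ := hψ y
      have hx : augQuot (Ideal.span (Set.range f)) hF𝔭 x = 0 := by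
        rw [← hπ]; exact hy
      rw [← map_mul, ha x hx, map_zero]
    · rw [← hac, ← hπ]; rfl
  have hηAB : etaIdeal (augQuot (Ideal.span (Set.range f)) hF𝔭) = etaIdeal (augQuot I_T hT) :=
    le_antisymm hAB (hηeq ▸ by rwa [Ideal.span_le, Set.singleton_subset_iff])
  -- the Gorenstein lemma
  have hinj : Function.Injective ψ :=
    injective_of_dual_generator ψ hψ _ _ hπ ω hω hηAB hη
  have hTF : I_T ≤ Ideal.span (Set.range f) := by
    intro z hz
    have h0 : ψ (Ideal.Quotient.mk _ z) = ψ 0 := by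
      rw [map_zero]
      exact Ideal.Quotient.eq_zero_iff_mem.mpr hz
    exact Ideal.Quotient.eq_zero_iff_mem.mp (hinj h0)
  have hIT : I_T = Ideal.span (Set.range f) := le_antisymm hTF hFT
  refine ⟨le_antisymm hRT ?_, f, hIT⟩
  rw [hIT]
  refine span_le_of_linImage f hf𝔭 (hIT ▸ hRT) b hb hflin' fun i => ?_
  rw [hLeq, ← hspan]
  exact Submodule.subset_span ⟨i, rfl⟩

end DVR

end Fermat.Agent.GE9.NumCrit
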