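/-
GE9-NUMCRIT (S59 pre-work, helper82): **the Wiles–Lenstra numerical criterion**, abstract form.
`O` a complete DVR with finite residue field, `φ : R ↠ T` a surjection of `O`-algebras, `T` finite
free over `O`, `π_T : T → O` an augmentation with `η_T = π_T (Ann ker π_T) ≠ 0`, and a presentation
`ρ : O⟦X₁..X_m⟧ ↠ R` compatible with the augmentations.  If the cotangent space
`Φ_R = 𝔭_R / 𝔭_R²` (`𝔭_R = ker (π_T ∘ φ)`) is finite with `#Φ_R ≤ #(O ⧸ η_T)`, then `φ` is bijective
and `T ≅ O⟦X₁..X_m⟧ ⧸ (f₁..f_m)` is a complete intersection.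
-/
import Mathlib
import Fermat.Agent.GE9.NumCrit.Main

set_option autoImplicit false

namespace Fermat.Agent.GE9.NumCrit

open IsLocalRing MvPowerSeries

/-- the congruence ideal grows along surjections compatible with the augmentations. -/
theorem etaIdeal_le_of_surjective {O A B : Type*} [CommRing O] [CommRing A] [Algebra O A]
    [CommRing B] [Algebra O B] (ψ : A →ₐ[O] B) (hψ : Function.Surjective ψ) (πA : A →ₐ[O] O)
    (πB : B →ₐ[O] O) (hπ : πB.comp ψ = πA) : etaIdeal πA ≤ etaIdeal πB := by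
  intro c hc
  rw [mem_etaIdeal] at hc ⊢
  obtain ⟨a, ha, hac⟩ := hc
  refine ⟨ψ a, fun y hy => ?_, ?_⟩
  · obtain ⟨x, rfl⟩ := hψ y
    have hx : πA x = 0 := by rw [← hπ]; exact hy
    rw [← map_mul, ha x hx, map_zero]
  · rw [← hac, ← hπ]; rfl

theorem etaIdeal_eq_of_equiv {O A B : Type*} [CommRing O] [CommRing A] [Algebra O A]
    [CommRing B] [Algebra O B] (e : A ≃ₐ[O] B) (πA : A →ₐ[O] O) (πB : B →ₐ[O] O)
    (hπ : πB.comp (e : A →ₐ[O] B) = πA) : etaIdeal πA = etaIdeal πB := by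
  refine le_antisymm (etaIdeal_le_of_surjective (e : A →ₐ[O] B) e.surjective πA πB hπ)
    (etaIdeal_le_of_surjective (e.symm : B →ₐ[O] A) e.symm.surjective πB πA ?_)
  refine AlgHom.ext fun y => ?_
  rw [← hπ]
  simp

section CommRing

variable {O : Type*} [CommRing O] {m : ℕ}

/-- the linear polynomial `∑ vᵢ Xᵢ`. -/
noncomputable def linPoly (v : Fin m → O) : MvPowerSeries (Fin m) O := ∑ i, C (v i) * X i

theorem linPoly_mem (v : Fin m → O) : linPoly v ∈ augIdeal O m := by
  rw [mem_augIdeal, linPoly, map_sum]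
  exact Finset.sum_eq_zero fun i _ => by rw [map_mul, constantCoeff_X, mul_zero]

theorem lin_linPoly (v : Fin m → O) : lin (linPoly v) = v := by
  rw [linPoly, lin_sum_mul_X]
  ext i
  rw [constantCoeff_C]

theorem linPoly_sub (v w : Fin m → O) : linPoly (v - w) = linPoly v - linPoly w := by
  simp only [linPoly, Pi.sub_apply, map_sub, sub_mul, Finset.sum_sub_distrib]

theorem sub_linPoly_mem_sq {u : MvPowerSeries (Fin m) O} (hu : u ∈ augIdeal O m) :
    u - linPoly (lin u) ∈ augIdeal O m ^ 2 := by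
  refine mem_sq_of_lin_eq_zero _ ?_ ?_
  · rw [map_sub, mem_augIdeal.mp hu, mem_augIdeal.mp (linPoly_mem _), sub_zero]
  · rw [map_sub, lin_linPoly, sub_self]

/-- `∑ vᵢ Xᵢ ∈ 𝔭² + I ↔ v ∈ lin I` for `I ≤ 𝔭`. -/
theorem linPoly_mem_sup_iff {I : Ideal (MvPowerSeries (Fin m) O)} (hI : I ≤ augIdeal O m)
    (v : Fin m → O) : linPoly v ∈ augIdeal O m ^ 2 ⊔ I ↔ v ∈ linImage I := by
  constructor
  · intro h
    obtain ⟨s, hs, g, hg, hsg⟩ := Submodule.mem_sup.mp h
    refine mem_linImage.mpr ⟨g, hg, ?_⟩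
    have := congrArg lin hsg
    rw [map_add, lin_eq_zero_of_mem_sq hs, zero_add, lin_linPoly] at this
    exact this
  · intro h
    obtain ⟨g, hg, rfl⟩ := mem_linImage.mp h
    have h1 := sub_linPoly_mem_sq (hI hg)
    have : linPoly (lin g) = -(g - linPoly (lin g)) + g := by ring
    rw [this]
    exact Ideal.add_mem _ (Ideal.mem_sup_left (neg_mem h1)) (Ideal.mem_sup_right hg)

end CommRing

section Cotangent

variable {O R : Type*} [CommRing O] [CommRing R] [Algebra O R] {m : ℕ}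

/-- the cotangent space of `R = U ⧸ ker ρ` at the augmentation is `O^m ⧸ lin (ker ρ)`. -/
theorem exists_bijective_cotangent (πR : R →ₐ[O] O)
    (ρ : MvPowerSeries (Fin m) O →ₐ[O] R) (hρ : Function.Surjective ρ)
    (hρε : ∀ u, πR (ρ u) = constantCoeff u) :
    ∃ g : ((Fin m → O) ⧸ linImage (RingHom.ker ρ)) → (RingHom.ker πR).Cotangent,
      Function.Bijective g := by
  set pR : Ideal R := RingHom.ker πR with hpR
  set I : Ideal (MvPowerSeries (Fin m) O) := RingHom.ker ρ with hI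
  let ρ' : MvPowerSeries (Fin m) O →+* R := ρ.toRingHom
  have hρ' : Function.Surjective ρ' := hρ
  have hI𝔭 : I ≤ augIdeal O m := by
    intro u hu
    have h0 : ρ u = 0 := hu
    rw [mem_augIdeal, ← hρε, h0, map_zero]
  have hmem : ∀ u, ρ' u ∈ pR ↔ u ∈ augIdeal O m := by
    intro u
    have h1 : ρ' u ∈ pR ↔ πR (ρ u) = 0 := Iff.rfl
    rw [h1, hρε, mem_augIdeal]
  have hmap : pR = (augIdeal O m).map ρ' := by
    refine le_antisymm (fun x hx => ?_) ?_
    · obtain ⟨u, rfl⟩ := hρ' x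
      exact Ideal.mem_map_of_mem _ ((hmem u).mp hx)
    · rw [Ideal.map_le_iff_le_comap]
      intro u hu
      exact (hmem u).mpr hu
  have hsq : ∀ u, ρ' u ∈ pR ^ 2 ↔ u ∈ augIdeal O m ^ 2 ⊔ I := by
    intro u
    rw [hmap, ← Ideal.map_pow]
    constructor
    · intro h
      obtain ⟨j, hj, hju⟩ := (Ideal.mem_map_iff_of_surjective ρ' hρ').mp h
      have : u - j ∈ I := by
        have h3 : ρ' (u - j) = 0 := by rw [map_sub, hju, sub_self]
        exact h3
      have h2 : u = j + (u - j) := by ring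
      rw [h2]
      exact Ideal.add_mem _ (Ideal.mem_sup_left hj) (Ideal.mem_sup_right this)
    · intro h
      obtain ⟨s, hs, g, hg, rfl⟩ := Submodule.mem_sup.mp h
      have hg0 : ρ' g = 0 := hg
      rw [map_add, hg0, add_zero]
      exact Ideal.mem_map_of_mem _ hs
  -- the map `v ↦ [ρ (∑ vᵢ Xᵢ)]`
  let Φ : (Fin m → O) → pR.Cotangent := fun v =>
    pR.toCotangent ⟨ρ' (linPoly v), (hmem _).mpr (linPoly_mem v)⟩
  have hkey : ∀ v w, Φ v = Φ w ↔ v - w ∈ linImage I := by
    intro v w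
    rw [Ideal.toCotangent_eq, ← linPoly_mem_sup_iff hI𝔭, ← hsq, linPoly_sub, map_sub]
  have hsurj : Function.Surjective Φ := by
    intro y
    obtain ⟨⟨x, hx⟩, rfl⟩ := pR.toCotangent_surjective y
    obtain ⟨u, rfl⟩ := hρ' x
    have hu : u ∈ augIdeal O m := (hmem u).mp hx
    refine ⟨lin u, ?_⟩
    rw [Ideal.toCotangent_eq]
    change ρ' (linPoly (lin u)) - ρ' u ∈ pR ^ 2
    rw [← map_sub, hsq]
    have := sub_linPoly_mem_sq hu
    rw [← neg_sub]
    exact Ideal.mem_sup_left (neg_mem this)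
  refine ⟨fun q => Quotient.liftOn' q Φ fun a b hab => ?_, ?_, ?_⟩
  · rw [hkey]
    rw [Submodule.quotientRel_def] at hab
    exact hab
  · intro a b
    induction a using Quotient.inductionOn' with | _ a => ?_
    induction b using Quotient.inductionOn' with | _ b => ?_
    intro h
    simp only [Quotient.liftOn'_mk''] at h
    rw [hkey] at h
    exact Quotient.sound' ((Submodule.quotientRel_def _).mpr h)
  · intro y
    obtain ⟨v, rfl⟩ := hsurj y
    exact ⟨Quotient.mk'' v, rfl⟩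

end Cotangent

section Main

variable {O : Type*} [CommRing O] [IsDomain O] [IsDiscreteValuationRing O]
  [IsAdicComplete (maximalIdeal O) O] [Finite (ResidueField O)]

/-- **Wiles–Lenstra numerical criterion**, abstract form.  `φ : R ↠ T`, `T` finite free over the
complete DVR `O`, `π_T : T → O`, a presentation `ρ : O⟦X₁..X_m⟧ ↠ R` compatible with the
augmentations, `η_T ≠ 0` and `#(𝔭_R / 𝔭_R²) ≤ #(O ⧸ η_T)`.  Then `φ` is bijective and
`T = O⟦X₁..X_m⟧ ⧸ (f₁..f_m)`. -/
theorem numcrit {R T : Type*} [CommRing R] [Algebra O R] [CommRing T] [Algebra O T]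
    [Module.Finite O T] [Module.Free O T] (φ : R →ₐ[O] T) (hφ : Function.Surjective φ)
    (πT : T →ₐ[O] O) {m : ℕ} (ρ : MvPowerSeries (Fin m) O →ₐ[O] R) (hρ : Function.Surjective ρ)
    (hρε : ∀ u, πT (φ (ρ u)) = constantCoeff u) (hη : etaIdeal πT ≠ ⊥)
    [Finite (RingHom.ker (πT.comp φ)).Cotangent]
    (hcard : Nat.card (RingHom.ker (πT.comp φ)).Cotangent ≤ Nat.card (O ⧸ etaIdeal πT)) :
    Function.Bijective φ ∧ ∃ f : Fin m → MvPowerSeries (Fin m) O,
      RingHom.ker (φ.comp ρ) = Ideal.span (Set.range f) := by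
  set I_R : Ideal (MvPowerSeries (Fin m) O) := RingHom.ker ρ with hIR
  set I_T : Ideal (MvPowerSeries (Fin m) O) := RingHom.ker (φ.comp ρ) with hIT
  have hRT : I_R ≤ I_T := by
    intro u hu
    have h0 : ρ u = 0 := hu
    change φ (ρ u) = 0
    rw [h0, map_zero]
  have hT : I_T ≤ augIdeal O m := by
    intro u hu
    have h0 : φ (ρ u) = 0 := hu
    rw [mem_augIdeal, ← hρε, h0, map_zero]
  have hsurj : Function.Surjective (φ.comp ρ) := hφ.comp hρ
  let e : (MvPowerSeries (Fin m) O ⧸ I_T) ≃ₐ[O] T := Ideal.quotientKerAlgEquivOfSurjective hsurj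
  have he : ∀ u, e (Ideal.Quotient.mk I_T u) = φ (ρ u) := fun u =>
    Ideal.quotientKerAlgEquivOfSurjective_mk hsurj u
  have : Module.Finite O (MvPowerSeries (Fin m) O ⧸ I_T) :=
    Module.Finite.equiv e.symm.toLinearEquiv
  have : Module.Free O (MvPowerSeries (Fin m) O ⧸ I_T) :=
    Module.Free.of_equiv e.symm.toLinearEquiv
  have hηeq : etaIdeal (augQuot I_T hT) = etaIdeal πT := by
    refine etaIdeal_eq_of_equiv e _ _ (AlgHom.ext fun x => ?_)
    obtain ⟨u, rfl⟩ := Ideal.Quotient.mk_surjective x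
    change πT (e (Ideal.Quotient.mk I_T u)) = _
    rw [he, hρε, augQuot_mk]
  obtain ⟨g, hg⟩ := exists_bijective_cotangent (πT.comp φ) ρ hρ hρε
  have : Finite ((Fin m → O) ⧸ linImage I_R) := Finite.of_injective g hg.1
  have hcard' : Nat.card ((Fin m → O) ⧸ linImage I_R) ≤
      Nat.card (O ⧸ etaIdeal (augQuot I_T hT)) := by
    rw [hηeq, Nat.card_eq_of_bijective g hg]
    exact hcard
  obtain ⟨hEq, f, hf⟩ := numcrit_powerSeries I_R I_T hRT hT (hηeq ▸ hη) hcard'
  refine ⟨⟨?_, hφ⟩, f, hf⟩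
  rw [injective_iff_map_eq_zero]
  intro x hx
  obtain ⟨u, rfl⟩ := hρ x
  have hu : u ∈ I_T := hx
  rw [← hEq] at hu
  exact hu


omit [IsAdicComplete (maximalIdeal O) O] in
/-- the always-true half `#(O ⧸ η_T) ≤ #Φ_T`, power series form. -/
theorem card_quotient_etaIdeal_le_powerSeries {m : ℕ} (I_T : Ideal (MvPowerSeries (Fin m) O))
    (hT : I_T ≤ augIdeal O m) [Finite ((Fin m → O) ⧸ linImage I_T)] :
    Nat.card (O ⧸ etaIdeal (augQuot I_T hT)) ≤ Nat.card ((Fin m → O) ⧸ linImage I_T) := by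
  obtain ⟨b, hb, hspan⟩ := exists_matrix_of_finite_quotient (linImage I_T)
  have h1 : ∀ i, ∃ h ∈ I_T, lin h = b i := fun i =>
    mem_linImage.mp (hspan ▸ Submodule.subset_span ⟨i, rfl⟩)
  choose h hhI hhlin using h1
  have hD : b.det ∈ etaIdeal (augQuot I_T hT) := by
    have := det_lin_mem_etaIdeal I_T hT h hhI
    have hofb : (Matrix.of fun i => lin (h i)) = b := by
      ext i j
      rw [Matrix.of_apply, hhlin i]
    rwa [hofb] at this
  have hle : Ideal.span {b.det} ≤ etaIdeal (augQuot I_T hT) := by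
    rwa [Ideal.span_le, Set.singleton_subset_iff]
  have hcardb := card_quotient_span_rows b hb
  rw [hspan] at hcardb
  have : Finite (O ⧸ Ideal.span {b.det}) := finite_quotient_span hb
  obtain ⟨-, hcη⟩ := card_quotient_le_of_le hle
  exact hcη.trans hcardb.ge

omit [IsAdicComplete (maximalIdeal O) O] in
/-- the always-true half `#(O ⧸ η_T) ≤ #(𝔭_T / 𝔭_T²)`, abstract form. -/
theorem card_quotient_etaIdeal_le {T : Type*} [CommRing T] [Algebra O T] (πT : T →ₐ[O] O) {m : ℕ}
    (ρ : MvPowerSeries (Fin m) O →ₐ[O] T) (hρ : Function.Surjective ρ)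
    (hρε : ∀ u, πT (ρ u) = constantCoeff u) [Finite (RingHom.ker πT).Cotangent] :
    Nat.card (O ⧸ etaIdeal πT) ≤ Nat.card (RingHom.ker πT).Cotangent := by
  set I_T : Ideal (MvPowerSeries (Fin m) O) := RingHom.ker ρ with hIT
  have hT : I_T ≤ augIdeal O m := by
    intro u hu
    have h0 : ρ u = 0 := hu
    rw [mem_augIdeal, ← hρε, h0, map_zero]
  let e : (MvPowerSeries (Fin m) O ⧸ I_T) ≃ₐ[O] T := Ideal.quotientKerAlgEquivOfSurjective hρ
  have he : ∀ u, e (Ideal.Quotient.mk I_T u) = ρ u := fun u =>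
    Ideal.quotientKerAlgEquivOfSurjective_mk hρ u
  have hηeq : etaIdeal (augQuot I_T hT) = etaIdeal πT := by
    refine etaIdeal_eq_of_equiv e _ _ (AlgHom.ext fun x => ?_)
    obtain ⟨u, rfl⟩ := Ideal.Quotient.mk_surjective x
    change πT (e (Ideal.Quotient.mk I_T u)) = _
    rw [he, hρε, augQuot_mk]
  obtain ⟨g, hg⟩ := exists_bijective_cotangent πT ρ hρ hρε
  have : Finite ((Fin m → O) ⧸ linImage I_T) := Finite.of_injective g hg.1
  rw [← hηeq, ← Nat.card_eq_of_bijective g hg]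
  exact card_quotient_etaIdeal_le_powerSeries I_T hT

end Main

end Fermat.Agent.GE9.NumCrit
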