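/-
GE9-NUMCRIT (L7) (S59 pre-work, helper82): **the converse of the numerical criterion**
(Tate / Wiebe), reduction and export half.  `U = O⟦X₁..X_m⟧` over a DVR `O`, `f₁..f_m ∈ 𝔭 = (X)`
with `(f, ϖ)` `𝔪`-primary (so `T = U ⧸ (f)` is a finite free complete intersection), `f = a · X`.
GIVEN `(NZ) : det a ∉ (f) + (ϖ)` (the determinant half, GE9-TATEWIEBE), we prove
* `etaIdeal_ci_eq`  : `η_T = (det (lin f_i))`;
* `card_linImage_eq_card_etaIdeal` : `#(O^m ⧸ lin (f)) = #(O ⧸ η_T)`   (power series form);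
* `card_cotangent_eq_card_etaIdeal` : `#(𝔭_T / 𝔭_T²) = #(O ⧸ η_T)`     (abstract form);
* `exists_pow_le_of_finite` : `U ⧸ (f)` finite over `O` ⟹ `∃ n, 𝔪^n ≤ (f) + (ϖ)`.
Mathlib + GE9/NumCrit only.  Namespace `Fermat.Agent.GE9.NumCrit.Tate`.
-/
import Mathlib
import Fermat.Agent.GE9.NumCrit.Wrapper

set_option autoImplicit false

namespace Fermat.Agent.GE9.NumCrit.Tate

open IsLocalRing MvPowerSeries

section CommRing

variable {O : Type*} [CommRing O] {m : ℕ}

/-- the determinant of the linear parts is the constant coefficient of the determinant of any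
coefficient matrix. -/
theorem det_lin_eq_constantCoeff_det (f : Fin m → MvPowerSeries (Fin m) O)
    (a : Matrix (Fin m) (Fin m) (MvPowerSeries (Fin m) O)) (ha : ∀ i, f i = ∑ j, a i j * X j) :
    (Matrix.of fun i => lin (f i)).det = constantCoeff a.det := by
  rw [RingHom.map_det]
  congr 1
  ext i j
  have := congrFun (lin_sum_mul_X (a i)) j
  rw [← ha i] at this
  simp only [Matrix.of_apply, this, RingHom.mapMatrix_apply, Matrix.map_apply]

/-- **Cramer**: `det a` kills `𝔭` modulo `(f)` when `f = a · X`. -/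
theorem det_mul_mem_of_mem_augIdeal (f : Fin m → MvPowerSeries (Fin m) O)
    (a : Matrix (Fin m) (Fin m) (MvPowerSeries (Fin m) O)) (ha : ∀ i, f i = ∑ j, a i j * X j)
    {u : MvPowerSeries (Fin m) O} (hu : u ∈ augIdeal O m) :
    a.det * u ∈ Ideal.span (Set.range f) := by
  classical
  let x : Fin m → MvPowerSeries (Fin m) O := fun j => X j
  have hax : a.mulVec x = f := by
    ext i
    rw [ha i]
    rfl
  obtain ⟨c, rfl⟩ := exists_eq_sum_mul_X u (mem_augIdeal.mp hu)
  rw [Finset.mul_sum]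
  refine Ideal.sum_mem _ fun k _ => ?_
  have h1 := det_mul_mem_span_range a x k
  rw [hax] at h1
  have : a.det * (c k * X k) = c k * (a.det * X k) := by ring
  rw [this]
  exact Ideal.mul_mem_left _ _ h1

/-- `lin (f₁..f_m)` is the span of the linear parts of the `f_i` (for `f_i ∈ 𝔭`). -/
theorem linImage_span_range (f : Fin m → MvPowerSeries (Fin m) O)
    (hf : ∀ i, f i ∈ augIdeal O m) :
    linImage (Ideal.span (Set.range f)) = Submodule.span O (Set.range fun i => lin (f i)) := by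
  refine le_antisymm ?_ ?_
  · intro v hv
    obtain ⟨g, hg, rfl⟩ := mem_linImage.mp hv
    obtain ⟨c, rfl⟩ := (Ideal.mem_span_range_iff_exists_fun).mp hg
    rw [map_sum]
    refine Submodule.sum_mem _ fun i _ => ?_
    rw [lin_mul (c i) (f i) (mem_augIdeal.mp (hf i))]
    exact Submodule.smul_mem _ _ (Submodule.subset_span ⟨i, rfl⟩)
  · rw [Submodule.span_le]
    rintro _ ⟨i, rfl⟩
    exact mem_linImage.mpr ⟨f i, Ideal.subset_span ⟨i, rfl⟩, rfl⟩

end CommRing

section DVR

variable {O : Type*} [CommRing O] [IsDomain O] [IsDiscreteValuationRing O] {m : ℕ}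

/-- if `ϖ` is regular modulo `F` then so is every nonzero constant. -/
theorem regMod_C_of_ne_zero {ϖ : O} (hϖ : Irreducible ϖ) {F : Ideal (MvPowerSeries (Fin m) O)}
    (hreg : RegMod F (C ϖ : MvPowerSeries (Fin m) O)) {c : O} (hc : c ≠ 0) :
    RegMod F (C c : MvPowerSeries (Fin m) O) := by
  obtain ⟨k, u, rfl⟩ := IsDiscreteValuationRing.eq_unit_mul_pow_irreducible hc hϖ
  intro z hz
  refine hreg.pow k z ?_
  have h1 : (C ϖ : MvPowerSeries (Fin m) O) ^ k * z =
      C ((↑u⁻¹ : O)) * (C ((u : O) * ϖ ^ k) * z) := by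
    rw [← mul_assoc, ← map_mul, ← mul_assoc, Units.inv_mul, one_mul, map_pow]
  rw [h1]
  exact Ideal.mul_mem_left _ _ hz

/-- **(RED)** the reduction of Tate–Wiebe to `(NZ) : det a ∉ (f) + (ϖ)`. -/
theorem etaIdeal_ci_le_of_nz {ϖ : O} (hϖ : Irreducible ϖ) (f : Fin m → MvPowerSeries (Fin m) O)
    (hF : Ideal.span (Set.range f) ≤ augIdeal O m)
    (hreg : RegMod (Ideal.span (Set.range f)) (C ϖ : MvPowerSeries (Fin m) O))
    (a : Matrix (Fin m) (Fin m) (MvPowerSeries (Fin m) O)) (ha : ∀ i, f i = ∑ j, a i j * X j)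
    (hNZ : a.det ∉ Ideal.span (Set.range f) ⊔ Ideal.span {(C ϖ : MvPowerSeries (Fin m) O)}) :
    etaIdeal (augQuot (Ideal.span (Set.range f)) hF) ≤
      Ideal.span {(Matrix.of fun i => lin (f i)).det} := by
  classical
  intro c₀ hc₀
  rw [mem_etaIdeal] at hc₀
  obtain ⟨t, ht, rfl⟩ := hc₀
  obtain ⟨t, rfl⟩ := Ideal.Quotient.mk_surjective t
  rw [augQuot_mk, det_lin_eq_constantCoeff_det f a ha]
  set F := Ideal.span (Set.range f) with hFdef
  set Dt := a.det with hDt
  set D := constantCoeff Dt with hD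
  set c := constantCoeff t with hc
  -- `t` and `Dt` kill `𝔭` modulo `F`
  have htu : ∀ u ∈ augIdeal O m, t * u ∈ F := by
    intro u hu
    have h1 := ht (Ideal.Quotient.mk F u) (by rw [augQuot_mk]; exact mem_augIdeal.mp hu)
    rwa [← map_mul, Ideal.Quotient.eq_zero_iff_mem] at h1
  have hDu : ∀ u ∈ augIdeal O m, Dt * u ∈ F := fun u hu =>
    det_mul_mem_of_mem_augIdeal f a ha hu
  have key : C c * Dt - C D * t ∈ F := by
    have h1 : t - C c ∈ augIdeal O m := by
      rw [mem_augIdeal, map_sub, constantCoeff_C, sub_self]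
    have h2 : Dt - C D ∈ augIdeal O m := by
      rw [mem_augIdeal, map_sub, constantCoeff_C, sub_self]
    have h3 : C c * Dt - C D * t = t * (Dt - C D) - Dt * (t - C c) := by ring
    rw [h3]
    exact Ideal.sub_mem _ (htu _ h2) (hDu _ h1)
  by_cases hc0 : c = 0
  · rw [hc0]; exact Ideal.zero_mem _
  rcases ValuationRing.dvd_total D c with hDc | hcD
  · exact Ideal.mem_span_singleton.mpr hDc
  · obtain ⟨e, he⟩ := hcD
    by_cases heu : IsUnit e
    · refine Ideal.mem_span_singleton.mpr ⟨↑heu.unit⁻¹, ?_⟩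
      rw [he, mul_assoc, IsUnit.mul_val_inv, mul_one]
    · exfalso
      have he𝔪 : e ∈ maximalIdeal O := heu
      rw [hϖ.maximalIdeal_eq, Ideal.mem_span_singleton'] at he𝔪
      obtain ⟨e', he'⟩ := he𝔪
      have h3 : C c * (Dt - C e * t) ∈ F := by
        have h4 : C c * (Dt - C e * t) = C c * Dt - C D * t := by
          rw [he, map_mul]; ring
        rw [h4]; exact key
      have h5 := regMod_C_of_ne_zero hϖ hreg hc0 _ h3
      apply hNZ
      have h6 : Dt = (Dt - C e * t) + C e' * t * C ϖ := by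
        rw [← he', map_mul]; ring
      rw [h6]
      exact Ideal.add_mem _ (Ideal.mem_sup_left h5)
        (Ideal.mem_sup_right (Ideal.mem_span_singleton'.mpr ⟨C e' * t, rfl⟩))

/-- **Tate–Wiebe**, assuming `(NZ)`: the congruence ideal of a complete intersection is generated
by the determinant of the linear parts of the relations. -/
theorem etaIdeal_ci_eq_of_nz {ϖ : O} (hϖ : Irreducible ϖ) (f : Fin m → MvPowerSeries (Fin m) O)
    (hF : Ideal.span (Set.range f) ≤ augIdeal O m)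
    (hreg : RegMod (Ideal.span (Set.range f)) (C ϖ : MvPowerSeries (Fin m) O))
    (a : Matrix (Fin m) (Fin m) (MvPowerSeries (Fin m) O)) (ha : ∀ i, f i = ∑ j, a i j * X j)
    (hNZ : a.det ∉ Ideal.span (Set.range f) ⊔ Ideal.span {(C ϖ : MvPowerSeries (Fin m) O)}) :
    etaIdeal (augQuot (Ideal.span (Set.range f)) hF) =
      Ideal.span {(Matrix.of fun i => lin (f i)).det} := by
  refine le_antisymm (etaIdeal_ci_le_of_nz hϖ f hF hreg a ha hNZ) ?_
  rw [Ideal.span_le, Set.singleton_subset_iff]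
  exact det_lin_mem_etaIdeal _ hF f fun i => Ideal.subset_span ⟨i, rfl⟩

/-- **Tate–Wiebe**, ideal form with the `(NZ)` binder in the exact export shape of
GE9-TATEWIEBE. -/
theorem etaIdeal_ci_eq {ϖ : O} (hϖ : Irreducible ϖ) (I : Ideal (MvPowerSeries (Fin m) O))
    (hI : I ≤ augIdeal O m) (f : Fin m → MvPowerSeries (Fin m) O)
    (hIf : I = Ideal.span (Set.range f)) (n : ℕ)
    (hn : maximalIdeal (MvPowerSeries (Fin m) O) ^ n ≤
      I ⊔ Ideal.span {(C ϖ : MvPowerSeries (Fin m) O)})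
    (hNZ : ∀ a : Matrix (Fin m) (Fin m) (MvPowerSeries (Fin m) O),
      (∀ i, f i = ∑ j, a i j * X j) →
        a.det ∉ Ideal.span (Set.range f) ⊔ Ideal.span {(C ϖ : MvPowerSeries (Fin m) O)}) :
    etaIdeal (augQuot I hI) = Ideal.span {(Matrix.of fun i => lin (f i)).det} := by
  subst hIf
  have hf : ∀ i, f i ∈ augIdeal O m := fun i => hI (Ideal.subset_span ⟨i, rfl⟩)
  have h1 : ∀ i, ∃ a : Fin m → MvPowerSeries (Fin m) O, f i = ∑ j, a j * X j := fun i =>
    exists_eq_sum_mul_X (f i) (mem_augIdeal.mp (hf i))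
  choose a ha using h1
  exact etaIdeal_ci_eq_of_nz hϖ f hI (ci_regMod_and_colonPrincipal hϖ f hf n hn).1 (Matrix.of a) ha
    (hNZ (Matrix.of a) ha)

/-- the determinant half `(NZ)` of Tate–Wiebe as a `Prop` (supplied by GE9-TATEWIEBE):
for `f = a · X` with `(f, ϖ)` `𝔪`-primary, `det a ∉ (f) + (ϖ)`. -/
def DetNotMemCI (O : Type*) [CommRing O] [IsDomain O] [IsDiscreteValuationRing O] (m : ℕ) : Prop :=
  ∀ {ϖ : O}, Irreducible ϖ → ∀ (f : Fin m → MvPowerSeries (Fin m) O)
    (a : Matrix (Fin m) (Fin m) (MvPowerSeries (Fin m) O)), (∀ i, f i = ∑ j, a i j * X j) →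
    ∀ n : ℕ, maximalIdeal (MvPowerSeries (Fin m) O) ^ n ≤
        Ideal.span (Set.range f) ⊔ Ideal.span {(C ϖ : MvPowerSeries (Fin m) O)} →
      a.det ∉ Ideal.span (Set.range f) ⊔ Ideal.span {(C ϖ : MvPowerSeries (Fin m) O)}

variable [Finite (ResidueField O)]

omit [Finite (ResidueField O)] in
/-- a square matrix over a DVR whose row span has finite index has nonzero determinant. -/
theorem det_ne_zero_of_finite_quotient_span_rows (b : Matrix (Fin m) (Fin m) O)
    [Finite ((Fin m → O) ⧸ Submodule.span O (Set.range fun i => b i))] : b.det ≠ 0 := by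
  classical
  obtain ⟨b', hb', hspan⟩ :=
    exists_matrix_of_finite_quotient (Submodule.span O (Set.range fun i => b i))
  have h1 : ∀ i, ∃ c : Fin m → O, ∑ k, c k • b k = b' i := fun i => by
    have h2 : b' i ∈ Submodule.span O (Set.range fun i => b' i) :=
      Submodule.subset_span ⟨i, rfl⟩
    rw [hspan] at h2
    exact (Submodule.mem_span_range_iff_exists_fun O).mp h2
  choose c hc using h1
  have h2 : b' = Matrix.of c * b := by
    ext i j
    rw [← hc i, Matrix.mul_apply, Finset.sum_apply]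
    rfl
  intro h0
  apply hb'
  rw [h2, Matrix.det_mul, h0, mul_zero]

/-- `#(O^m ⧸ rowspan b) = #(O ⧸ (det b))` for EVERY square matrix over a DVR with finite residue
field (both sides are `0` when `det b = 0`). -/
theorem card_quotient_span_rows_eq (b : Matrix (Fin m) (Fin m) O) :
    Nat.card ((Fin m → O) ⧸ Submodule.span O (Set.range fun i => b i)) =
      Nat.card (O ⧸ Ideal.span {b.det}) := by
  by_cases hb : b.det = 0
  · have h1 : Infinite ((Fin m → O) ⧸ Submodule.span O (Set.range fun i => b i)) := by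
      rw [← not_finite_iff_infinite]
      intro hfin
      exact det_ne_zero_of_finite_quotient_span_rows b hb
    have h2 : Infinite (O ⧸ Ideal.span {b.det}) := by
      have hO : Infinite O := infinite_of_dvr
      refine Infinite.of_injective (Ideal.Quotient.mk (Ideal.span {b.det})) fun x y hxy => ?_
      rwa [Ideal.Quotient.eq, hb, Ideal.mem_span_singleton, zero_dvd_iff, sub_eq_zero] at hxy
    rw [Nat.card_eq_zero_of_infinite, Nat.card_eq_zero_of_infinite]
  · exact card_quotient_span_rows b hb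

/-- `U ⧸ I` finite over `O` ⟹ `I + (ϖ)` is `𝔪`-primary. -/
theorem exists_pow_le_of_finite {ϖ : O} (hϖ : Irreducible ϖ)
    (I : Ideal (MvPowerSeries (Fin m) O)) [Module.Finite O (MvPowerSeries (Fin m) O ⧸ I)] :
    ∃ n : ℕ, maximalIdeal (MvPowerSeries (Fin m) O) ^ n ≤
      I ⊔ Ideal.span {(C ϖ : MvPowerSeries (Fin m) O)} := by
  set J : Ideal (MvPowerSeries (Fin m) O) := I ⊔ Ideal.span {C ϖ} with hJ
  have hIJ : I ≤ J := le_sup_left
  have hfin : Module.Finite O (MvPowerSeries (Fin m) O ⧸ J) :=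
    Module.Finite.of_surjective (Ideal.Quotient.factorₐ O hIJ).toLinearMap
      (Ideal.Quotient.factor_surjective hIJ)
  have hfinϖ : Finite (O ⧸ Ideal.span {ϖ}) := finite_quotient_span hϖ.ne_zero
  have hkill : ∀ y : MvPowerSeries (Fin m) O ⧸ J, ϖ • y = 0 := by
    intro y
    obtain ⟨z, rfl⟩ := Ideal.Quotient.mk_surjective y
    have h1 : ϖ • Ideal.Quotient.mk J z = Ideal.Quotient.mk J (C ϖ * z) := by
      rw [← algebraMap_eq_C, ← Algebra.smul_def]
      rfl
    rw [h1, Ideal.Quotient.eq_zero_iff_mem]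
    exact Ideal.mul_mem_right _ _ (Ideal.mem_sup_right (Ideal.mem_span_singleton_self _))
  have hF : Finite (MvPowerSeries (Fin m) O ⧸ J) := finite_of_smul_eq_zero ϖ hkill
  obtain ⟨N, hN⟩ := exists_pow_maximalIdeal_le_ker (Ideal.Quotient.mk J)
    Ideal.Quotient.mk_surjective
  exact ⟨N, by rwa [Ideal.mk_ker] at hN⟩

/-- **Tate–Wiebe, numerical form** (power series): for a complete intersection
`T = U ⧸ (f₁..f_m)`, `#(O^m ⧸ lin (f)) = #(O ⧸ η_T)`. -/
theorem card_linImage_eq_card_etaIdeal {ϖ : O} (hϖ : Irreducible ϖ)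
    (I : Ideal (MvPowerSeries (Fin m) O)) (hI : I ≤ augIdeal O m)
    (f : Fin m → MvPowerSeries (Fin m) O) (hIf : I = Ideal.span (Set.range f)) (n : ℕ)
    (hn : maximalIdeal (MvPowerSeries (Fin m) O) ^ n ≤
      I ⊔ Ideal.span {(C ϖ : MvPowerSeries (Fin m) O)})
    (hNZ : ∀ a : Matrix (Fin m) (Fin m) (MvPowerSeries (Fin m) O),
      (∀ i, f i = ∑ j, a i j * X j) →
        a.det ∉ Ideal.span (Set.range f) ⊔ Ideal.span {(C ϖ : MvPowerSeries (Fin m) O)}) :
    Nat.card ((Fin m → O) ⧸ linImage I) = Nat.card (O ⧸ etaIdeal (augQuot I hI)) := by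
  rw [etaIdeal_ci_eq hϖ I hI f hIf n hn hNZ]
  subst hIf
  rw [linImage_span_range f fun i => hI (Ideal.subset_span ⟨i, rfl⟩)]
  exact card_quotient_span_rows_eq (Matrix.of fun i => lin (f i))

/-- **Tate–Wiebe, abstract form**: `T` an augmented `O`-algebra presented as
`ρ : O⟦X₁..X_m⟧ ↠ T` with `ker ρ = (f₁..f_m)` and `(f, ϖ)` `𝔪`-primary.  Then
`η_T = (det (lin f_i))` and `#(𝔭_T / 𝔭_T²) = #(O ⧸ η_T)`. -/
theorem card_cotangent_eq_card_etaIdeal {T : Type*} [CommRing T] [Algebra O T] (πT : T →ₐ[O] O)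
    (ρ : MvPowerSeries (Fin m) O →ₐ[O] T) (hρ : Function.Surjective ρ)
    (hρε : ∀ u, πT (ρ u) = constantCoeff u) {ϖ : O} (hϖ : Irreducible ϖ)
    (f : Fin m → MvPowerSeries (Fin m) O) (hker : RingHom.ker ρ = Ideal.span (Set.range f))
    (n : ℕ) (hn : maximalIdeal (MvPowerSeries (Fin m) O) ^ n ≤
      RingHom.ker ρ ⊔ Ideal.span {(C ϖ : MvPowerSeries (Fin m) O)})
    (hNZ : ∀ a : Matrix (Fin m) (Fin m) (MvPowerSeries (Fin m) O),
      (∀ i, f i = ∑ j, a i j * X j) →
        a.det ∉ Ideal.span (Set.range f) ⊔ Ideal.span {(C ϖ : MvPowerSeries (Fin m) O)}) :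
    etaIdeal πT = Ideal.span {(Matrix.of fun i => lin (f i)).det} ∧
      Nat.card (RingHom.ker πT).Cotangent = Nat.card (O ⧸ etaIdeal πT) := by
  set I_T : Ideal (MvPowerSeries (Fin m) O) := RingHom.ker ρ with hIT
  have hT : I_T ≤ augIdeal O m := by
    intro u hu
    have h0 : ρ u = 0 := hu
    rw [mem_augIdeal, ← hρε, h0, map_zero]
  let e : (MvPowerSeries (Fin m) O ⧸ I_T) ≃ₐ[O] T := Ideal.quotientKerAlgEquivOfSurjective hρ
  have he : ∀ u, e (Ideal.Quotient.mk I_T u) = ρ u := fun u =>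
    Ideal.quotientKerAlgEquivOfSurjective_mk hρ u
  have hηeq : etaIdeal (augQuot I_T hT) = etaIdeal πT := by
    refine etaIdeal_eq_of_equiv e _ _ (AlgHom.ext fun x => ?_)
    obtain ⟨u, rfl⟩ := Ideal.Quotient.mk_surjective x
    change πT (e (Ideal.Quotient.mk I_T u)) = _
    rw [he, hρε, augQuot_mk]
  obtain ⟨g, hg⟩ := exists_bijective_cotangent πT ρ hρ hρε
  refine ⟨?_, ?_⟩
  · rw [← hηeq]
    exact etaIdeal_ci_eq hϖ I_T hT f hker n hn hNZ
  · rw [← hηeq, ← Nat.card_eq_of_bijective g hg]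
    exact card_linImage_eq_card_etaIdeal hϖ I_T hT f hker n hn hNZ

/-- **Tate–Wiebe, abstract form for consumers**: `T` finite over `O`, presented as
`ρ : O⟦X₁..X_m⟧ ↠ T` with `ker ρ = (f₁..f_m)`; the determinant half enters as `DetNotMemCI O m`. -/
theorem card_cotangent_eq_card_etaIdeal_of_finite (hNZ : DetNotMemCI O m) {T : Type*} [CommRing T]
    [Algebra O T] [Module.Finite O T] (πT : T →ₐ[O] O)
    (ρ : MvPowerSeries (Fin m) O →ₐ[O] T) (hρ : Function.Surjective ρ)
    (hρε : ∀ u, πT (ρ u) = constantCoeff u)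
    (f : Fin m → MvPowerSeries (Fin m) O) (hker : RingHom.ker ρ = Ideal.span (Set.range f)) :
    etaIdeal πT = Ideal.span {(Matrix.of fun i => lin (f i)).det} ∧
      Nat.card (RingHom.ker πT).Cotangent = Nat.card (O ⧸ etaIdeal πT) := by
  obtain ⟨ϖ, hϖ⟩ := IsDiscreteValuationRing.exists_irreducible O
  let e : (MvPowerSeries (Fin m) O ⧸ RingHom.ker ρ) ≃ₐ[O] T :=
    Ideal.quotientKerAlgEquivOfSurjective hρ
  have hfin : Module.Finite O (MvPowerSeries (Fin m) O ⧸ RingHom.ker ρ) :=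
    Module.Finite.equiv e.symm.toLinearEquiv
  obtain ⟨n, hn⟩ := exists_pow_le_of_finite hϖ (RingHom.ker ρ)
  refine card_cotangent_eq_card_etaIdeal πT ρ hρ hρε hϖ f hker n hn fun a ha => ?_
  rw [hker] at hn
  exact hNZ hϖ f a ha n hn

end DVR

end Fermat.Agent.GE9.NumCrit.Tate
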