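/-
GE9-TATEWIEBE (S59 pre-work, helper99), file 1: **independence of the determinant of a transition
matrix modulo the target ideal**, for a regular sequence.

`R` a commutative ring, `x : Fin n → R` a sequence such that `x k` is a non-zero-divisor modulo
`(x j : j < k)` for every `k` (`IsRegFin x`).  Then

* every syzygy `∑ r j * x j = 0` is a combination of the Koszul relations
  `x b • e_a - x a • e_b` (`mem_koszulSpan_of_sum_eq_zero`);
* for square matrices `M, M'` with `M x = M' x` one has
  `det M - det M' ∈ (M x)` (`det_sub_det_mem_span`).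

No Koszul complex: the second statement is row-by-row multilinearity of `det` plus ONE Cramer
identity (`koszul_row_det_mem`).  Mathlib only.
-/
import Mathlib

set_option autoImplicit false

namespace Fermat.Agent.GE9.NumCrit.TateWiebe

open Matrix

variable {R : Type*} [CommRing R] {n : ℕ}

/-- the ideal generated by the members of the sequence before position `k`. -/
def initIdeal (x : Fin n → R) (k : Fin n) : Ideal R := Ideal.span (x '' {j | j < k})

/-- `x k` is a non-zero-divisor modulo `(x j : j < k)`, for every `k`. -/
def IsRegFin (x : Fin n → R) : Prop :=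
  ∀ k : Fin n, ∀ w : R, x k * w ∈ initIdeal x k → w ∈ initIdeal x k

/-- the Koszul relation `x b • e_a - x a • e_b`. -/
def koszulRel (x : Fin n → R) (a b : Fin n) : Fin n → R :=
  x b • (Pi.single a 1 : Fin n → R) - x a • (Pi.single b 1 : Fin n → R)

/-- the submodule of `R^n` spanned by the Koszul relations. -/
def koszulSpan (x : Fin n → R) : Submodule R (Fin n → R) :=
  Submodule.span R {r | ∃ a b : Fin n, r = koszulRel x a b}

theorem koszulRel_mem (x : Fin n → R) (a b : Fin n) : koszulRel x a b ∈ koszulSpan x :=
  Submodule.subset_span ⟨a, b, rfl⟩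

theorem sum_koszulRel_mul (x : Fin n → R) (a b : Fin n) :
    ∑ j, koszulRel x a b j * x j = 0 := by
  classical
  simp only [koszulRel, Pi.sub_apply, Pi.smul_apply, smul_eq_mul, sub_mul, Finset.sum_sub_distrib,
    Pi.single_apply, mul_ite, mul_one, mul_zero, ite_mul, zero_mul, Finset.sum_ite_eq',
    Finset.mem_univ, if_true]
  ring

/-- elements of `initIdeal x k` are combinations of the earlier members. -/
theorem exists_fun_of_mem_initIdeal (x : Fin n → R) (k : Fin n) {w : R}
    (hw : w ∈ initIdeal x k) :
    ∃ s : Fin n → R, (∀ j, ¬ j < k → s j = 0) ∧ w = ∑ j, s j * x j := by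
  classical
  unfold initIdeal at hw
  induction hw using Submodule.span_induction with
  | mem w hw =>
    obtain ⟨j, hj, rfl⟩ := hw
    refine ⟨Pi.single j 1, fun i hi => ?_, ?_⟩
    · rw [Pi.single_apply, if_neg]
      rintro rfl
      exact hi hj
    · simp [Pi.single_apply]
  | zero => exact ⟨0, fun _ _ => rfl, by simp⟩
  | add u v _ _ hu hv =>
    obtain ⟨s, hs, rfl⟩ := hu
    obtain ⟨t, ht, rfl⟩ := hv
    refine ⟨s + t, fun j hj => by rw [Pi.add_apply, hs j hj, ht j hj, add_zero], ?_⟩
    simp only [Pi.add_apply, add_mul, Finset.sum_add_distrib]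
  | smul c u _ hu =>
    obtain ⟨s, hs, rfl⟩ := hu
    refine ⟨c • s, fun j hj => by rw [Pi.smul_apply, hs j hj, smul_zero], ?_⟩
    simp only [Pi.smul_apply, smul_eq_mul, Finset.mul_sum, mul_assoc]

theorem sum_mem_initIdeal (x : Fin n → R) (k : Fin n) (s : Fin n → R)
    (hs : ∀ j, ¬ j < k → s j = 0) : ∑ j, s j * x j ∈ initIdeal x k := by
  classical
  refine Ideal.sum_mem _ fun j _ => ?_
  by_cases hj : j < k
  · exact Ideal.mul_mem_left _ _ (Ideal.subset_span ⟨j, hj, rfl⟩)
  · rw [hs j hj, zero_mul]
    exact Ideal.zero_mem _

/-- **syzygies of a regular sequence are Koszul.** -/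
theorem mem_koszulSpan_of_sum_eq_zero {x : Fin n → R} (hx : IsRegFin x) (r : Fin n → R)
    (hr : ∑ j, r j * x j = 0) : r ∈ koszulSpan x := by
  classical
  -- induction on a bound for the support
  suffices H : ∀ k : ℕ, k ≤ n → ∀ r : Fin n → R, (∀ j : Fin n, k ≤ j.val → r j = 0) →
      ∑ j, r j * x j = 0 → r ∈ koszulSpan x from
    H n le_rfl r (fun j hj => absurd j.isLt (not_lt.mpr hj)) hr
  intro k
  induction k with
  | zero =>
    intro _ r hsupp _
    have : r = 0 := funext fun j => hsupp j (Nat.zero_le _)
    rw [this]
    exact Submodule.zero_mem _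
  | succ k ih =>
    intro hk r hsupp hr
    let kk : Fin n := ⟨k, hk⟩
    -- `x kk * r kk ∈ initIdeal x kk`
    have hsplit : x kk * r kk = ∑ j, (if j < kk then - r j else 0) * x j := by
      have h1 : ∑ j, r j * x j = r kk * x kk + ∑ j, (if j < kk then r j else 0) * x j := by
        rw [← Finset.add_sum_erase _ _ (Finset.mem_univ kk)]
        congr 1
        rw [← Finset.sum_erase (s := Finset.univ) (a := kk)
          (f := fun j => (if j < kk then r j else 0) * x j) (by simp)]
        refine Finset.sum_congr rfl fun j hj => ?_
        have hjk : j ≠ kk := Finset.ne_of_mem_erase hj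
        by_cases hlt : j < kk
        · rw [if_pos hlt]
        · rw [if_neg hlt]
          have : k + 1 ≤ j.val := by
            have h2 : kk ≤ j := not_lt.mp hlt
            have h3 : kk.val ≠ j.val := fun e => hjk (Fin.ext e.symm)
            have h4 : kk.val ≤ j.val := h2
            change k ≤ j.val at h4
            change k ≠ j.val at h3
            omega
          rw [hsupp j this]
      rw [hr] at h1
      have h2 : ∑ j, (if j < kk then - r j else 0) * x j =
          - ∑ j, (if j < kk then r j else 0) * x j := by
        rw [← Finset.sum_neg_distrib]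
        refine Finset.sum_congr rfl fun j _ => ?_
        split_ifs <;> ring
      rw [h2]
      linear_combination (-1 : R) * h1
    have hmem : x kk * r kk ∈ initIdeal x kk := by
      rw [hsplit]
      exact sum_mem_initIdeal x kk _ fun j hj => by rw [if_neg hj]
    obtain ⟨s, hs, hrs⟩ := exists_fun_of_mem_initIdeal x kk (hx kk _ hmem)
    -- subtract the Koszul relations
    let c : Fin n → R := ∑ j, s j • koszulRel x kk j
    have hc : c ∈ koszulSpan x :=
      Submodule.sum_mem _ fun j _ => Submodule.smul_mem _ _ (koszulRel_mem x kk j)
    have hcsum : ∑ i, c i * x i = 0 := by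
      have : ∀ i, c i = ∑ j, s j * koszulRel x kk j i := fun i => by
        simp only [c, Finset.sum_apply, Pi.smul_apply, smul_eq_mul]
      simp only [this, Finset.sum_mul]
      rw [Finset.sum_comm]
      refine Finset.sum_eq_zero fun j _ => ?_
      have := sum_koszulRel_mul x kk j
      simp only [mul_assoc]
      rw [← Finset.mul_sum, this, mul_zero]
    -- value of `c` at `kk` and beyond
    have hc_apply : ∀ i, c i = ∑ j, s j * (x j * (if i = kk then 1 else 0) -
        x kk * (if i = j then 1 else 0)) := fun i => by
      simp only [c, Finset.sum_apply, Pi.smul_apply, smul_eq_mul, koszulRel, Pi.sub_apply,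
        Pi.single_apply, mul_ite, mul_one, mul_zero]
    have hckk : c kk = r kk := by
      rw [hc_apply, hrs]
      refine Finset.sum_congr rfl fun j _ => ?_
      by_cases hj : j < kk
      · have : kk ≠ j := fun e => absurd (e ▸ hj) (lt_irrefl _)
        rw [if_pos rfl, if_neg this]
        ring
      · rw [hs j hj]
        ring
    have hcgt : ∀ i : Fin n, k + 1 ≤ i.val → c i = 0 := by
      intro i hi
      rw [hc_apply]
      refine Finset.sum_eq_zero fun j _ => ?_
      have h1 : i ≠ kk := fun e => by
        have : i.val = k := congrArg Fin.val e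
        omega
      by_cases hj : j < kk
      · have h2 : i ≠ j := fun e => by
          have h3 : j.val < k := hj
          have : i.val = j.val := congrArg Fin.val e
          omega
        rw [if_neg h1, if_neg h2]
        ring
      · rw [hs j hj]
        ring
    have hr' : r - c ∈ koszulSpan x := by
      refine ih (Nat.le_of_succ_le hk) (r - c) (fun j hj => ?_) ?_
      · rw [Pi.sub_apply]
        rcases Nat.eq_or_lt_of_le hj with h | h
        · have : j = kk := Fin.ext h.symm
          rw [this, hckk, sub_self]
        · rw [hsupp j h, hcgt j h, sub_self]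
      · simp only [Pi.sub_apply, sub_mul, Finset.sum_sub_distrib, hr, hcsum, sub_self]
    have : r = (r - c) + c := by ring
    rw [this]
    exact Submodule.add_mem _ hr' hc

/-- **One Cramer identity.**  For a Koszul row the determinant lies in the ideal of the other
entries of `H x`. -/
theorem koszul_row_det_mem (H : Matrix (Fin n) (Fin n) R) (x : Fin n → R) (k a b : Fin n) :
    (H.updateRow k (koszulRel x a b)).det ∈
      Ideal.span {c | ∃ i, i ≠ k ∧ c = H.mulVec x i} := by
  classical
  set P : Matrix (Fin n) (Fin n) R := H.updateRow k (Pi.single a 1) with hP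
  -- multilinearity in row `k`
  have hdet : (H.updateRow k (koszulRel x a b)).det =
      x b * (H.updateRow k (Pi.single a 1)).det - x a * (H.updateRow k (Pi.single b 1)).det := by
    have h1 : koszulRel x a b = x b • (Pi.single a 1 : Fin n → R) +
        (- x a) • (Pi.single b 1 : Fin n → R) := by
      rw [koszulRel, neg_smul, sub_eq_add_neg]
    rw [h1, Matrix.det_updateRow_add, Matrix.det_updateRow_smul, Matrix.det_updateRow_smul]
    ring
  -- Cramer for `P`
  have hcr : P.adjugate.mulVec (P.mulVec x) = P.det • x := by
    rw [Matrix.mulVec_mulVec, Matrix.adjugate_mul, Matrix.smul_mulVec, Matrix.one_mulVec]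
  have hcrb := congrFun hcr b
  rw [Pi.smul_apply, smul_eq_mul, Matrix.mulVec, dotProduct] at hcrb
  -- the `k`-th entry of `P x`
  have hPk : P.mulVec x k = x a := by
    rw [Matrix.mulVec, dotProduct]
    simp only [hP, Matrix.updateRow_self, Pi.single_apply, ite_mul, one_mul, zero_mul,
      Finset.sum_ite_eq', Finset.mem_univ, if_true]
  have hPi : ∀ i, i ≠ k → P.mulVec x i = H.mulVec x i := fun i hi => by
    rw [Matrix.mulVec, Matrix.mulVec, dotProduct, dotProduct]
    refine Finset.sum_congr rfl fun j _ => ?_
    rw [hP, Matrix.updateRow_ne hi]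
  have hadj : P.adjugate b k = (H.updateRow k (Pi.single b 1)).det := by
    rw [Matrix.adjugate_apply, hP, Matrix.updateRow_idem]
  rw [hdet]
  have hsum : P.det * x b = P.adjugate b k * x a +
      ∑ i ∈ Finset.univ.erase k, P.adjugate b i * H.mulVec x i := by
    rw [← hcrb, ← Finset.add_sum_erase _ _ (Finset.mem_univ k), hPk]
    congr 1
    exact Finset.sum_congr rfl fun i hi => by rw [hPi i (Finset.ne_of_mem_erase hi)]
  have hfinal : x b * (H.updateRow k (Pi.single a 1)).det -
      x a * (H.updateRow k (Pi.single b 1)).det =
      ∑ i ∈ Finset.univ.erase k, P.adjugate b i * H.mulVec x i := by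
    rw [← hadj]
    linear_combination hsum
  rw [hfinal]
  exact Ideal.sum_mem _ fun i hi => Ideal.mul_mem_left _ _
    (Ideal.subset_span ⟨i, Finset.ne_of_mem_erase hi, rfl⟩)

/-- for a row in the Koszul span, the determinant lies in the ideal of the other entries. -/
theorem koszulSpan_row_det_mem (H : Matrix (Fin n) (Fin n) R) (x : Fin n → R) (k : Fin n)
    {r : Fin n → R} (hr : r ∈ koszulSpan x) :
    (H.updateRow k r).det ∈ Ideal.span {c | ∃ i, i ≠ k ∧ c = H.mulVec x i} := by
  classical
  unfold koszulSpan at hr
  induction hr using Submodule.span_induction with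
  | mem r hr =>
    obtain ⟨a, b, rfl⟩ := hr
    exact koszul_row_det_mem H x k a b
  | zero =>
    have : (H.updateRow k (0 : Fin n → R)).det = 0 :=
      Matrix.det_eq_zero_of_row_eq_zero k fun j => by rw [Matrix.updateRow_self]; rfl
    rw [this]
    exact Ideal.zero_mem _
  | add u v _ _ hu hv =>
    rw [Matrix.det_updateRow_add]
    exact Ideal.add_mem _ hu hv
  | smul c u _ hu =>
    rw [Matrix.det_updateRow_smul]
    exact Ideal.mul_mem_left _ _ hu

/-- **Independence of the determinant.**  `x` a regular sequence, `M x = M' x`:
`det M - det M' ∈ (M x)`. -/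
theorem det_sub_det_mem_span {x : Fin n → R} (hx : IsRegFin x) (M M' : Matrix (Fin n) (Fin n) R)
    (h : M.mulVec x = M'.mulVec x) :
    M.det - M'.det ∈ Ideal.span (Set.range (M.mulVec x)) := by
  classical
  -- hybrid matrices
  let Hy : Finset (Fin n) → Matrix (Fin n) (Fin n) R := fun S =>
    Matrix.of fun i => if i ∈ S then M i else M' i
  have hHy_mul : ∀ S, (Hy S).mulVec x = M.mulVec x := by
    intro S
    funext i
    by_cases hi : i ∈ S
    · have : (Hy S) i = M i := by
        show (if i ∈ S then M i else M' i) = M i
        rw [if_pos hi]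
      rw [Matrix.mulVec, Matrix.mulVec, this]
    · have : (Hy S) i = M' i := by
        show (if i ∈ S then M i else M' i) = M' i
        rw [if_neg hi]
      rw [Matrix.mulVec, this]
      exact (congrFun h i).symm
  have key : ∀ S : Finset (Fin n), (Hy S).det - M'.det ∈ Ideal.span (Set.range (M.mulVec x)) := by
    intro S
    induction S using Finset.induction_on with
    | empty =>
      have : Hy ∅ = M' := by
        ext i j
        simp only [Hy, Matrix.of_apply, Finset.notMem_empty, if_false]
      rw [this, sub_self]
      exact Ideal.zero_mem _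
    | insert a S ha ih =>
      have h1 : Hy (insert a S) = (Hy S).updateRow a (M a) := by
        ext i j
        by_cases hia : i = a
        · subst hia
          simp only [Hy, Matrix.of_apply, Finset.mem_insert_self, if_true, Matrix.updateRow_self]
        · rw [Matrix.updateRow_ne hia]
          simp only [Hy, Matrix.of_apply, Finset.mem_insert, hia, false_or]
      have h2 : Hy S = (Hy S).updateRow a (M' a) := by
        ext i j
        by_cases hia : i = a
        · subst hia
          simp only [Hy, Matrix.of_apply, if_neg ha, Matrix.updateRow_self]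
        · rw [Matrix.updateRow_ne hia]
      have h3 : M a = (M a - M' a) + M' a := by ring
      have h4 : (Hy (insert a S)).det - (Hy S).det =
          ((Hy S).updateRow a (M a - M' a)).det := by
        rw [h1]
        conv_lhs => rw [h3, Matrix.det_updateRow_add, ← h2]
        ring
      have hsyz : ∑ j, (M a - M' a) j * x j = 0 := by
        have := congrFun h a
        rw [Matrix.mulVec, Matrix.mulVec, dotProduct, dotProduct] at this
        simp only [Pi.sub_apply, sub_mul, Finset.sum_sub_distrib, this, sub_self]
      have h5 := koszulSpan_row_det_mem (Hy S) x a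
        (mem_koszulSpan_of_sum_eq_zero hx _ hsyz)
      have h6 : Ideal.span {c | ∃ i, i ≠ a ∧ c = (Hy S).mulVec x i} ≤
          Ideal.span (Set.range (M.mulVec x)) := by
        refine Ideal.span_mono ?_
        rintro c ⟨i, -, rfl⟩
        exact ⟨i, by rw [hHy_mul S]⟩
      have h7 : (Hy (insert a S)).det - M'.det =
          ((Hy (insert a S)).det - (Hy S).det) + ((Hy S).det - M'.det) := by ring
      rw [h7, h4]
      exact Ideal.add_mem _ (h6 h5) ih
  have hall : Hy Finset.univ = M := by
    ext i j
    simp only [Hy, Matrix.of_apply, Finset.mem_univ, if_true]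
  have := key Finset.univ
  rwa [hall] at this

end Fermat.Agent.GE9.NumCrit.TateWiebe
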