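/-
GE9-TATEWIEBE (S59 pre-work, helper99), file 2: **the converse of the numerical criterion**
(Tate / Wiebe), power series form.

`O` a DVR, `U = O⟦X₁..X_m⟧`, `f₁..f_m ∈ 𝔭 = (X)` with `𝔪_U ^ n ≤ (f) + (ϖ)` (so `T = U ⧸ (f)` is a
finite free local complete intersection, `CI.ci_quotient_facts`).  Then

  `etaIdeal (augQuot (f)) = (det (lin f_i))`      (`etaIdeal_ci_eq`)

and hence `#(O^m ⧸ linImage (f)) = #(O ⧸ η_T)` (`card_quotient_linImage_eq`): for a complete
intersection the numerical criterion is an EQUALITY.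

Proof.  `⊇` is Cramer (`Cover.det_lin_mem_etaIdeal`).  For `⊆` write `f = a X`, `D̃ = det a`.
* (NZ) `D̃ ∉ (f) + (ϖ)` (`det_notMem`): modulo `ϖ`, `X^(N+1) = b f = (b a) X = diag(X^N) X`, the
  sequence `X` is regular, so `∏ X_j^N = det diag(X^N) ≡ det b · D̃` modulo `(X^(N+1))`
  (`det_sub_det_mem_span`); if `D̃ ∈ (f)` then `det b · D̃ ∈ (b f) = (X^(N+1))` by Cramer, so
  `∏ X_j^N ∈ (X₁^(N+1), .., X_m^(N+1), ϖ)`: false, read the coefficient of `X^(N,..,N)`.
* if `t 𝔭 ⊆ (f)` and `c = t(0)`, `D = D̃(0)` then `c D̃ - D t ∈ (f)`; `O` is a valuation ring and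
  `ϖ` is regular modulo `(f)`, so `D ∣ c` or `D̃ ∈ (f) + (ϖ)`.
-/
import Mathlib
import Fermat.Agent.GE9.NumCrit.Defs
import Fermat.Agent.GE9.NumCrit.Gen
import Fermat.Agent.GE9.NumCrit.PSLocal
import Fermat.Agent.GE9.NumCrit.Cover
import Fermat.Agent.GE9.NumCrit.CI
import Fermat.Agent.GE9.NumCrit.Lat
import Fermat.Agent.GE9.NumCrit.TateWiebeDet

set_option autoImplicit false

namespace Fermat.Agent.GE9.NumCrit.TateWiebe

open IsLocalRing MvPowerSeries Fermat.Agent.GE9.NumCrit

section Generic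

variable {A : Type*} [CommRing A]

theorem initIdeal_zero {n : ℕ} (x : Fin (n + 1) → A) : initIdeal x 0 = ⊥ := by
  unfold initIdeal
  have : {j : Fin (n + 1) | j < 0} = ∅ := by
    ext j
    simp
  rw [this, Set.image_empty, Ideal.span_empty]

theorem initIdeal_succ {n : ℕ} (x : Fin (n + 1) → A) (k : Fin n) :
    initIdeal x k.succ = Ideal.span {x 0} ⊔ initIdeal (fun i : Fin n => x i.succ) k := by
  unfold initIdeal
  rw [← Ideal.span_union]
  congr 1
  ext y
  constructor
  · rintro ⟨j, hj, rfl⟩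
    refine Fin.cases ?_ (fun j' hj' => ?_) j hj
    · intro _
      exact Or.inl rfl
    · exact Or.inr ⟨j', Fin.succ_lt_succ_iff.mp hj', rfl⟩
  · rintro (h | ⟨j', hj', rfl⟩)
    · rw [Set.mem_singleton_iff] at h
      exact ⟨0, Fin.succ_pos k, h.symm⟩
    · exact ⟨j'.succ, Fin.succ_lt_succ_iff.mpr hj', rfl⟩

/-- a relative regular sequence `List.ofFn x`, position by position. -/
theorem regMod_of_regSeq_ofFn : ∀ {n : ℕ} (I₀ : Ideal A) (x : Fin n → A),
    RegSeq I₀ (List.ofFn x) → ∀ k, RegMod (I₀ ⊔ initIdeal x k) (x k)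
  | 0, _, _, _ => fun k => k.elim0
  | n + 1, I₀, x, h => by
    rw [List.ofFn_succ, regSeq_cons] at h
    obtain ⟨h0, htail⟩ := h
    intro k
    refine Fin.cases ?_ (fun k' => ?_) k
    · rw [initIdeal_zero, sup_bot_eq]
      exact h0
    · have ih := regMod_of_regSeq_ofFn (I₀ ⊔ Ideal.span {x 0}) (fun i : Fin n => x i.succ) htail k'
      rw [initIdeal_succ, ← sup_assoc]
      exact ih

/-- regularity passes to the quotient ring. -/
theorem isRegFin_mk {n : ℕ} (I₀ : Ideal A) (x : Fin n → A)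
    (h : ∀ k, RegMod (I₀ ⊔ initIdeal x k) (x k)) :
    IsRegFin (fun j => Ideal.Quotient.mk I₀ (x j)) := by
  intro k w hw
  obtain ⟨w, rfl⟩ := Ideal.Quotient.mk_surjective w
  have hmap : initIdeal (fun j => Ideal.Quotient.mk I₀ (x j)) k =
      (initIdeal x k).map (Ideal.Quotient.mk I₀) := by
    unfold initIdeal
    rw [Ideal.map_span, Set.image_image]
  rw [hmap] at hw ⊢
  rw [← map_mul, Ideal.mem_quotient_iff_mem_sup] at hw
  rw [Ideal.mem_quotient_iff_mem_sup]
  rw [sup_comm] at hw ⊢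
  exact h k w hw

end Generic

section PS

variable {O : Type*} [CommRing O] [IsDomain O] [IsDiscreteValuationRing O] {m : ℕ}

/-- the vector of variables. -/
noncomputable def Xv (O : Type*) [CommRing O] (m : ℕ) : Fin m → MvPowerSeries (Fin m) O :=
  fun j => X j

/-- the exponent `(N, .., N)`. -/
noncomputable def constExp (m N : ℕ) : Fin m →₀ ℕ := ∑ j : Fin m, Finsupp.single j N

theorem constExp_apply (m N : ℕ) (j : Fin m) : constExp m N j = N := by
  classical
  simp [constExp, Finsupp.finsetSum_apply, Finsupp.single_apply]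

omit [IsDomain O] [IsDiscreteValuationRing O] in
theorem prod_X_pow_eq_monomial (N : ℕ) :
    ∏ j : Fin m, (X j : MvPowerSeries (Fin m) O) ^ N = monomial (constExp m N) 1 := by
  classical
  unfold constExp
  have : ∀ S : Finset (Fin m), ∏ j ∈ S, (X j : MvPowerSeries (Fin m) O) ^ N =
      monomial (∑ j ∈ S, Finsupp.single j N) 1 := by
    intro S
    induction S using Finset.induction_on with
    | empty => simp [MvPowerSeries.monomial_zero_one]
    | insert a S ha ih =>
      rw [Finset.prod_insert ha, Finset.sum_insert ha, ih, X_pow_eq, monomial_mul_monomial,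
        mul_one]
  exact this Finset.univ

omit [IsDomain O] [IsDiscreteValuationRing O] in
/-- every element of `(X₁^(N+1), .., X_m^(N+1), ϖ)` has its `X^(N,..,N)`-coefficient in `(ϖ)`. -/
theorem coeff_constExp_mem (ϖ : O) (N : ℕ) {g : MvPowerSeries (Fin m) O}
    (hg : g ∈ Ideal.span (Set.range fun j : Fin m => (X j : MvPowerSeries (Fin m) O) ^ (N + 1)) ⊔
      Ideal.span {(C ϖ : MvPowerSeries (Fin m) O)}) :
    coeff (constExp m N) g ∈ Ideal.span {ϖ} := by
  classical
  obtain ⟨g₁, hg₁, g₂, hg₂, rfl⟩ := Submodule.mem_sup.mp hg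
  rw [map_add]
  refine Ideal.add_mem _ ?_ ?_
  · obtain ⟨u, rfl⟩ := Ideal.mem_span_range_iff_exists_fun.mp hg₁
    rw [map_sum]
    refine Ideal.sum_mem _ fun j _ => ?_
    have : coeff (constExp m N) (u j * (X j : MvPowerSeries (Fin m) O) ^ (N + 1)) = 0 := by
      rw [X_pow_eq, coeff_mul_monomial, if_neg]
      intro hle
      have := hle j
      simp only [constExp_apply, Finsupp.single_eq_same] at this
      omega
    rw [this]
    exact Ideal.zero_mem _
  · obtain ⟨c, rfl⟩ := Ideal.mem_span_singleton'.mp hg₂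
    rw [coeff_mul_C]
    exact Ideal.mul_mem_left _ _ (Ideal.mem_span_singleton_self ϖ)

/-- `(ϖ, X₁, .., X_m)` is a regular sequence: `X_k` is regular modulo `(ϖ, X_j : j < k)`. -/
theorem regMod_X {ϖ : O} (hϖ : Irreducible ϖ) (k : Fin m) :
    RegMod (Ideal.span {(C ϖ : MvPowerSeries (Fin m) O)} ⊔ initIdeal (Xv O m) k) (Xv O m k) := by
  have h1 : RegSeq (⊥ : Ideal (MvPowerSeries (Fin m) O))
      ((C ϖ : MvPowerSeries (Fin m) O) :: List.ofFn (Xv O m)) := by
    refine (regSeq_sopX (m := m) hϖ).perm ?_ (sopX_mem hϖ)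
    exact List.perm_append_singleton _ _
  rw [regSeq_cons, bot_sup_eq] at h1
  exact regMod_of_regSeq_ofFn _ _ h1.2 k

/-- **(NZ)** the determinant of a transition matrix from `X` to an `𝔪`-primary sequence `f = a X`
is not in `(f) + (ϖ)`. -/
theorem det_notMem {ϖ : O} (hϖ : Irreducible ϖ)
    (a : Matrix (Fin m) (Fin m) (MvPowerSeries (Fin m) O)) (N : ℕ)
    (hN : maximalIdeal (MvPowerSeries (Fin m) O) ^ N ≤
      Ideal.span (Set.range (a.mulVec (Xv O m))) ⊔
        Ideal.span {(C ϖ : MvPowerSeries (Fin m) O)}) :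
    a.det ∉ Ideal.span (Set.range (a.mulVec (Xv O m))) ⊔
      Ideal.span {(C ϖ : MvPowerSeries (Fin m) O)} := by
  classical
  intro hdet
  -- the quotient ring modulo `ϖ`
  set I₀ : Ideal (MvPowerSeries (Fin m) O) := Ideal.span {(C ϖ : MvPowerSeries (Fin m) O)}
    with hI₀
  let q := Ideal.Quotient.mk I₀
  let xb : Fin m → MvPowerSeries (Fin m) O ⧸ I₀ := fun j => q (Xv O m j)
  have hxb : IsRegFin xb := isRegFin_mk I₀ (Xv O m) (regMod_X hϖ)
  let ab : Matrix (Fin m) (Fin m) (MvPowerSeries (Fin m) O ⧸ I₀) := a.map q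
  let fb : Fin m → MvPowerSeries (Fin m) O ⧸ I₀ := fun i => q (a.mulVec (Xv O m) i)
  have hfb : ab.mulVec xb = fb := by
    funext i
    simp only [ab, xb, fb, Matrix.mulVec, dotProduct, Matrix.map_apply, map_sum, map_mul]
  -- `X_j^(N+1) ∈ (f̄)` in the quotient
  have hpow : ∀ j : Fin m, xb j ^ (N + 1) ∈ Ideal.span (Set.range fb) := by
    intro j
    have h1 : (Xv O m j) ^ (N + 1) ∈ maximalIdeal (MvPowerSeries (Fin m) O) ^ N := by
      have hX : Xv O m j ∈ maximalIdeal (MvPowerSeries (Fin m) O) :=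
        augIdeal_le_maximalIdeal (X_mem_augIdeal j)
      exact Ideal.pow_le_pow_right (Nat.le_succ N) (Ideal.pow_mem_pow hX (N + 1))
    have h2 := hN h1
    have h3 : q ((Xv O m j) ^ (N + 1)) ∈
        (Ideal.span (Set.range (a.mulVec (Xv O m)))).map q := by
      rw [Ideal.mem_quotient_iff_mem_sup]
      exact h2
    rw [Ideal.map_span, ← Set.range_comp] at h3
    rw [← map_pow]
    exact h3
  choose bfun hb using fun j => Ideal.mem_span_range_iff_exists_fun.mp (hpow j)
  let bb : Matrix (Fin m) (Fin m) (MvPowerSeries (Fin m) O ⧸ I₀) := Matrix.of bfun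
  have hbb : bb.mulVec fb = fun j => xb j ^ (N + 1) := by
    funext j
    rw [← hb j]
    rfl
  let Δ : Matrix (Fin m) (Fin m) (MvPowerSeries (Fin m) O ⧸ I₀) :=
    Matrix.diagonal fun j => xb j ^ N
  have hΔ : Δ.mulVec xb = fun j => xb j ^ (N + 1) := by
    funext j
    rw [Matrix.mulVec_diagonal, pow_succ]
  have hMM : Δ.mulVec xb = (bb * ab).mulVec xb := by
    rw [← Matrix.mulVec_mulVec, hfb, hbb, hΔ]
  -- independence of the determinant
  have hind := det_sub_det_mem_span hxb Δ (bb * ab) hMM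
  rw [hΔ, Matrix.det_mul] at hind
  -- `det b̄ · det ā ∈ (X̄^(N+1))`
  have hda : ab.det ∈ Ideal.span (Set.range fb) := by
    have h1 : ab.det = q a.det := by
      rw [RingHom.map_det]
      rfl
    rw [h1]
    have h3 : q a.det ∈ (Ideal.span (Set.range (a.mulVec (Xv O m)))).map q := by
      rw [Ideal.mem_quotient_iff_mem_sup]
      exact hdet
    rwa [Ideal.map_span, ← Set.range_comp] at h3
  have hbda : bb.det * ab.det ∈ Ideal.span (Set.range fun j => xb j ^ (N + 1)) := by
    obtain ⟨c, hc⟩ := Ideal.mem_span_range_iff_exists_fun.mp hda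
    rw [← hc, Finset.mul_sum]
    refine Ideal.sum_mem _ fun i _ => ?_
    have h1 := det_mul_mem_span_range bb fb i
    rw [hbb] at h1
    have h2 : bb.det * (c i * fb i) = c i * (bb.det * fb i) := by ring
    rw [h2]
    exact Ideal.mul_mem_left _ _ h1
  have hΔdet : Δ.det ∈ Ideal.span (Set.range fun j => xb j ^ (N + 1)) := by
    have := Ideal.add_mem _ hind hbda
    rwa [sub_add_cancel] at this
  -- back to `U`
  have hΔq : Δ.det = q (∏ j : Fin m, (X j : MvPowerSeries (Fin m) O) ^ N) := by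
    rw [Matrix.det_diagonal, map_prod]
    refine Finset.prod_congr rfl fun j _ => ?_
    rw [map_pow]
    rfl
  have hrange : (Set.range fun j => xb j ^ (N + 1)) =
      q '' (Set.range fun j : Fin m => (X j : MvPowerSeries (Fin m) O) ^ (N + 1)) := by
    rw [← Set.range_comp]
    refine congrArg Set.range (funext fun j => ?_)
    simp only [xb, Xv, Function.comp_apply, map_pow]
  rw [hΔq, hrange, ← Ideal.map_span, Ideal.mem_quotient_iff_mem_sup] at hΔdet
  have hcoeff := coeff_constExp_mem ϖ N hΔdet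
  rw [prod_X_pow_eq_monomial, coeff_monomial_same, Ideal.mem_span_singleton] at hcoeff
  exact hϖ.not_isUnit (isUnit_of_dvd_one hcoeff)

/-- nonzero constants are regular modulo an ideal modulo which `ϖ` is regular. -/
theorem regMod_C_of_ne_zero {ϖ : O} (hϖ : Irreducible ϖ)
    {I : Ideal (MvPowerSeries (Fin m) O)} (hreg : RegMod I (C ϖ : MvPowerSeries (Fin m) O))
    {c : O} (hc : c ≠ 0) : RegMod I (C c : MvPowerSeries (Fin m) O) := by
  obtain ⟨k, u, rfl⟩ := IsDiscreteValuationRing.eq_unit_mul_pow_irreducible hc hϖ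
  intro z hz
  have h1 : (C ϖ : MvPowerSeries (Fin m) O) ^ k * z ∈ I := by
    have h2 : (C ((u : O) * ϖ ^ k) : MvPowerSeries (Fin m) O) * z =
        C (u : O) * ((C ϖ) ^ k * z) := by
      rw [map_mul, map_pow]
      ring
    rw [h2] at hz
    have h3 := I.mul_mem_left (C ((u⁻¹ : Oˣ) : O)) hz
    rwa [← mul_assoc, ← map_mul, Units.inv_mul, map_one, one_mul] at h3
  exact hreg.pow k z h1

/-- **Tate–Wiebe, the hard inclusion**: `η_T ⊆ (det lin f)` for `T = U ⧸ (f)` a finite complete
intersection. -/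
theorem etaIdeal_ci_le {ϖ : O} (hϖ : Irreducible ϖ) (f : Fin m → MvPowerSeries (Fin m) O)
    (hf : ∀ i, f i ∈ augIdeal O m) (n : ℕ)
    (hn : maximalIdeal (MvPowerSeries (Fin m) O) ^ n ≤
      Ideal.span (Set.range f) ⊔ Ideal.span {(C ϖ : MvPowerSeries (Fin m) O)})
    (hI : Ideal.span (Set.range f) ≤ augIdeal O m) :
    etaIdeal (augQuot (Ideal.span (Set.range f)) hI) ≤
      Ideal.span {(Matrix.of fun i => lin (f i)).det} := by
  classical
  choose a ha using fun i => exists_eq_sum_mul_X (f i) (mem_augIdeal.mp (hf i))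
  let A : Matrix (Fin m) (Fin m) (MvPowerSeries (Fin m) O) := Matrix.of a
  have hAf : A.mulVec (Xv O m) = f := by
    funext i
    rw [ha i]
    rfl
  have hreg : RegMod (Ideal.span (Set.range f)) (C ϖ : MvPowerSeries (Fin m) O) :=
    (ci_regMod_and_colonPrincipal hϖ f hf n hn).1
  have hNZ : A.det ∉ Ideal.span (Set.range f) ⊔
      Ideal.span {(C ϖ : MvPowerSeries (Fin m) O)} := by
    have := det_notMem hϖ A n (by rw [hAf]; exact hn)
    rwa [hAf] at this
  have hD : constantCoeff A.det = (Matrix.of fun i => lin (f i)).det := by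
    rw [RingHom.map_det]
    congr 1
    ext i j
    have h1 := congrFun (lin_sum_mul_X (a i)) j
    rw [← ha i] at h1
    rw [Matrix.of_apply, h1]
    rfl
  set D : O := (Matrix.of fun i => lin (f i)).det with hDdef
  have hdetaug : ∀ g ∈ augIdeal O m, A.det * g ∈ Ideal.span (Set.range f) := by
    intro g hg
    obtain ⟨u, rfl⟩ := exists_eq_sum_mul_X g (mem_augIdeal.mp hg)
    rw [Finset.mul_sum]
    refine Ideal.sum_mem _ fun k _ => ?_
    have h1 := det_mul_mem_span_range A (Xv O m) k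
    rw [hAf] at h1
    have h2 : A.det * (u k * X k) = u k * (A.det * Xv O m k) := by
      unfold Xv
      ring
    rw [h2]
    exact Ideal.mul_mem_left _ _ h1
  intro c hc
  rw [mem_etaIdeal] at hc
  obtain ⟨abar, hann, hπ⟩ := hc
  obtain ⟨t, rfl⟩ := Ideal.Quotient.mk_surjective abar
  rw [augQuot_mk] at hπ
  have htaug : ∀ g ∈ augIdeal O m, t * g ∈ Ideal.span (Set.range f) := by
    intro g hg
    have h1 := hann (Ideal.Quotient.mk _ g) (by rw [augQuot_mk]; exact mem_augIdeal.mp hg)
    rwa [← map_mul, Ideal.Quotient.eq_zero_iff_mem] at h1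
  have hkey : C c * A.det - C D * t ∈ Ideal.span (Set.range f) := by
    have h1 : C c - t ∈ augIdeal O m := by
      rw [mem_augIdeal, map_sub, constantCoeff_C, hπ, sub_self]
    have h2 : A.det - C D ∈ augIdeal O m := by
      rw [mem_augIdeal, map_sub, constantCoeff_C, hD, sub_self]
    have h3 := hdetaug _ h1
    have h4 := htaug _ h2
    have h5 : C c * A.det - C D * t = A.det * (C c - t) + t * (A.det - C D) := by ring
    rw [h5]
    exact Ideal.add_mem _ h3 h4
  rw [Ideal.mem_span_singleton]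
  rcases ValuationRing.dvd_total D c with h | h
  · exact h
  · obtain ⟨e, he⟩ := h
    by_cases hc0 : c = 0
    · rw [hc0]
      exact dvd_zero _
    by_cases hu : IsUnit e
    · obtain ⟨u, rfl⟩ := hu
      exact ⟨↑u⁻¹, by rw [he, mul_assoc, Units.mul_inv, mul_one]⟩
    · exfalso
      have he𝔪 : e ∈ maximalIdeal O := (mem_maximalIdeal e).mpr (mem_nonunits_iff.mpr hu)
      rw [hϖ.maximalIdeal_eq, Ideal.mem_span_singleton'] at he𝔪
      obtain ⟨e', rfl⟩ := he𝔪
      have h5 : C c * (A.det - C ϖ * (C e' * t)) ∈ Ideal.span (Set.range f) := by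
        have h6 : C c * (A.det - C ϖ * (C e' * t)) = C c * A.det - C (c * (e' * ϖ)) * t := by
          simp only [map_mul]
          ring
        rw [h6, ← he]
        exact hkey
      have h6 := regMod_C_of_ne_zero hϖ hreg hc0 _ h5
      apply hNZ
      have h7 : A.det = (A.det - C ϖ * (C e' * t)) + (C e' * t) * C ϖ := by ring
      rw [h7]
      exact Submodule.add_mem_sup h6
        (Ideal.mul_mem_left _ _ (Ideal.mem_span_singleton_self _))

/-- **Tate–Wiebe**: for a finite complete intersection `T = O⟦X⟧ ⧸ (f₁..f_m)` the congruence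
ideal is generated by the determinant of the linear parts. -/
theorem etaIdeal_ci_eq {ϖ : O} (hϖ : Irreducible ϖ) (f : Fin m → MvPowerSeries (Fin m) O)
    (hf : ∀ i, f i ∈ augIdeal O m) (n : ℕ)
    (hn : maximalIdeal (MvPowerSeries (Fin m) O) ^ n ≤
      Ideal.span (Set.range f) ⊔ Ideal.span {(C ϖ : MvPowerSeries (Fin m) O)})
    (hI : Ideal.span (Set.range f) ≤ augIdeal O m) :
    etaIdeal (augQuot (Ideal.span (Set.range f)) hI) =
      Ideal.span {(Matrix.of fun i => lin (f i)).det} := by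
  refine le_antisymm (etaIdeal_ci_le hϖ f hf n hn hI) ?_
  rw [Ideal.span_le, Set.singleton_subset_iff]
  exact det_lin_mem_etaIdeal _ hI f fun i => Ideal.subset_span ⟨i, rfl⟩

omit [IsDomain O] [IsDiscreteValuationRing O] in
/-- the linear parts of an ideal generated by elements of `𝔭`. -/
theorem linImage_span_range (f : Fin m → MvPowerSeries (Fin m) O)
    (hf : ∀ i, f i ∈ augIdeal O m) :
    linImage (Ideal.span (Set.range f)) = Submodule.span O (Set.range fun i => lin (f i)) := by
  refine le_antisymm ?_ ?_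
  · intro v hv
    obtain ⟨g, hg, rfl⟩ := mem_linImage.mp hv
    obtain ⟨c, rfl⟩ := Ideal.mem_span_range_iff_exists_fun.mp hg
    rw [map_sum]
    refine Submodule.sum_mem _ fun i _ => ?_
    rw [lin_mul _ _ (mem_augIdeal.mp (hf i))]
    exact Submodule.smul_mem _ _ (Submodule.subset_span ⟨i, rfl⟩)
  · rw [Submodule.span_le]
    rintro _ ⟨i, rfl⟩
    exact mem_linImage.mpr ⟨f i, Ideal.subset_span ⟨i, rfl⟩, rfl⟩

/-- **the numerical EQUALITY for a complete intersection**: `#Φ_T = #(O ⧸ η_T)`. -/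
theorem card_quotient_linImage_eq [Finite (ResidueField O)] {ϖ : O} (hϖ : Irreducible ϖ)
    (f : Fin m → MvPowerSeries (Fin m) O) (hf : ∀ i, f i ∈ augIdeal O m) (n : ℕ)
    (hn : maximalIdeal (MvPowerSeries (Fin m) O) ^ n ≤
      Ideal.span (Set.range f) ⊔ Ideal.span {(C ϖ : MvPowerSeries (Fin m) O)})
    (hI : Ideal.span (Set.range f) ≤ augIdeal O m)
    (hdet : (Matrix.of fun i => lin (f i)).det ≠ 0) :
    Nat.card ((Fin m → O) ⧸ linImage (Ideal.span (Set.range f))) =
      Nat.card (O ⧸ etaIdeal (augQuot (Ideal.span (Set.range f)) hI)) := by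
  rw [etaIdeal_ci_eq hϖ f hf n hn hI, linImage_span_range f hf]
  exact card_quotient_span_rows (Matrix.of fun i => lin (f i)) hdet

end PS

end Fermat.Agent.GE9.NumCrit.TateWiebe
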