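/-
GE9-TATEWIEBE (S59 pre-work, helper99), file 3: **the plug** `detNotMemCI : Tate.DetNotMemCI O m`
(= `(NZ)`, `TateWiebe.det_notMem` in helper82's binder shape) and the BINDER-FREE forms of
helper82's `GE9/NumCrit/Tate.lean` exports:

* `etaIdeal_ci_eq` (ideal form, `I = (f₁..f_m)`),
* `card_linImage_eq_card_etaIdeal`,
* `card_cotangent_eq_card_etaIdeal_of_finite` : `T` finite over `O`, `ρ : O⟦X₁..X_m⟧ ↠ T` with
  `ker ρ = (f₁..f_m)` and `π_T ∘ ρ = constantCoeff` ⟹ `η_T = (det (lin f_i))` and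
  `#(𝔭_T / 𝔭_T²) = #(O ⧸ η_T)`  (= base case (B1) of the E9 induction).
-/
import Mathlib
import Fermat.Agent.GE9.NumCrit.Tate
import Fermat.Agent.GE9.NumCrit.TateWiebe

set_option autoImplicit false

namespace Fermat.Agent.GE9.NumCrit.TateFinal

open IsLocalRing MvPowerSeries Fermat.Agent.GE9.NumCrit

variable {O : Type*} [CommRing O] [IsDomain O] [IsDiscreteValuationRing O] {m : ℕ}

/-- `(NZ)` in the shape of helper82 6717. -/
theorem det_notMem_of_ci {ϖ : O} (hϖ : Irreducible ϖ) (f : Fin m → MvPowerSeries (Fin m) O)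
    (a : Matrix (Fin m) (Fin m) (MvPowerSeries (Fin m) O)) (ha : ∀ i, f i = ∑ j, a i j * X j)
    (n : ℕ) (hn : maximalIdeal (MvPowerSeries (Fin m) O) ^ n ≤
      Ideal.span (Set.range f) ⊔ Ideal.span {(C ϖ : MvPowerSeries (Fin m) O)}) :
    a.det ∉ Ideal.span (Set.range f) ⊔ Ideal.span {(C ϖ : MvPowerSeries (Fin m) O)} := by
  have h : a.mulVec (TateWiebe.Xv O m) = f := by
    funext i
    rw [ha i]
    rfl
  have h1 := TateWiebe.det_notMem hϖ a n (by rw [h]; exact hn)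
  rwa [h] at h1

/-- **the determinant half of Tate–Wiebe is a theorem.** -/
theorem detNotMemCI : Tate.DetNotMemCI O m :=
  fun hϖ f a ha n hn => det_notMem_of_ci hϖ f a ha n hn

/-- `η = (det lin f)` for `I = (f₁..f_m)` with `(I, ϖ)` `𝔪`-primary; binder-free. -/
theorem etaIdeal_ci_eq {ϖ : O} (hϖ : Irreducible ϖ) (I : Ideal (MvPowerSeries (Fin m) O))
    (hI : I ≤ augIdeal O m) (f : Fin m → MvPowerSeries (Fin m) O)
    (hIf : I = Ideal.span (Set.range f)) (n : ℕ)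
    (hn : maximalIdeal (MvPowerSeries (Fin m) O) ^ n ≤
      I ⊔ Ideal.span {(C ϖ : MvPowerSeries (Fin m) O)}) :
    etaIdeal (augQuot I hI) = Ideal.span {(Matrix.of fun i => lin (f i)).det} :=
  Tate.etaIdeal_ci_eq hϖ I hI f hIf n hn fun a ha =>
    det_notMem_of_ci hϖ f a ha n (by rw [← hIf]; exact hn)

variable [Finite (ResidueField O)]

/-- `#(O^m ⧸ lin I) = #(O ⧸ η)` for a finite complete intersection; binder-free. -/
theorem card_linImage_eq_card_etaIdeal {ϖ : O} (hϖ : Irreducible ϖ)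
    (I : Ideal (MvPowerSeries (Fin m) O)) (hI : I ≤ augIdeal O m)
    (f : Fin m → MvPowerSeries (Fin m) O) (hIf : I = Ideal.span (Set.range f)) (n : ℕ)
    (hn : maximalIdeal (MvPowerSeries (Fin m) O) ^ n ≤
      I ⊔ Ideal.span {(C ϖ : MvPowerSeries (Fin m) O)}) :
    Nat.card ((Fin m → O) ⧸ linImage I) = Nat.card (O ⧸ etaIdeal (augQuot I hI)) :=
  Tate.card_linImage_eq_card_etaIdeal hϖ I hI f hIf n hn fun a ha =>
    det_notMem_of_ci hϖ f a ha n (by rw [← hIf]; exact hn)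

/-- **Tate–Wiebe for consumers, binder-free**: `T` finite over `O`, `ρ : O⟦X₁..X_m⟧ ↠ T` with
`ker ρ = (f₁..f_m)`, `π_T ∘ ρ = constantCoeff`: `η_T = (det (lin f_i))` and
`#(𝔭_T / 𝔭_T²) = #(O ⧸ η_T)`. -/
theorem card_cotangent_eq_card_etaIdeal_of_finite {T : Type*} [CommRing T] [Algebra O T]
    [Module.Finite O T] (πT : T →ₐ[O] O) (ρ : MvPowerSeries (Fin m) O →ₐ[O] T)
    (hρ : Function.Surjective ρ) (hρε : ∀ u, πT (ρ u) = constantCoeff u)
    (f : Fin m → MvPowerSeries (Fin m) O) (hker : RingHom.ker ρ = Ideal.span (Set.range f)) :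
    etaIdeal πT = Ideal.span {(Matrix.of fun i => lin (f i)).det} ∧
      Nat.card (RingHom.ker πT).Cotangent = Nat.card (O ⧸ etaIdeal πT) :=
  Tate.card_cotangent_eq_card_etaIdeal_of_finite detNotMemCI πT ρ hρ hρε f hker

end Fermat.Agent.GE9.NumCrit.TateFinal
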